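import Fermat.Agent.TwoAdic.Scalar.Signed
import Fermat.Agent.TwoAdic.C0.Rank

/-!
The Hecke images of the signed parts at levels `N` and `2 N ∏ e²`, and the maps between them: the
operator at the lower level matched with each Hecke operator above.
-/

set_option autoImplicit false

open IsLocalRing

namespace Fermat.Agent.HeckeModule

open HeckeJ0 LevelRaising TwoAdic
open TwoAdic.C0 (HeckeImage)

attribute [local instance] Module.quotientAnnihilator

section Image

variable {O : Type} [CommRing O] {C : Type} [AddCommGroup C] [Module O C] [Module (HeckePoly O) C]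
  [IsScalarTower O (HeckePoly O) C]

instance isScalarTower_heckeImage : IsScalarTower O (HeckeImage O C) C :=
  ⟨fun a t x => by
    obtain ⟨P, rfl⟩ := Ideal.Quotient.mk_surjective t
    show (a • P) • x = a • P • x
    exact smul_assoc a P x⟩

omit [Module O C] [IsScalarTower O (HeckePoly O) C] in
lemma heckeImage_mk_smul (P : HeckePoly O) (x : C) :
    (Ideal.Quotient.mk (Module.annihilator (HeckePoly O) C) P : HeckeImage O C) • x = P • x := rfl

omit [Module O C] [IsScalarTower O (HeckePoly O) C] in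
/-- The Hecke image acts faithfully. -/
theorem heckeImage_eq_zero {t : HeckeImage O C} (h : ∀ x : C, t • x = 0) : t = 0 := by
  obtain ⟨P, rfl⟩ := Ideal.Quotient.mk_surjective t
  exact Ideal.Quotient.eq_zero_iff_mem.mpr (Module.mem_annihilator.mpr h)

end Image

variable {O : Type} [CommRing O] [IsLocalRing O] {N : ℕ} {W : Finset ℕ} {S : Set ℕ}

/-- The hypotheses on the base level and on the auxiliary primes `E`. -/
structure IsSquareData (m : Ideal (AwayPoly O S)) [m.IsPrime] (E : Finset ℕ)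
    (hW : IsALPrimes N W) (c : ℕ → O) (hWS : ∀ e ∈ W, e ∈ S)
    (α : Module.End (HeckePoly O) (CohLoc (awayMonoid m) (oneRep O O N))) : Prop where
  le : (maximalIdeal O).map (algebraMap O (AwayPoly O S)) ≤ m
  two_notDvd : ¬ 2 ∣ N
  primes : ∀ e ∈ E, e.Prime ∧ e ≠ 2 ∧ ¬ e ∣ N
  two_notMem : 2 ∉ S
  mem_S : ∀ e ∈ E, e ∈ S
  sq : ∀ e ∈ W, c e * c e = 1
  ihara : Nonempty (IharaPrimes (awayMonoid m) (2 * N * sqPow E) 2 2)
  elliptic₄ : ∀ x : ZMod N, x ^ 2 + 1 ≠ 0
  elliptic₃ : ∀ x : ZMod N, x ^ 2 + x + 1 ≠ 0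
  lift : ∀ (V : Finset ℕ) (hV : V ⊆ W), TwoLiftable (PAL N V (hW.mono hV))
  one : MvPolynomial.X (@inIndex 2 ⟨Nat.prime_two⟩ S two_notMem) - MvPolynomial.C 1 ∈ m
  bijective : Function.Bijective α
  root : ∀ x, α (α x) = (MvPolynomial.X (@sqPrime 2 ⟨Nat.prime_two⟩) : HeckePoly O) • α x
    - ((2 : ℕ) : O) • x

section Step

variable (m : Ideal (AwayPoly O S)) [m.IsPrime]
  (C : Submodule (HeckePoly O) (CohLoc (awayMonoid m) (oneRep O O N)))
  (E : Finset ℕ) (αT : HeckeImage O C)

/-- The image below of `X_l`: the root at `2`, zero on `E`, `T_l` elsewhere. -/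
noncomputable def stepImage (l : Nat.Primes) : HeckeImage O C :=
  if (l : ℕ) = 2 then αT
  else if (l : ℕ) ∈ E then 0
  else Ideal.Quotient.mk _ (MvPolynomial.X l)

variable {m C E αT}

omit [IsLocalRing O] in
lemma coe_stepImage_smul
    (α : Module.End (HeckePoly O) (CohLoc (awayMonoid m) (oneRep O O N)))
    (hαT : ∀ x : C, ((αT • x : C) : CohLoc (awayMonoid m) (oneRep O O N)) = α x) (l : Nat.Primes)
    (x : C) :
    ((stepImage m C E αT l • x : C) : CohLoc (awayMonoid m) (oneRep O O N))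
      = stepOp E α l x := by
  by_cases h2 : (l : ℕ) = 2
  · rw [stepOp_two _ _ h2, stepImage, if_pos h2, hαT]
  · by_cases hl : (l : ℕ) ∈ E
    · rw [stepOp_mem _ _ h2 hl, stepImage, if_neg h2, if_pos hl]
      exact congrArg Subtype.val (zero_smul (HeckeImage O C) x)
    · rw [stepOp_notMem _ _ h2 hl, stepImage, if_neg h2, if_neg hl, heckeImage_mk_smul]; rfl

end Step

variable [IsNoetherianRing O] [IsAdicComplete (maximalIdeal O) O] [CharP (ResidueField O) 2]
  [NeZero N] {m : Ideal (AwayPoly O S)} [m.IsPrime] {E : Finset ℕ} {hW : IsALPrimes N W}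
  {c : ℕ → O} {hWS : ∀ e ∈ W, e ∈ S}
  {α : Module.End (HeckePoly O) (CohLoc (awayMonoid m) (oneRep O O N))}
  (D : IsSquareData m E hW c hWS α) {L : ℕ} (hL : L = 2 * N * sqPow E) {S' : Set ℕ}
  (hS' : S' = S \ ↑E) (m' : Ideal (AwayPoly O S')) [m'.IsPrime]
  (hm' : m' = relaxIdeal m S' fun _ => 0) (hW' : IsALPrimes L W) (hWS' : ∀ e ∈ W, e ∈ S')
  (C : Submodule (HeckePoly O) (CohLoc (awayMonoid m) (oneRep O O N)))
  (hC : ∀ x, x ∈ C ↔ ∀ e ∈ W, alOneLoc O hW c (isAway_awayMonoid m) hWS e x = x)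
  (C' : Submodule (HeckePoly O) (CohLoc (awayMonoid m') (oneRep O O L)))
  (hC' : ∀ y, y ∈ C' ↔ ∀ e ∈ W, alOneLoc O hW' c (isAway_awayMonoid m') hWS' e y = y)
  (αT : HeckeImage O C)
  (hαT : ∀ x : C, ((αT • x : C) : CohLoc (awayMonoid m) (oneRep O O N)) = α x)

omit [IsAdicComplete (maximalIdeal O) O] [CharP (ResidueField O) 2] [NeZero N] in
include D in
omit [IsNoetherianRing O] in
/-- Exactness at the base level. -/
theorem IsSquareData.exactHyp : ExactHyp (awayMonoid m) (1 : (ZMod N)ˣ →* O) where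
  nonEisenstein := by
    obtain ⟨H⟩ := D.ihara
    refine ⟨H.r, H.primer.out, ?_, H.eisen_mem⟩
    have h := congrArg (ZMod.castHom ((dvd_mul_left N 2).mul_right (sqPow E)) (ZMod N)) H.r_eq
    rwa [map_natCast, map_one] at h
  liftable := liftable_of_dvd dvd_rfl D.elliptic₄ D.elliptic₃
  even := rfl

include D hL hS' hm' hC hC' hαT in
/-- **The maps of the criterion**: a homomorphism of Hecke images sending each `X_l` to its match,
and raising and lowering maps linear over it, split injective and surjective, with composite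
`(α² - 1) (α² - 2) ∏ (e - 1) ((e + 1)² - T_e²)`. -/
theorem exists_levelHom :
    ∃ (s : HeckeImage O C' →ₐ[O] HeckeImage O C)
      (ι : CohLoc (awayMonoid m) (oneRep O O N) →ₗ[O] CohLoc (awayMonoid m') (oneRep O O L))
      (ι₀ : C →ₗ[O] C') (ι₀' : C' →ₗ[O] C),
      (∀ l, s (Ideal.Quotient.mk _ (MvPolynomial.X l)) = stepImage m C E αT l) ∧
      (∀ x : C, ((ι₀ x : C') : CohLoc (awayMonoid m') (oneRep O O L)) = ι x) ∧
      (∃ left, left ∘ₗ ι = LinearMap.id) ∧
      (∀ x, ι x ∈ C' → x ∈ C) ∧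
      (∀ (t : HeckeImage O C') (x : C), ι₀ (s t • x) = t • ι₀ x) ∧
      (∀ (t : HeckeImage O C') (y : C'), ι₀' (t • y) = s t • ι₀' y) ∧
      Function.Surjective ι₀' ∧
      ∀ x : C, ι₀' (ι₀ x) = (Ideal.Quotient.mk _ (sqProd O E)
        * ((αT * αT - 1) * (αT * αT - ((2 : ℕ) : HeckeImage O C)))) • x := by
  classical
  obtain ⟨H⟩ := D.ihara
  obtain ⟨ι, ι', T⟩ := exists_tower m D.le hW c hWS α D.two_notDvd D.primes D.two_notMem D.mem_S H
    D.elliptic₄ D.elliptic₃ D.one D.bijective D.root E subset_rfl L hL S' hS' m' hm' hW' hWS'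
  obtain ⟨left, hleft⟩ := T.split
  have hιinj : Function.Injective ι := Function.LeftInverse.injective (g := left)
    fun z => LinearMap.congr_fun hleft z
  have hup : ∀ x : C, ι x ∈ C' := fun x => (hC' _).mpr fun e he => by
    rw [T.w_raise e he, (hC _).mp x.2 e he]
  have hdown : ∀ y : C', ι' y ∈ C := fun y => (hC _).mpr fun e he => by
    rw [T.w_lower e he, (hC' _).mp y.2 e he]
  have hαC : ∀ z, z ∈ C → α z ∈ C := fun z hz => hαT ⟨z, hz⟩ ▸ (αT • ⟨z, hz⟩ : C).2
  let ι₀ : C →ₗ[O] C' :=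
    { toFun := fun x => ⟨ι x, hup x⟩
      map_add' := fun a b => Subtype.ext (map_add ι _ _)
      map_smul' := fun r a => Subtype.ext (map_smul ι r _) }
  let low : C' →ₗ[O] C :=
    { toFun := fun y => ⟨ι' y, hdown y⟩
      map_add' := fun a b => Subtype.ext (map_add ι' _ _)
      map_smul' := fun r a => Subtype.ext (map_smul ι' r _) }
  let ι₀' : C' →ₗ[O] C :=
    { toFun := fun y => ⟨α (ι' y), hαC _ (hdown y)⟩
      map_add' := fun a b => Subtype.ext ((congrArg α (map_add ι' _ _)).trans (map_add α _ _))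
      map_smul' := fun r a => Subtype.ext
        ((congrArg α (map_smul ι' r _)).trans (α.map_smul_of_tower r _)) }
  let h : HeckePoly O →ₐ[O] HeckeImage O C := MvPolynomial.aeval (stepImage m C E αT)
  have hh : ∀ (P : HeckePoly O),
      (∀ x : C, P • ι₀ x = ι₀ (h P • x)) ∧ ∀ y : C', ι₀' (P • y) = h P • ι₀' y := by
    intro P
    induction P using MvPolynomial.induction_on with
    | C r => refine ⟨fun x => ?_, fun y => ?_⟩ <;>
        rw [← MvPolynomial.algebraMap_eq, AlgHom.commutes, algebraMap_smul, algebraMap_smul, map_smul]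
    | add p p' hp hp' =>
      exact ⟨fun x => by rw [add_smul, hp.1, hp'.1, map_add, add_smul, map_add],
        fun y => by rw [add_smul, map_add, hp.2, hp'.2, map_add, add_smul]⟩
    | mul_X p l hp =>
      have hX : h (MvPolynomial.X l) = stepImage m C E αT l := MvPolynomial.aeval_X _ _
      have e1 : ∀ x : C, (MvPolynomial.X l : HeckePoly O) • ι₀ x
          = ι₀ (stepImage m C E αT l • x) := fun x => Subtype.ext (by
        show (MvPolynomial.X l : HeckePoly O) • ι x = ι ((stepImage m C E αT l • x : C) : _)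
        rw [T.smul_raise, coe_stepImage_smul α hαT])
      have e2 : ∀ y : C', ι₀' ((MvPolynomial.X l : HeckePoly O) • y)
          = stepImage m C E αT l • ι₀' y := fun y => by
        refine Subtype.ext (Eq.trans ?_ (coe_stepImage_smul α hαT l (ι₀' y)).symm)
        show α (ι' ((MvPolynomial.X l : HeckePoly O) • (y : CohLoc (awayMonoid m') (oneRep O O L))))
          = stepOp E α l (α (ι' y))
        rw [T.lower_smul]
        by_cases h2 : (l : ℕ) = 2
        · rw [stepOp_two _ _ h2, stepOp_two _ _ h2]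
        · by_cases hl : (l : ℕ) ∈ E
          · rw [stepOp_mem _ _ h2 hl, stepOp_mem _ _ h2 hl, map_zero]
          · rw [stepOp_notMem _ _ h2 hl, stepOp_notMem _ _ h2 hl, map_smul]
      exact ⟨fun x => by rw [mul_smul, e1, hp.1, map_mul, hX, mul_smul],
        fun y => by rw [mul_smul, hp.2, e2, map_mul, hX, mul_smul]⟩
  have hker : ∀ P ∈ Module.annihilator (HeckePoly O) C', h P = 0 := fun P hP =>
    heckeImage_eq_zero fun x => Subtype.ext (hιinj (by
      have h1 := (hh P).1 x
      rw [Module.mem_annihilator.mp hP] at h1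
      have h2 := congrArg Subtype.val h1
      exact h2.symm.trans (map_zero ι).symm))
  let s : HeckeImage O C' →ₐ[O] HeckeImage O C := Ideal.Quotient.liftₐ _ h hker
  have hsmk : ∀ P, s (Ideal.Quotient.mk _ P) = h P := fun P => Ideal.Quotient.liftₐ_apply _ h hker _
  refine ⟨s, ι, ι₀, ι₀', fun l => ?_, fun _ => rfl, ⟨left, hleft⟩, fun x hx => ?_, fun t x => ?_,
    fun t y => ?_, fun x => ?_, fun x => ?_⟩
  · rw [hsmk]; exact MvPolynomial.aeval_X _ _
  · exact (hC x).mpr fun e he => hιinj (by rw [← T.w_raise e he, (hC' _).mp hx e he])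
  · obtain ⟨P, rfl⟩ := Ideal.Quotient.mk_surjective t
    rw [hsmk, heckeImage_mk_smul, (hh P).1]
  · obtain ⟨P, rfl⟩ := Ideal.Quotient.mk_surjective t
    rw [hsmk, heckeImage_mk_smul, (hh P).2]
  · -- surjectivity on signed parts
    obtain ⟨z, hz⟩ := D.bijective.2 (x : CohLoc (awayMonoid m) (oneRep O O N))
    obtain ⟨hfin, -⟩ := free_cohChar_of_complete m (1 : (ZMod N)ˣ →* O) D.le D.exactHyp
    have : Module.Finite O (CohLoc (awayMonoid m) (oneRep O O N)) := hfin
    have hW2 : ∀ e ∈ W, e ≠ 2 := fun e he h => D.two_notDvd (h ▸ (hW e he).2.1)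
    have hzC : z ∈ fixedPart (alOneLoc O hW c (isAway_awayMonoid m) hWS) W :=
      (mem_fixedPart _).mpr fun e he => D.bijective.1 (by
        have : Fact (Nat.Prime 2) := ⟨Nat.prime_two⟩
        refine (comm_of_root (O := O) natCast_two_mem (alOneLoc O hW c (isAway_awayMonoid m) hWS e)
          (T := Algebra.lsmul O O _ (MvPolynomial.X (sqPrime 2) : HeckePoly O))
          (T' := Algebra.lsmul O O _ (MvPolynomial.X (sqPrime 2) : HeckePoly O))
          (α := α.restrictScalars O) (α' := α.restrictScalars O)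
          (fun y => alOneLoc_X_smul hW c _ hWS he (Ne.symm (hW2 e he)) y) D.bijective D.bijective
          D.root (fun y => (α.map_smul _ y).symm) D.root z).symm.trans ?_
        show alOneLoc O hW c (isAway_awayMonoid m) hWS e (α z) = α z
        rw [hz]
        exact (hC _).mp x.2 e he)
    obtain ⟨y, hy, hyz⟩ := exists_fixed_preimage (alOneLoc O hW c (isAway_awayMonoid m) hWS)
      (alOneLoc O hW' c (isAway_awayMonoid m') hWS') ι' T.surj T.w_lower
      (fun e he y => alOneLoc_alOneLoc hW' c _ hWS' D.sq he y)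
      (fun e he e' he' y => alOneLoc_comm hW' c _ hWS' he he' y)
      (exists_norm_signed m D.le hW c hWS D.sq D.exactHyp D.lift) W subset_rfl z hzC
    exact ⟨⟨y, (hC' y).mpr ((mem_fixedPart _).mp hy)⟩, Subtype.ext ((congrArg α hyz).trans hz)⟩
  · refine Subtype.ext ?_
    show α (ι' (ι x)) = _
    rw [T.comp, mul_smul, heckeImage_mk_smul]
    show _ = sqProd O E • ((((αT * αT - 1) * (αT * αT - ((2 : ℕ) : HeckeImage O C))) • x : C) :
      CohLoc (awayMonoid m) (oneRep O O N))
    congr 1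
    have h2 : ∀ z : C, ((2 : ℕ) : HeckeImage O C) • z = ((2 : ℕ) : O) • z := fun z => by
      rw [← map_natCast (algebraMap O (HeckeImage O C)), algebraMap_smul]
    simp only [mul_smul, sub_smul, one_smul, h2, smul_sub, smul_comm αT ((2 : ℕ) : O),
      Submodule.coe_sub, Submodule.coe_smul_of_tower, hαT, LinearMap.map_smul_of_tower, map_sub]

end Fermat.Agent.HeckeModule
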