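import Fermat.Agent.TwoAdic.Scalar.RootExists
import Fermat.Agent.TwoAdic.Scalar.FinalData
import Fermat.Agent.TwoAdic.TSide.Reduced

/-!
The unit root at a Hecke operator acting bijectively: as an endomorphism linear over all Hecke
polynomials, and its agreement with a unit root in the Hecke image of a stable part.
-/

set_option autoImplicit false

open IsLocalRing

namespace Fermat.Agent.HeckeModule

open TwoAdic
open TwoAdic.C0 (HeckeImage)

attribute [local instance] Module.quotientAnnihilator

variable {O : Type} [CommRing O] [IsNoetherianRing O] [IsLocalRing O]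
  [IsAdicComplete (maximalIdeal O) O] {E : Type} [AddCommGroup E] [Module O E]
  [Module (HeckePoly O) E] [IsScalarTower O (HeckePoly O) E]

/-- The unit root is linear over all Hecke polynomials. -/
theorem exists_root_linear [Module.Finite O E] {q : O} (hq : q ∈ maximalIdeal O) (l : Nat.Primes)
    (hb : Function.Bijective fun x : E => (MvPolynomial.X l : HeckePoly O) • x) :
    ∃ α : Module.End (HeckePoly O) E, Function.Bijective α ∧
      ∀ x, α (α x) = (MvPolynomial.X l : HeckePoly O) • α x - q • x := by
  obtain ⟨a, hab, ha, hc⟩ := exists_root hq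
    (Algebra.lsmul O O E (MvPolynomial.X l : HeckePoly O) : Module.End O E) hb
  refine ⟨{ toFun := a, map_add' := map_add a, map_smul' := fun P x => ?_ }, hab, ha⟩
  exact (LinearMap.congr_fun (hc (Algebra.lsmul O O E P)
    ((Commute.all P (MvPolynomial.X l)).map (Algebra.lsmul O O E))).eq x).symm

variable {C : Submodule (HeckePoly O) E}

omit [IsAdicComplete (maximalIdeal O) O] in
/-- A unit root in the Hecke image of a stable part acts as the root. -/
theorem coe_heckeImage_root_smul [Module.Finite O E] {q : O} (hq : q ∈ maximalIdeal O)
    {l : Nat.Primes} (α : Module.End (HeckePoly O) E) (hαb : Function.Bijective α)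
    (hα : ∀ x, α (α x) = (MvPolynomial.X l : HeckePoly O) • α x - q • x)
    {a : HeckeImage O C} (hau : IsUnit a)
    (ha : a * a = Ideal.Quotient.mk _ (MvPolynomial.X l) * a - algebraMap O _ q) (x : C) :
    ((a • x : C) : E) = α x :=
  comm_of_root hq (C.subtype.restrictScalars O)
    (T := Algebra.lsmul O O C (MvPolynomial.X l : HeckePoly O))
    (T' := Algebra.lsmul O O E (MvPolynomial.X l : HeckePoly O))
    (α := Algebra.lsmul O O C a) (α' := α.restrictScalars O) (fun _ => rfl)
    ((Module.End.isUnit_iff _).mp (hau.map (Algebra.lsmul O O C))) hαb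
    (fun y => by
      show a • a • y = (MvPolynomial.X l : HeckePoly O) • a • y - q • y
      rw [← mul_smul, ha, sub_smul, mul_smul, algebraMap_smul, heckeImage_mk_smul])
    (fun y => (α.map_smul _ y).symm) hα x

end Fermat.Agent.HeckeModule
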