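import Fermat.Agent.TwoAdic.Scalar.Final
import Fermat.Agent.TwoAdic.Scalar.RootImage
import Fermat.Agent.TwoAdic.C0.Setup

/-!
The inputs of the criterion from a setup with vanishing faces: the base module as a module for the
trivial representation, the unit root at `2`, and the root in the Hecke image.
-/

set_option autoImplicit false

open IsLocalRing

namespace Fermat.Agent.HeckeModule

open HeckeJ0 LevelRaising TwoAdic
open TwoAdic.C0 (HeckeImage)

attribute [local instance] ALSetup.isPrime Module.quotientAnnihilator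

section Cast

variable {O : Type} [CommRing O] {P : Submonoid (HeckePoly O)} {N : ℕ}

/-- The localised `H¹` of equal representations. -/
noncomputable def cohLocOfEq {ρ σ : Representation O (ZMod N)ˣ O} (h : ρ = σ) :
    CohLoc P ρ ≃ₗ[HeckePoly O] CohLoc P σ := by
  subst h
  exact LinearEquiv.refl _ _

lemma scalarRep_level_one {M : ℕ} (hM : M ∣ N) (χ : (ZMod M)ˣ →* O) (hχ : χ = 1) :
    scalarRep (levelChar hM χ) O = oneRep O O N := by
  subst hχ
  rfl

/-- With trivial character the two involutions agree. -/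
theorem cohLocOfEq_alLoc {M : ℕ} (hM : M ∣ N) (χ : (ZMod M)ˣ →* O) (hχ : χ = 1) {W : Finset ℕ}
    (hW : IsALPrimes N W) (hWM : ∀ e ∈ W, e.Coprime M) (c : ℕ → O) {S : Set ℕ} (hP : IsAway S P)
    (hWS : ∀ e ∈ W, e ∈ S) (e : ℕ) (x : CohLoc P (scalarRep (levelChar hM χ) O)) :
    cohLocOfEq (scalarRep_level_one hM χ hχ) (alLoc O hW hWM hM χ c hP hWS e x)
      = alOneLoc O hW c hP hWS e (cohLocOfEq (scalarRep_level_one hM χ hχ) x) := by
  subst hχ
  show alLoc O hW hWM hM 1 c hP hWS e x = alOneLoc O hW c hP hWS e x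
  by_cases he : e ∈ W
  · induction x using LocalizedModule.induction_on with
    | _ u s =>
      refine (alLoc_mk hW hWM hM 1 c hP hWS he u s).trans
        (Eq.trans ?_ (alOneLoc_mk hW c hP hWS he u s).symm)
      obtain ⟨z, rfl⟩ := toCoh_surjective _ u
      rfl
  · rw [alLoc, alOneLoc, dif_neg he, dif_neg he]

end Cast

variable {O : Type} [CommRing O] [IsLocalRing O] {T : ALSetup O} {V : Finset ℕ} (hV : V ⊆ T.W)
  (hχ : T.χ = 1)

include hV in
/-- The involution primes are omitted. -/
lemma mem_S_of_subset : ∀ e ∈ V, e ∈ T.S := fun e he => T.mem_S e (hV he)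

/-- The base module, for the trivial representation. -/
noncomputable def baseEquiv (hχ : T.χ = 1) :
    T.H V O ≃ₗ[HeckePoly O] CohLoc (awayMonoid T.m) (oneRep O O (T.level V)) :=
  cohLocOfEq (scalarRep_level_one (T.dvd_level V) T.χ hχ)

lemma baseEquiv_w (e : ℕ) (x : T.H V O) :
    baseEquiv hχ (T.w O hV e x) = alOneLoc O (T.isAL hV) T.c (isAway_awayMonoid T.m)
      (mem_S_of_subset hV) e (baseEquiv hχ x) :=
  cohLocOfEq_alLoc (T.dvd_level V) T.χ hχ _ _ _ _ _ e x

variable (hlow : T.LowerVanish V)

/-- The signed part, for the trivial representation. -/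
noncomputable def baseSigned :
    Submodule (HeckePoly O) (CohLoc (awayMonoid T.m) (oneRep O O (T.level V))) :=
  (ALSetup.signedHecke hV hχ hlow).map (baseEquiv hχ).toLinearMap

lemma mem_baseSigned (x : CohLoc (awayMonoid T.m) (oneRep O O (T.level V))) :
    x ∈ baseSigned hV hχ hlow ↔ ∀ e ∈ V, alOneLoc O (T.isAL hV) T.c (isAway_awayMonoid T.m)
      (mem_S_of_subset hV) e x = x := by
  obtain ⟨y, rfl⟩ := (baseEquiv hχ).surjective x
  refine (Submodule.mem_map_equiv (p := ALSetup.signedHecke hV hχ hlow)).trans ?_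
  rw [LinearEquiv.symm_apply_apply, ALSetup.mem_signedHecke, T.mem_signed]
  refine forall₂_congr fun e _ => ?_
  rw [← baseEquiv_w hV hχ, (baseEquiv hχ).injective.eq_iff]

/-- The identification of the signed parts. -/
noncomputable def baseSignedEquiv :
    ALSetup.signedHecke hV hχ hlow ≃ₗ[HeckePoly O] baseSigned hV hχ hlow :=
  (baseEquiv hχ).submoduleMap _

lemma annihilator_baseSigned :
    Module.annihilator (HeckePoly O) (ALSetup.signedHecke hV hχ hlow)
      = Module.annihilator (HeckePoly O) (baseSigned hV hχ hlow) :=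
  (baseSignedEquiv hV hχ hlow).annihilator_eq

/-- The identification of the Hecke images. -/
noncomputable def baseImageEquiv :
    HeckeImage O (ALSetup.signedHecke hV hχ hlow) ≃ₐ[O] HeckeImage O (baseSigned hV hχ hlow) :=
  Ideal.quotientEquivAlgOfEq O (annihilator_baseSigned hV hχ hlow)

lemma baseImageEquiv_mk (P : HeckePoly O) :
    baseImageEquiv hV hχ hlow (Ideal.Quotient.mk _ P) = Ideal.Quotient.mk _ P := rfl

lemma baseSignedEquiv_smul (t : HeckeImage O (ALSetup.signedHecke hV hχ hlow))
    (x : ALSetup.signedHecke hV hχ hlow) :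
    baseSignedEquiv hV hχ hlow (t • x)
      = baseImageEquiv hV hχ hlow t • baseSignedEquiv hV hχ hlow x := by
  obtain ⟨P, rfl⟩ := Ideal.Quotient.mk_surjective t
  exact map_smul (baseSignedEquiv hV hχ hlow) P x

lemma baseSignedEquiv_symm_smul (t : HeckeImage O (baseSigned hV hχ hlow))
    (y : baseSigned hV hχ hlow) :
    (baseSignedEquiv hV hχ hlow).symm (t • y)
      = (baseImageEquiv hV hχ hlow).symm t • (baseSignedEquiv hV hχ hlow).symm y := by
  refine (baseSignedEquiv hV hχ hlow).injective ?_
  rw [baseSignedEquiv_smul, AlgEquiv.apply_symm_apply, LinearEquiv.apply_symm_apply,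
    LinearEquiv.apply_symm_apply]

/-- A basis of the signed part gives one for the trivial representation. -/
noncomputable def baseBasis {ι : Type} [Fintype ι]
    (b : Module.Basis ι (HeckeImage O (ALSetup.signedHecke hV hχ hlow))
      (ALSetup.signedHecke hV hχ hlow)) :
    Module.Basis ι (HeckeImage O (baseSigned hV hχ hlow)) (baseSigned hV hχ hlow) :=
  Module.Basis.ofEquivFun
    { toFun := fun y i =>
        baseImageEquiv hV hχ hlow (b.equivFun ((baseSignedEquiv hV hχ hlow).symm y) i)
      invFun := fun f => baseSignedEquiv hV hχ hlow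
        (b.equivFun.symm fun i => (baseImageEquiv hV hχ hlow).symm (f i))
      left_inv := fun y => by
        simp only [AlgEquiv.symm_apply_apply, LinearEquiv.symm_apply_apply,
          LinearEquiv.apply_symm_apply]
      right_inv := fun f => by
        simp only [LinearEquiv.symm_apply_apply, LinearEquiv.apply_symm_apply,
          AlgEquiv.apply_symm_apply]
      map_add' := fun y z => funext fun i => by
        simp only [map_add, Pi.add_apply]
      map_smul' := fun t y => funext fun i => by
        simp only [baseSignedEquiv_symm_smul, map_smul, Pi.smul_apply, smul_eq_mul, map_mul,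
          AlgEquiv.apply_symm_apply, RingHom.id_apply] }

variable [IsNoetherianRing O] [IsAdicComplete (maximalIdeal O) O]

/-- The base module is finite free. -/
theorem free_base (hV : V ⊆ T.W) (hχ : T.χ = 1) :
    Module.Finite O (CohLoc (awayMonoid T.m) (oneRep O O (T.level V))) ∧
      Module.Free O (CohLoc (awayMonoid T.m) (oneRep O O (T.level V))) := by
  obtain ⟨h₁, h₂⟩ := T.free_H hV
  exact ⟨Module.Finite.equiv ((baseEquiv hχ).restrictScalars O),
    Module.Free.of_equiv ((baseEquiv hχ).restrictScalars O)⟩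

variable (h2S : 2 ∉ T.S)
  (hone : MvPolynomial.X (@inIndex 2 ⟨Nat.prime_two⟩ T.S h2S) - MvPolynomial.C 1 ∈ T.m)

omit [IsNoetherianRing O] [IsAdicComplete (maximalIdeal O) O] in
include hone in
/-- `X₂` acts bijectively on the base module. -/
theorem bijective_two_smul {N : ℕ} {ρ : Representation O (ZMod N)ˣ O} :
    Function.Bijective fun x : CohLoc (awayMonoid T.m) ρ =>
      (MvPolynomial.X (@sqPrime 2 ⟨Nat.prime_two⟩) : HeckePoly O) • x :=
  @bijective_X_smul O _ O _ _ 2 ⟨Nat.prime_two⟩ T.S h2S T.m _ hone N ρ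

omit hlow in
include hV hχ hone in
/-- The unit root at `2` on the base module. -/
theorem exists_alpha :
    ∃ α : Module.End (HeckePoly O) (CohLoc (awayMonoid T.m) (oneRep O O (T.level V))),
      Function.Bijective α ∧ ∀ x, α (α x) =
        (MvPolynomial.X (@sqPrime 2 ⟨Nat.prime_two⟩) : HeckePoly O) • α x - ((2 : ℕ) : O) • x := by
  obtain ⟨_, -⟩ := free_base hV hχ
  exact exists_root_linear (q := ((2 : ℕ) : O)) (by exact_mod_cast T.two) _
    (bijective_two_smul h2S hone)

omit [IsNoetherianRing O] [IsAdicComplete (maximalIdeal O) O] in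
include hχ in
/-- **The data of the criterion from a setup.** -/
theorem isSquareData_of_setup
    (α : Module.End (HeckePoly O) (CohLoc (awayMonoid T.m) (oneRep O O (T.level V))))
    (hαb : Function.Bijective α)
    (hα : ∀ x, α (α x) =
      (MvPolynomial.X (@sqPrime 2 ⟨Nat.prime_two⟩) : HeckePoly O) • α x - ((2 : ℕ) : O) • x)
    (hone : MvPolynomial.X (@inIndex 2 ⟨Nat.prime_two⟩ T.S h2S) - MvPolynomial.C 1 ∈ T.m)
    (h2c : ¬ 2 ∣ T.core) {E : Finset ℕ}
    (hE : ∀ e ∈ E, e.Prime ∧ e ≠ 2 ∧ ¬ e ∣ T.level V ∧ e ∈ T.S)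
    (H : IharaPrimes (awayMonoid T.m) (2 * T.level V * sqPow E) 2 2) :
    IsSquareData T.m E (T.isAL hV) T.c (mem_S_of_subset hV) α := by
  have hl : ∀ f : ∀ {n : ℕ}, ZMod n → ZMod n, (∀ {a b : ℕ} (h : a ∣ b) (t : ZMod b),
      ZMod.castHom h (ZMod a) (f t) = f (ZMod.castHom h (ZMod a) t)) →
      (∀ t : ZMod T.core, f t ≠ 0) → ∀ t : ZMod (T.level V), f t ≠ 0 := fun f hf h t ht => by
    have := congrArg (ZMod.castHom (dvd_mul_right T.core (prodOf V)) (ZMod T.core)) ht
    rw [hf, map_zero] at this
    exact h _ this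
  exact {
    le := T.le
    two_notDvd := fun h => by
      rcases Nat.prime_two.dvd_mul.mp h with h | h
      · exact h2c h
      · obtain ⟨a, ha, h2a⟩ := ((Nat.prime_iff.mp Nat.prime_two).dvd_finsetProd_iff _).mp h
        exact h2S ((Nat.prime_dvd_prime_iff_eq Nat.prime_two (T.prime a (hV ha))).mp h2a ▸
          T.mem_S a (hV ha))
    primes := fun e he => ⟨(hE e he).1, (hE e he).2.1, (hE e he).2.2.1⟩
    two_notMem := h2S
    mem_S := fun e he => (hE e he).2.2.2
    sq := fun e he => ALSetup.c_mul_c hV hχ he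
    ihara := ⟨H⟩
    elliptic₄ := hl (fun t => t ^ 2 + 1) (fun _ _ => by simp only [map_add, map_pow, map_one])
      T.elliptic₄
    elliptic₃ := hl (fun t => t ^ 2 + t + 1) (fun _ _ => by simp only [map_add, map_pow, map_one])
      T.elliptic₃
    lift := fun V' hV' => T.twoLiftable hV hV'
    one := hone
    bijective := hαb
    root := hα }

end Fermat.Agent.HeckeModule
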