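import Fermat.Agent.TwoAdic.Scalar.Range
import Fermat.Agent.Engine.TSide

/-!
# A point of a reduced Hecke algebra is an eigen system which occurs

No restriction on the residue characteristic: the eigen class is `t₀ • m` with `t₀` annihilating
the kernel of the point, cleared of denominators.
-/

set_option autoImplicit false

open CongruenceSubgroup

universe uM

namespace Fermat.Agent.TwoAdic.Scalar

/-- A point of a reduced finite algebra with a faithful module has an eigenvector in it. -/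
theorem exists_eigen_of_point {O : Type} [CommRing O] [IsDomain O] [IsDiscreteValuationRing O]
    {T : Type} [CommRing T] [Algebra O T] [Module.Finite O T] [IsReduced T]
    {M : Type uM} [AddCommGroup M] [Module T M] [Module O M] [IsScalarTower O T M]
    (hM : ∀ t : T, (∀ m : M, t • m = 0) → t = 0) (θ : T →ₐ[O] O) :
    ∃ y : M, y ≠ 0 ∧ ∀ t : T, t • y = θ t • y := by
  obtain ⟨o, ho, ho0⟩ := (Submodule.ne_bot_iff _).mp (congIdeal_ne_bot θ)
  obtain ⟨t₀, ht₀, rfl⟩ := mem_congIdeal.1 ho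
  obtain ⟨m, hm⟩ : ∃ m : M, t₀ • m ≠ 0 := by
    by_contra h
    exact ho0 (by rw [hM t₀ fun m => not_not.mp fun hm => h ⟨m, hm⟩, map_zero])
  refine ⟨t₀ • m, hm, fun t => ?_⟩
  have hk : t - algebraMap O T (θ t) ∈ RingHom.ker θ := by simp [RingHom.mem_ker]
  have h := ht₀ _ hk
  rw [mul_sub, sub_eq_zero] at h
  rw [smul_smul, mul_comm, h, mul_comm, mul_smul, algebraMap_smul]

end Fermat.Agent.TwoAdic.Scalar

namespace Fermat.Agent.HeckeModule

open EigenSystems HeckeSemisimple

variable {N : ℕ} [NeZero N] {O : Type} [CommRing O] [IsDomain O] [IsNoetherianRing O] [CharZero O]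
  {ρ : Representation O (ZMod N)ˣ O} {P : Submonoid (HeckePoly O)}

/-- An eigenvector of the localised cohomology gives a system which occurs. -/
theorem occurs_of_eigen_cohLoc (hρ : ∀ u, ρ u = 1) {S : Finset ℕ} {lam : ℕ → O} (y : CohLoc P ρ)
    (hy0 : y ≠ 0)
    (hy : ∀ l : Nat.Primes, (l : ℕ) ∉ S → ¬ (l : ℕ) ∣ N →
      (MvPolynomial.X l : HeckePoly O) • y = lam l • y) :
    Engine.Occurs (FractionRing O) N 1 S fun ℓ => algebraMap O (FractionRing O) (lam ℓ) := by
  classical
  obtain ⟨⟨u, s⟩, rfl⟩ : ∃ p : Coh1 ρ × P, LocalizedModule.mk p.1 p.2 = y :=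
    LocalizedModule.induction_on (fun m s => ⟨(m, s), rfl⟩) y
  obtain ⟨t, htP, ht⟩ := exists_smul_eq_zero_of_mk (ρ := ρ) (P := P)
  let L : Coh1 ρ →ₗ[HeckePoly O] CohLoc P ρ := LocalizedModule.mkLinearMap P (Coh1 ρ)
  have hL : L u = (s : HeckePoly O) • LocalizedModule.mk u s := by
    rw [LocalizedModule.smul'_mk, ← Submonoid.smul_def, LocalizedModule.mk_cancel]
    rfl
  have hinj : ∀ a ∈ P, Function.Injective fun x : CohLoc P ρ => a • x := fun a ha =>
    ((Module.End.isUnit_iff _).mp (IsLocalizedModule.map_units L ⟨a, ha⟩)).1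
  have hu0 : t • u ≠ 0 := fun h => hy0 (by
    refine hinj _ s.2 (hinj _ htP ?_)
    show t • (s : HeckePoly O) • LocalizedModule.mk u s = t • (s : HeckePoly O) • (0 : CohLoc P ρ)
    rw [← hL, ← map_smul, h, map_zero, smul_zero, smul_zero])
  have heig : ∀ (ℓ : ℕ) [hℓ : Fact ℓ.Prime], ℓ ∉ S → ¬ ℓ ∣ N →
      heckeOp ρ ℓ (t • u) = lam ℓ • (t • u) := by
    intro ℓ hℓ hS hN
    obtain ⟨l, hl, hlv⟩ : ∃ l : Nat.Primes, (l : ℕ) = ℓ ∧
        ∀ v : Coh1 ρ, (MvPolynomial.X l : HeckePoly O) • v = heckeOp ρ ℓ v :=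
      ⟨⟨ℓ, hℓ.out⟩, rfl, fun v => X_smul ρ ℓ v⟩
    have h0 : LocalizedModule.mk
        ((MvPolynomial.X l : HeckePoly O) • u - lam ℓ • u) (1 : P) = 0 := by
      show L _ = 0
      rw [map_sub, map_smul, LinearMap.map_smul_of_tower, hL,
        smul_comm (MvPolynomial.X l : HeckePoly O) (s : HeckePoly O),
        hy l (hl ▸ hS) (hl ▸ hN), hl, smul_comm (s : HeckePoly O) (lam ℓ), sub_self]
    have h := ht _ h0
    rw [smul_sub, sub_eq_zero, smul_comm t (MvPolynomial.X l : HeckePoly O),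
      smul_comm t (lam ℓ)] at h
    rw [← hlv]
    exact h
  let K := FractionRing O
  have : CharZero K := charZero_of_injective_algebraMap (IsFractionRing.injective O K)
  obtain ⟨z, hz⟩ := toCoh_surjective ρ (t • u)
  let σ : Representation K (ZMod N)ˣ K := scalarRep (1 : (ZMod N)ˣ →* K) K
  refine ⟨toCoh σ (mapCocycle (σ := σ) hρ EigenSystems.scalarRep_one
    (algebraMap O K).toAddMonoidHom z), fun h0 => hu0 ?_, fun ℓ hℓ hS hN => ?_⟩
  · have h' := (toCoh_eq_zero_iff_of_trivial EigenSystems.scalarRep_one).mp h0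
    rw [← hz, show z = 0 from Subtype.ext (funext fun γ => IsFractionRing.injective O K
      ((congrArg (fun w : Cocycle _ => w.1 γ) h').trans (map_zero (algebraMap O K)).symm)), map_zero]
  · have : NeZero ℓ := ⟨hℓ.out.ne_zero⟩
    exact mapCocycle_eigen (σ := σ) hρ EigenSystems.scalarRep_one _ (hz ▸ heig ℓ hS hN)
      fun γ => map_mul (algebraMap O K) _ _

end Fermat.Agent.HeckeModule
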