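import Fermat.Agent.TwoAdic.Criterion.Length
import Fermat.Agent.TameInertia.Adic
import Fermat.Agent.DefRing.MatrixRep
import Fermat.Agent.Frobenius.Exists

/-!
# The cotangent space gained by allowing ramification at auxiliary primes

`R'` is a ring with a two dimensional representation `N'`, `θ'` an `O`-point at which `N'` is
unramified at the prime `w`, with Frobenius of trace `a` and determinant `w`.  The part of the
cotangent module at `θ'` coming from the inertia entries at `w` has length at most that of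
`O ⧸ ((w-1) ((w+1)² - a²))`: one tame generator, and the relation `Φ σ = σ ^ w Φ` linearised at
`θ'`.  No restriction on the residual Frobenius is needed, so scalar residual Frobenius is allowed.
-/

set_option autoImplicit false

open IsLocalRing Fermat.Agent.DefRing

namespace Fermat.Agent.TwoAdic.Scalar

/-- The factor by which the congruence module grows at an auxiliary prime. -/
def scalarFactor {O : Type} [CommRing O] (w : ℕ) (a : O) : O :=
  ((w : O) - 1) * (((w : O) + 1) ^ 2 - a ^ 2)

/-- The ideal generated by the entries of `N τ - 1`, `τ` in inertia at `P`. -/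
def inertiaIdeal {A : Type} [CommRing A] (N : MRep A)
    (P : ValuationSubring (AlgebraicClosure ℚ)) : Ideal A :=
  Ideal.span {x | ∃ τ ∈ P.inertiaSubgroupIn ℚ, ∃ i j, (N τ - 1) i j = x}

theorem sub_one_mem_inertiaIdeal {A : Type} [CommRing A] (N : MRep A)
    {P : ValuationSubring (AlgebraicClosure ℚ)} {τ : GQ} (hτ : τ ∈ P.inertiaSubgroupIn ℚ)
    (i j : Fin 2) : (N τ - 1) i j ∈ inertiaIdeal N P :=
  Ideal.subset_span ⟨τ, hτ, i, j, rfl⟩

/-- Modulo an ideal containing the entries of `X`, powers of `1 + X` are `1`. -/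
theorem pow_sub_one_entry_mem {A : Type} [CommRing A] {J : Ideal A}
    {M : Matrix (Fin 2) (Fin 2) A} (h : ∀ i j, (M - 1) i j ∈ J) (n : ℕ) (i j : Fin 2) :
    (M ^ n - 1) i j ∈ J := by
  have h1 : TameInertia.redMat J M = 1 := by
    rw [← map_one (TameInertia.redMat J), TameInertia.redMat_eq_iff]; exact h
  refine (TameInertia.redMat_eq_iff (M := M ^ n) (N := 1)).1 ?_ i j
  rw [map_pow, h1, one_pow, map_one]

/-- An element congruent to an element of `J` modulo every power of the maximal ideal is in `J`. -/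
theorem mem_of_forall_mem_sup_pow {A : Type} [CommRing A] [IsLocalRing A] [IsNoetherianRing A]
    {J : Ideal A} {x : A} (h : ∀ k : ℕ, x ∈ J ⊔ maximalIdeal A ^ k) : x ∈ J := by
  refine Ideal.Quotient.eq_zero_iff_mem.1 ?_
  have h0 := Ideal.iInf_pow_smul_eq_bot_of_isLocalRing (R := A) (M := A ⧸ J)
    (maximalIdeal A) (maximalIdeal.isMaximal A).ne_top
  rw [← Submodule.mem_bot A, ← h0, Submodule.mem_iInf]
  intro k
  obtain ⟨y, hy, z, hz, rfl⟩ := Submodule.mem_sup.1 (h k)
  rw [map_add, Ideal.Quotient.eq_zero_iff_mem.2 hy, zero_add,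
    show Ideal.Quotient.mk J z = z • (1 : A ⧸ J) by
      rw [Algebra.smul_def, Ideal.Quotient.algebraMap_eq, mul_one]]
  exact Submodule.smul_mem_smul hz Submodule.mem_top

section Cotangent

variable {O : Type} [CommRing O] {S : Type} [CommRing S] [Algebra O S] (θ : S →ₐ[O] O)

/-- The length of the cotangent module can be computed over the base. -/
theorem length_cotangent_eq_base :
    Module.length S (RingHom.ker θ).Cotangent = Module.length O (RingHom.ker θ).Cotangent := by
  let : Algebra S O := θ.toRingHom.toAlgebra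
  have : IsScalarTower S O (RingHom.ker θ).Cotangent := ⟨fun t o m => by
    rw [Criterion.smul_cotangent θ t (o • m), ← mul_smul]; rfl⟩
  exact Module.length_eq_of_surjective (R := O) (S := S)
    (fun o => ⟨algebraMap O S o, θ.commutes o⟩)

/-- The image of an ideal in the cotangent module at `θ`. -/
noncomputable def cotImage (J : Ideal S) : Submodule O (RingHom.ker θ).Cotangent :=
  ((Submodule.comap (RingHom.ker θ).subtype J).restrictScalars O).map
    ((RingHom.ker θ).toCotangent.restrictScalars O)

theorem toCotangent_mem_cotImage {J : Ideal S} {y : RingHom.ker θ} (hy : (y : S) ∈ J) :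
    (RingHom.ker θ).toCotangent y ∈ cotImage θ J :=
  ⟨y, hy, rfl⟩

/-- The class of an element of the kernel, and zero outside. -/
noncomputable def cotClass (x : S) : (RingHom.ker θ).Cotangent :=
  (RingHom.ker θ).toCotangent
    ⟨x - algebraMap O S (θ x), by simp [RingHom.mem_ker]⟩

theorem cotClass_of_mem {x : S} (hx : θ x = 0) :
    cotClass θ x = (RingHom.ker θ).toCotangent ⟨x, hx⟩ := by
  simp [cotClass, hx]

theorem cotClass_add (x y : S) : cotClass θ (x + y) = cotClass θ x + cotClass θ y := by
  rw [cotClass, cotClass, cotClass, ← map_add]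
  congr 1
  exact Subtype.ext (by simp; ring)

theorem cotClass_mul (x y : S) : cotClass θ (x * y) = θ x • cotClass θ y + θ y • cotClass θ x := by
  have h : (⟨x * y - algebraMap O S (θ (x * y)), by simp [RingHom.mem_ker]⟩ : RingHom.ker θ) =
      x • (⟨y - algebraMap O S (θ y), by simp [RingHom.mem_ker]⟩ : RingHom.ker θ) +
      algebraMap O S (θ y) • (⟨x - algebraMap O S (θ x), by simp [RingHom.mem_ker]⟩ :
        RingHom.ker θ) := Subtype.ext (by simp [Algebra.smul_def]; ring)
  rw [cotClass, h, map_add, map_smul, map_smul, Criterion.smul_cotangent θ x,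
    IsScalarTower.algebraMap_smul]
  rfl

theorem cotClass_zero : cotClass θ 0 = 0 := by simpa using cotClass_add θ 0 0

theorem cotClass_neg (x : S) : cotClass θ (-x) = -cotClass θ x := by
  rw [eq_neg_iff_add_eq_zero, ← cotClass_add, neg_add_cancel, cotClass_zero]

theorem cotClass_sub (x y : S) : cotClass θ (x - y) = cotClass θ x - cotClass θ y := by
  rw [sub_eq_add_neg, cotClass_add, cotClass_neg, sub_eq_add_neg]

/-- The image of the ideal spanned by elements of the kernel is spanned by their classes. -/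
theorem cotImage_span_le {G : Set S} (hG : ∀ x ∈ G, θ x = 0) :
    cotImage θ (Ideal.span G) ≤ Submodule.span O (cotClass θ '' G) := by
  rintro _ ⟨⟨y, hy⟩, hy', rfl⟩
  have key : ∀ z ∈ Ideal.span G, θ z = 0 ∧
      cotClass θ z ∈ Submodule.span O (cotClass θ '' G) := by
    intro z hz
    induction hz using Submodule.span_induction with
    | mem x hx => exact ⟨hG x hx, Submodule.subset_span ⟨x, hx, rfl⟩⟩
    | zero => exact ⟨map_zero _, by rw [cotClass_zero]; exact zero_mem _⟩
    | add x y _ _ hx hy =>
      exact ⟨by rw [map_add, hx.1, hy.1, add_zero], by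
        rw [cotClass_add]; exact add_mem hx.2 hy.2⟩
    | smul t x _ hx =>
      exact ⟨by rw [smul_eq_mul, map_mul, hx.1, mul_zero], by
        rw [smul_eq_mul, cotClass_mul, hx.1, zero_smul, add_zero]
        exact Submodule.smul_mem _ _ hx.2⟩
  have h := (key y hy').2
  rwa [cotClass_of_mem θ hy] at h

/-- The length of a supremum of two submodules. -/
theorem length_sup_le {M : Type*} [AddCommGroup M] [Module O M] (p q : Submodule O M) :
    Module.length O ↥(p ⊔ q) ≤ Module.length O p + Module.length O q := by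
  rw [← Module.length_prod]
  refine Module.length_le_of_surjective
    ((Submodule.inclusion le_sup_left).coprod (Submodule.inclusion le_sup_right)) fun x => ?_
  obtain ⟨y, hy, z, hz, h⟩ := Submodule.mem_sup.1 x.2
  exact ⟨(⟨y, hy⟩, ⟨z, hz⟩), Subtype.ext h⟩

theorem length_biSup_le {M : Type*} [AddCommGroup M] [Module O M] {ι : Type*} (s : Finset ι)
    (p : ι → Submodule O M) :
    Module.length O ↥(⨆ i ∈ s, p i) ≤ ∑ i ∈ s, Module.length O (p i) := by
  classical
  induction s using Finset.induction with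
  | empty =>
    rw [Finset.sum_empty, nonpos_iff_eq_zero, Module.length_eq_zero_iff,
      Submodule.subsingleton_iff_eq_bot]
    simp
  | insert i s hi ih =>
    rw [Finset.iSup_insert, Finset.sum_insert hi]
    exact (length_sup_le _ _).trans (add_le_add le_rfl ih)

/-- The cotangent length grows at most by the images of ideals generating the kernel. -/
theorem length_cotangent_le_add {R : Type} [CommRing R] [Algebra O R] (r : S →ₐ[O] R)
    (hr : Function.Surjective r) (η : R →ₐ[O] O) (hη : η.comp r = θ) {ι : Type*} (s : Finset ι)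
    (J : ι → Ideal S) (hJ : ∀ i ∈ s, J i ≤ RingHom.ker θ)
    (hker : RingHom.ker r ≤ ⨆ i ∈ s, J i) :
    Module.length S (RingHom.ker θ).Cotangent ≤ Module.length R (RingHom.ker η).Cotangent +
      ∑ i ∈ s, Module.length O (cotImage θ (J i)) := by
  classical
  subst hη
  set θ := η.comp r
  rw [length_cotangent_eq_base θ, length_cotangent_eq_base η]
  let f := Ideal.mapCotangent (RingHom.ker θ) (RingHom.ker η) r fun x hx => hx
  have hf : Function.Surjective f := fun m => by
    obtain ⟨⟨y, hy⟩, rfl⟩ := Ideal.toCotangent_surjective _ m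
    obtain ⟨x, rfl⟩ := hr y
    exact ⟨(RingHom.ker θ).toCotangent ⟨x, hy⟩, rfl⟩
  have hk : LinearMap.ker f ≤ ⨆ i ∈ s, cotImage θ (J i) := by
    intro m hm
    obtain ⟨⟨x, hx⟩, rfl⟩ := Ideal.toCotangent_surjective _ m
    rw [LinearMap.mem_ker] at hm
    change (RingHom.ker η).toCotangent ⟨r x, hx⟩ = 0 at hm
    rw [Ideal.toCotangent_eq_zero] at hm
    replace hm : r x ∈ RingHom.ker η ^ 2 := hm
    have hmap : (RingHom.ker θ).map (r : S →+* R) = RingHom.ker η := by
      refine le_antisymm (Ideal.map_le_iff_le_comap.2 fun x hx => hx) fun y hy => ?_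
      obtain ⟨x, rfl⟩ := hr y
      exact Ideal.mem_map_of_mem _ (show x ∈ RingHom.ker θ from hy)
    rw [← hmap, ← Ideal.map_pow,
      Ideal.mem_map_iff_of_surjective (r : S →+* R) hr] at hm
    obtain ⟨y, hy, hyx⟩ := hm
    have hd : x - y ∈ RingHom.ker r := by
      rw [RingHom.mem_ker, map_sub, sub_eq_zero]; exact hyx.symm
    obtain ⟨μ, hμ⟩ := (Submodule.mem_iSup_finset_iff_exists_sum (s := s) J _).1 (hker hd)
    have hym : y ∈ RingHom.ker θ := Ideal.pow_le_self two_ne_zero hy
    have hsum : (RingHom.ker θ).toCotangent ⟨x, hx⟩ =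
        ∑ i ∈ s.attach, (RingHom.ker θ).toCotangent ⟨μ i, hJ i i.2 (μ i).2⟩ := by
      rw [← map_sum, ← sub_eq_zero, ← map_sub, Ideal.toCotangent_eq_zero]
      have hs : (∑ i ∈ s.attach, (μ i : S)) = x - y := by
        rw [Finset.sum_attach s fun i => (μ i : S)]; exact hμ
      have he : x - (x - y) ∈ RingHom.ker θ ^ 2 := by rwa [sub_sub_cancel]
      simpa [Submodule.coe_sum, hs] using he
    rw [hsum]
    exact sum_mem fun i _ => Submodule.mem_iSup_of_mem (i : ι) (Submodule.mem_iSup_of_mem i.2
      (toCotangent_mem_cotImage θ (μ i).2))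
  rw [Module.length_eq_add_of_exact (LinearMap.ker f).subtype f (Submodule.subtype_injective _)
    hf (LinearMap.exact_subtype_ker_map f), add_comm]
  exact add_le_add le_rfl ((Module.length_le_of_injective (Submodule.inclusion hk)
    (Submodule.inclusion_injective hk)).trans (length_biSup_le _ _))

end Cotangent

section Local

variable {O : Type} [CommRing O] [IsDomain O] [IsDiscreteValuationRing O]

/-- The linearised Frobenius relation on trace zero matrices `((x, y), (z, -x))`. -/
def relMat (F : Matrix (Fin 2) (Fin 2) O) (w : O) : Matrix (Fin 3) (Fin 3) O :=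
  !![F 0 0 * F 1 1 + F 0 1 * F 1 0 - w ^ 2, -(F 0 0 * F 1 0), F 0 1 * F 1 1;
    -(2 * F 0 0 * F 0 1), F 0 0 ^ 2 - w ^ 2, -(F 0 1 ^ 2);
    2 * F 1 0 * F 1 1, -(F 1 0 ^ 2), F 1 1 ^ 2 - w ^ 2]

omit [IsDomain O] [IsDiscreteValuationRing O] in
theorem det_relMat (F : Matrix (Fin 2) (Fin 2) O) (w : O) (hw : F.det = w) :
    (relMat F w).det = -(w ^ 3 * ((w - 1) * ((w + 1) ^ 2 - F.trace ^ 2))) := by
  subst hw
  rw [Matrix.det_fin_three, Matrix.det_fin_two, Matrix.trace_fin_two]
  simp [relMat]
  ring

/-- The image of the inertia entries at `w` in the cotangent module. -/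
theorem length_cotImage_inertiaIdeal_le {p : ℕ} (hp : p.Prime)
    (hpO : (p : O) ∈ maximalIdeal O) {R : Type} [CommRing R] [IsLocalRing R] [IsNoetherianRing R]
    [Algebra O R] {N : MRep R} (hN : IsCont N) (θ : R →ₐ[O] O) {w : ℕ} (hw : w.Prime)
    (hwp : w ≠ p) {P : ValuationSubring (AlgebraicClosure ℚ)} (hP : P.LiesOverPrime w)
    (hres : ∀ τ ∈ P.inertiaSubgroupIn ℚ, ∀ i j, (N τ - 1) i j ∈ maximalIdeal R)
    (hunr : ∀ τ ∈ P.inertiaSubgroupIn ℚ, (N τ).map θ = 1)
    (hdetI : ∀ τ ∈ P.inertiaSubgroupIn ℚ, (N τ).det = 1)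
    {φ : GQ} (hφ : P.IsFrobeniusAt φ w) (hdet : (N φ).det = w) {a : O}
    (ha : θ (N φ).trace = a) :
    inertiaIdeal N P ≤ RingHom.ker θ ∧
      Module.length O (cotImage θ (inertiaIdeal N P)) ≤ Ring.ord O (scalarFactor w a) := by
  classical
  have hle : ∀ τ ∈ P.inertiaSubgroupIn ℚ, ∀ i j, θ ((N τ - 1) i j) = 0 := fun τ hτ i j => by
    have h := congrFun (congrFun (hunr τ hτ) i) j
    rw [Matrix.map_apply] at h
    rw [Matrix.sub_apply, map_sub, h]
    by_cases hij : i = j <;> simp [Matrix.one_apply, hij]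
  have hI : inertiaIdeal N P ≤ RingHom.ker θ := Ideal.span_le.2 (by
    rintro x ⟨τ, hτ, i, j, rfl⟩; exact hle τ hτ i j)
  refine ⟨hI, ?_⟩
  have hloc : IsLocalHom (algebraMap O R) := ⟨fun o ho => by
    have h := ho.map θ
    rwa [θ.commutes, Algebra.algebraMap_self, RingHom.id_apply] at h⟩
  have hpR : (p : R) ∈ maximalIdeal R := by
    intro hu
    exact hpO (isUnit_of_map_unit (algebraMap O R) _ (by rwa [map_natCast]))
  have : IsHausdorff (maximalIdeal R) R := inferInstance
  obtain ⟨d, hd, hgen, hrel⟩ := TameInertia.exists_tame_generator (MonoidHom.id GQ) N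
    (fun k => by
      obtain ⟨E, hE, h1⟩ := hN k
      exact ⟨E, hE, fun g hg =>
        h1 g fun x hx => (IntermediateField.mem_fixingSubgroup_iff E g).mp hg x hx⟩)
    hp hpR hw (Ne.symm hwp) hP hres
  have hrel' : N φ * N d = N d ^ w * N φ := TameInertia.frobenius_relation (hrel φ hφ d hd)
  set X := N d - 1 with hX
  have hX0 : ∀ i j, θ (X i j) = 0 := hle d hd
  have hspan : inertiaIdeal N P ≤ Ideal.span (Set.range fun ij : Fin 2 × Fin 2 => X ij.1 ij.2) := by
    refine Ideal.span_le.2 ?_
    rintro x ⟨τ, hτ, i, j, rfl⟩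
    refine mem_of_forall_mem_sup_pow fun k => ?_
    obtain ⟨n, hn⟩ := hgen τ hτ k
    rw [show (N τ - 1) i j = (N d ^ n - 1) i j + (N τ - N d ^ n) i j by simp]
    refine Submodule.add_mem_sup (pow_sub_one_entry_mem (fun i' j' => ?_) n i j) (hn i j)
    exact Ideal.subset_span ⟨(i', j'), rfl⟩
  set ξ : Fin 2 → Fin 2 → (RingHom.ker θ).Cotangent := fun i j => cotClass θ (X i j) with hξ
  have himg : cotImage θ (inertiaIdeal N P) ≤
      Submodule.span O (Set.range fun ij : Fin 2 × Fin 2 => ξ ij.1 ij.2) := by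
    refine le_trans ?_ ((cotImage_span_le θ (G := Set.range fun ij : Fin 2 × Fin 2 =>
      X ij.1 ij.2) (by rintro _ ⟨ij, rfl⟩; exact hX0 _ _)).trans (le_of_eq ?_))
    · exact Submodule.map_mono (Submodule.comap_mono hspan)
    · rw [← Set.range_comp]; rfl
  -- determinant one: the trace of `X` vanishes in the cotangent module
  have hdiag : ξ 1 1 = -ξ 0 0 := by
    have h := hdetI d hd
    rw [show N d = X + 1 by rw [hX, sub_add_cancel], Matrix.det_fin_two] at h
    simp only [Matrix.add_apply, Matrix.one_apply_eq, ne_eq, zero_ne_one, not_false_eq_true,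
      Matrix.one_apply_ne, one_ne_zero, add_zero] at h
    have h' : X 0 0 + X 1 1 = X 0 1 * X 1 0 - X 0 0 * X 1 1 := by linear_combination h
    have h'' := congrArg (cotClass θ) h'
    rw [cotClass_add, cotClass_sub, cotClass_mul, cotClass_mul, hX0, hX0, hX0, hX0] at h''
    simp only [zero_smul, add_zero, sub_zero] at h''
    exact eq_neg_of_add_eq_zero_right h''
  -- the Frobenius relation
  set F := (N φ).map θ with hF
  have hFdet : F.det = (w : O) := by
    rw [hF, ← map_natCast θ w, ← hdet]
    exact ((θ : R →+* O).map_det (N φ)).symm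
  have hFtr : F.trace = a := by
    rw [hF, ← ha, Matrix.trace_fin_two, Matrix.trace_fin_two, map_add]; rfl
  have hpow : ∀ n : ℕ, ∀ i j, θ ((N d ^ n - 1) i j) = 0 ∧
      cotClass θ ((N d ^ n - 1) i j) = (n : O) • ξ i j := by
    intro n
    induction n with
    | zero => intro i j; simp [cotClass_zero]
    | succ n ih =>
      intro i j
      have he : N d ^ (n + 1) - 1 = (N d ^ n - 1) + X + (N d ^ n - 1) * X := by
        rw [hX, pow_succ]; simp [Matrix.mul_sub, Matrix.sub_mul]; abel
      rw [he]
      simp only [Matrix.add_apply, Matrix.mul_apply, Fin.sum_univ_two, map_add, map_mul,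
        cotClass_add, cotClass_mul, (ih _ _).1, (ih _ _).2, hX0, zero_smul, add_zero, mul_zero]
      exact ⟨trivial, by rw [Nat.cast_succ, add_smul, one_smul]⟩
  have hmat : N φ * X = (N d ^ w - 1) * N φ := by
    rw [hX, Matrix.mul_sub, Matrix.sub_mul, hrel', Matrix.mul_one, Matrix.one_mul]
  have key : ∀ i j, F i 0 • ξ 0 j + F i 1 • ξ 1 j =
      (w : O) • (F 0 j • ξ i 0 + F 1 j • ξ i 1) := by
    intro i j
    have h := congrArg (cotClass θ) (congrFun (congrFun hmat i) j)
    simp only [Matrix.mul_apply, Fin.sum_univ_two, cotClass_add, cotClass_mul, hX0,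
      (hpow w _ _).1, (hpow w _ _).2, zero_smul, add_zero, zero_add] at h
    simp only [hF, Matrix.map_apply]
    rw [hξ]
    rw [h, smul_add, smul_comm (θ _), smul_comm (θ _)]
  -- the three coordinates
  set g : (Fin 3 → O) →ₗ[O] (RingHom.ker θ).Cotangent :=
    Fintype.linearCombination O ![ξ 0 0, ξ 0 1, ξ 1 0] with hg
  have hrange : Submodule.span O (Set.range fun ij : Fin 2 × Fin 2 => ξ ij.1 ij.2) ≤
      LinearMap.range g := by
    have h : ∀ v, g v = v 0 • ξ 0 0 + v 1 • ξ 0 1 + v 2 • ξ 1 0 := fun v => by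
      simp [hg, Fintype.linearCombination_apply, Fin.sum_univ_three]
    refine Submodule.span_le.2 ?_
    rintro _ ⟨⟨i, j⟩, rfl⟩
    fin_cases i <;> fin_cases j
    · exact ⟨![1, 0, 0], by simp [h]⟩
    · exact ⟨![0, 1, 0], by simp [h]⟩
    · exact ⟨![0, 0, 1], by simp [h]⟩
    · exact ⟨![-1, 0, 0], by simp [h, hdiag]⟩
  have hrows : Submodule.span O (Set.range (relMat F w).row) ≤ LinearMap.ker g := by
    refine Submodule.span_le.2 ?_
    rintro _ ⟨k, rfl⟩
    have e00 := key 0 0
    have e01 := key 0 1
    have e10 := key 1 0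
    have e11 := key 1 1
    simp only [hdiag] at e00 e01 e10 e11
    rw [← sub_eq_zero] at e00 e01 e10 e11
    have hw' : (w : O) = F 0 0 * F 1 1 - F 0 1 * F 1 0 := by rw [← hFdet, Matrix.det_fin_two]
    rw [SetLike.mem_coe, LinearMap.mem_ker]
    fin_cases k
    · rw [show (0 : (RingHom.ker θ).Cotangent) = F 1 1 • (0 : (RingHom.ker θ).Cotangent) -
        F 1 0 • (0 : (RingHom.ker θ).Cotangent) by simp]
      nth_rw 1 [← e00]
      nth_rw 1 [← e01]
      simp [hg, Fintype.linearCombination_apply, Fin.sum_univ_three, relMat, Matrix.row]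
      rw [hw']
      module
    · rw [show (0 : (RingHom.ker θ).Cotangent) = -F 0 1 • (0 : (RingHom.ker θ).Cotangent) +
        F 0 0 • (0 : (RingHom.ker θ).Cotangent) by simp]
      nth_rw 1 [← e00]
      nth_rw 1 [← e01]
      simp [hg, Fintype.linearCombination_apply, Fin.sum_univ_three, relMat, Matrix.row]
      rw [hw']
      module
    · rw [show (0 : (RingHom.ker θ).Cotangent) = F 1 1 • (0 : (RingHom.ker θ).Cotangent) -
        F 1 0 • (0 : (RingHom.ker θ).Cotangent) by simp]
      nth_rw 1 [← e10]
      nth_rw 1 [← e11]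
      simp [hg, Fintype.linearCombination_apply, Fin.sum_univ_three, relMat, Matrix.row]
      rw [hw']
      module
  rcases eq_or_ne (scalarFactor w a) 0 with h0 | h0
  · rw [h0, Ring.ord_eq_addVal, IsDiscreteValuationRing.addVal_zero]; exact le_top
  have hwu : IsUnit (w : O) := by
    by_contra hu
    obtain ⟨u, v, huv⟩ := ((Nat.isCoprime_iff_coprime (m := p) (n := w)).2
      ((Nat.coprime_primes hp hw).2 (Ne.symm hwp))).map (Int.castRingHom O)
    simp only [map_natCast] at huv
    exact (maximalIdeal.isMaximal O).ne_top ((Ideal.eq_top_iff_one _).2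
      (huv ▸ add_mem (Ideal.mul_mem_left _ u hpO) (Ideal.mul_mem_left _ v hu)))
  have hdet0 : (relMat F w).det ≠ 0 := by
    rw [det_relMat F _ hFdet, hFtr, neg_ne_zero]
    exact mul_ne_zero (pow_ne_zero _ hwu.ne_zero) h0
  calc Module.length O (cotImage θ (inertiaIdeal N P))
      ≤ Module.length O (LinearMap.range g) :=
        Module.length_le_of_injective (Submodule.inclusion (himg.trans hrange))
          (Submodule.inclusion_injective _)
    _ ≤ Module.length O ((Fin 3 → O) ⧸ Submodule.span O (Set.range (relMat F w).row)) :=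
        Module.length_le_of_surjective
          (Submodule.liftQ _ g.rangeRestrict (by rwa [LinearMap.ker_rangeRestrict]))
          (LinearMap.range_eq_top.1 (by rw [Submodule.range_liftQ, LinearMap.range_rangeRestrict]))
    _ = Ring.ord O (relMat F w).det := Criterion.length_quotient_span_rows _ hdet0
    _ = Ring.ord O (scalarFactor w a) := by
        refine Ring.ord_eq_of_associated ?_
        rw [det_relMat F _ hFdet, hFtr]
        exact (Associated.neg_left (associated_unit_mul_left _ _ (hwu.pow 3)))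

end Local

end Fermat.Agent.TwoAdic.Scalar
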