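import Fermat.Agent.TwoAdic.Scalar.Translates

/-!
Raising and lowering maps between levels `N` and `q²N` (three degeneracy maps): their
composites, and their relation with `U_q`.
-/

set_option autoImplicit false

universe uO uA

namespace Fermat.Agent.HeckeModule

variable {O : Type uO} [CommRing O] {A : Type uA} [AddCommGroup A] [Module O A]
  {N q : ℕ} [hq : Fact q.Prime] [NeZero N] {ρ : Representation O (ZMod N)ˣ A}
  (hρ : ∀ u, ρ u = 1) (hqN : ¬ q ∣ N)

omit [NeZero N] in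
include hρ in
lemma cohMapO_of_trivial (v : (ZMod N)ˣ) (hv : IsIntertwining ρ ρ (ρ v)) (u : Coh1 ρ) :
    cohMapO (ρ v) hv u = u := by
  obtain ⟨c, rfl⟩ := toCoh_surjective ρ u
  rw [cohMapO_toCoh]
  exact congrArg _ (Subtype.ext (funext fun g => by
    show ρ v (c.1 g) = c.1 g
    rw [hρ, Module.End.one_apply]))

omit [NeZero N] in
include hρ in
/-- `trace ∘ (z ↦ q z) = T_q` for trivial action. -/
theorem trace_degenUp (u : Coh1 ρ) :
    trace ρ hqN (degenUp ρ q u) = heckeOp ρ q u :=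
  (trace_degen hqN ρ u).trans (cohMapO_of_trivial hρ _ _ _)

variable (ρ)

/-- `U_q` at level `q²N`. -/
noncomputable abbrev sqU : Module.End O (Coh1 (sqRep ρ q)) :=
  uOp (sqRep ρ q) (dvd_mul_right q (q * N))

/-- `x ↦ q D_1 x - D_q T_q x + D_{q²} x`. -/
noncomputable def sqRaise : Coh1 ρ →ₗ[O] Coh1 (sqRep ρ q) :=
  (q : O) • sqOne ρ q - sqMid ρ q ∘ₗ heckeOp ρ q + sqTop ρ q

/-- The transfer adjoint to `sqRaise`. -/
noncomputable def sqLower : Coh1 (sqRep ρ q) →ₗ[O] Coh1 ρ :=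
  trace ρ hqN ∘ₗ stepTrace (dvd_mul_right q N) (pullRep ρ (dvd_mul_left N q))
    - heckeOp ρ q ∘ₗ (traceTwist ρ hqN ∘ₗ stepTrace (dvd_mul_right q N)
        (pullRep ρ (dvd_mul_left N q)))
    + (q : O) • (traceTwist ρ hqN ∘ₗ stepTraceTwist (dvd_mul_right q N)
        (pullRep ρ (dvd_mul_left N q)))

omit [NeZero N] in
lemma sqRaise_apply (x : Coh1 ρ) : sqRaise ρ x =
    (q : O) • sqOne ρ q x - sqMid ρ q (heckeOp ρ q x) + sqTop ρ q x := rfl

lemma sqLower_apply (y : Coh1 (sqRep ρ q)) : sqLower ρ hqN y =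
    trace ρ hqN (stepTrace (dvd_mul_right q N) (pullRep ρ (dvd_mul_left N q)) y)
      - heckeOp ρ q (traceTwist ρ hqN (stepTrace (dvd_mul_right q N)
          (pullRep ρ (dvd_mul_left N q)) y))
      + (q : O) • traceTwist ρ hqN (stepTraceTwist (dvd_mul_right q N)
          (pullRep ρ (dvd_mul_left N q)) y) := rfl

variable {ρ}
include hρ

include hqN in
lemma sqU_sqOne (x : Coh1 ρ) :
    sqU ρ (sqOne ρ q x) = sqOne ρ q (heckeOp ρ q x) - sqMid ρ q x := by
  have h := uOp_degenOne_add hqN hρ x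
  rw [sqOne, sqMid, LinearMap.comp_apply, LinearMap.comp_apply, LinearMap.comp_apply, sqU,
    uOp_degenOne (ρ := pullRep ρ (dvd_mul_left N q)) (fun u => hρ _) (dvd_mul_right q N), ← map_sub, ← h, add_sub_cancel_right]

lemma sqU_sqMid (x : Coh1 ρ) : sqU ρ (sqMid ρ q x) = (q : O) • sqOne ρ q x := by
  rw [sqOne, sqMid, LinearMap.comp_apply, LinearMap.comp_apply, sqU,
    uOp_degenOne (ρ := pullRep ρ (dvd_mul_left N q)) (fun u => hρ _) (dvd_mul_right q N), uOp_degenUp hρ, map_smul]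

lemma sqU_sqTop (x : Coh1 ρ) : sqU ρ (sqTop ρ q x) = (q : O) • sqMid ρ q x := by
  rw [sqTop, sqMid, LinearMap.comp_apply, LinearMap.comp_apply, sqU,
    uOp_degenUp (ρ := pullRep ρ (dvd_mul_left N q)) (fun u => hρ _)]

include hqN in
/-- The raised classes are killed by `U_q`. -/
theorem sqU_sqRaise (x : Coh1 ρ) : sqU ρ (sqRaise (q := q) ρ x) = 0 := by
  rw [sqRaise_apply, map_add, map_sub, map_smul, sqU_sqOne hρ hqN, sqU_sqMid hρ, sqU_sqTop hρ,
    smul_sub]
  abel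

/-- The lowering map kills the image of `U_q`. -/
theorem sqLower_sqU (y : Coh1 (sqRep ρ q)) : sqLower ρ hqN (sqU ρ y) = 0 := by
  have h1 := stepTrace_uOp (ρ := pullRep ρ (dvd_mul_left N q)) (fun u => hρ _)
    (dvd_mul_right q N) y
  have h2 := stepTraceTwist_uOp (ρ := pullRep ρ (dvd_mul_left N q)) (fun u => hρ _)
    (dvd_mul_right q N) y
  have h3 := traceTwist_uOp hqN hρ
    (stepTraceTwist (dvd_mul_right q N) (pullRep ρ (dvd_mul_left N q)) y)
  rw [sqLower_apply, h1, h2, map_smul, map_smul, map_smul, ← h3, smul_add]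
  abel

omit hρ in
lemma sqLower_split (y : Coh1 (sqRep ρ q)) {s t : Coh1 (pullRep ρ (dvd_mul_left N q))}
    (hs : stepTrace (dvd_mul_right q N) (pullRep ρ (dvd_mul_left N q)) y = s)
    (ht : stepTraceTwist (dvd_mul_right q N) (pullRep ρ (dvd_mul_left N q)) y = t) :
    sqLower ρ hqN y = trace ρ hqN s - heckeOp ρ q (traceTwist ρ hqN s) +
      (q : O) • traceTwist ρ hqN t := by
  rw [sqLower_apply, hs, ht]

/-- `ι' D_1 = 0`. -/
theorem sqLower_sqOne (x : Coh1 ρ) : sqLower ρ hqN (sqOne ρ q x) = 0 := by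
  rw [sqLower_split hqN (sqOne ρ q x) (s := (q : O) • degenOne ρ q x)
    (t := degenOne ρ q (heckeOp ρ q x) - degenUp ρ q x)
    (stepTrace_degenOne (ρ := pullRep ρ (dvd_mul_left N q)) (fun u => hρ _) (dvd_mul_right q N)
      (degenOne ρ q x))
    (eq_sub_of_add_eq (uOp_degenOne_add hqN hρ x))]
  simp only [map_smul, map_sub, trace_degen_one hqN ρ, traceTwist_degen_one hqN ρ,
    traceTwist_degen hqN ρ]
  module

/-- `ι' D_q = 0`. -/
theorem sqLower_sqMid (x : Coh1 ρ) : sqLower ρ hqN (sqMid ρ q x) = 0 := by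
  rw [sqLower_split hqN (sqMid ρ q x) (s := (q : O) • degenUp ρ q x)
    (t := (q : O) • degenOne ρ q x)
    (stepTrace_degenOne (ρ := pullRep ρ (dvd_mul_left N q)) (fun u => hρ _) (dvd_mul_right q N)
      (degenUp ρ q x))
    (by
      have h := uOp_degenUp (q := q) hρ x
      rw [uOp, LinearMap.comp_apply] at h
      rw [sqMid, LinearMap.comp_apply]
      exact h)]
  simp only [map_smul, trace_degenUp hρ hqN, traceTwist_degen_one hqN ρ, traceTwist_degen hqN ρ]
  module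

/-- `ι' D_{q²} = (q - 1) ((q + 1)² - T_q²)`. -/
theorem sqLower_sqTop (x : Coh1 ρ) : sqLower ρ hqN (sqTop ρ q x) =
    ((q : O) - 1) • (((q : O) + 1) ^ 2 • x - heckeOp ρ q (heckeOp ρ q x)) := by
  rw [sqLower_split hqN (sqTop ρ q x) (s := degenUp ρ q (heckeOp ρ q x) - degenOne ρ q x)
    (t := (q : O) • degenUp ρ q x)
    (eq_sub_of_add_eq (stepTrace_degenUp_degenUp hqN hρ x))
    (stepTraceTwist_degenUp (ρ := pullRep ρ (dvd_mul_left N q)) (fun u => hρ _) (dvd_mul_right q N)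
      (degenUp ρ q x))]
  simp only [map_smul, map_sub, trace_degenUp hρ hqN, trace_degen_one hqN ρ,
    traceTwist_degen_one hqN ρ, traceTwist_degen hqN ρ]
  module

/-- `ι' ∘ ι = (q - 1) ((q + 1)² - T_q²)`. -/
theorem sqLower_sqRaise (x : Coh1 ρ) : sqLower ρ hqN (sqRaise ρ x) =
    ((q : O) - 1) • (((q : O) + 1) ^ 2 • x - heckeOp ρ q (heckeOp ρ q x)) := by
  have hρ' : ∀ u, pullRep ρ (dvd_mul_left N q) u = 1 := fun u => hρ _
  have h1 := sqLower_sqOne hρ hqN x
  have h2 := sqLower_sqMid hρ hqN (heckeOp ρ q x)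
  have h3 := sqLower_sqTop hρ hqN x
  rw [sqRaise_apply, map_add, map_sub, map_smul, h1, h2, h3, smul_zero, sub_zero, zero_add]

end Fermat.Agent.HeckeModule
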