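import Fermat.Agent.TwoAdic.Modules.AtkinOp
import Fermat.Agent.TwoAdic.Scalar.Raise

/-!
`U_q` at a level divisible by `q` is the Hecke operator at `q`.
-/

set_option autoImplicit false

universe uO uA

namespace Fermat.Agent.HeckeModule

open HeckeJ0 LevelRaising TwoAdic

section UOp

variable {O : Type uO} [CommRing O] {A : Type uA} [AddCommGroup A] [Module O A]
  {M q : ℕ} [hq : Fact q.Prime] [NeZero M] {ρ : Representation O (ZMod M)ˣ A}

/-- At a level divisible by `q` the Hecke operator at `q` is `U_q`. -/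
theorem heckeOp_eq_uOp (hρ : ∀ u, ρ u = 1) (hqM : q ∣ M) : heckeOp ρ q = uOp ρ hqM := by
  have : NeZero q := ⟨hq.out.ne_zero⟩
  obtain ⟨E, hE⟩ := exists_finEquiv (N := M) hqM
  have hH : MatBy (heckeOp ρ q) fun x : Idx M q => heckMat q (some (E.symm x)) := by
    refine MatBy.of_data (heckeData ρ q) (fun _ => hρ _) _
      (fun x => by rw [det_heckMat]; exact_mod_cast hq.out.ne_zero) fun x => ?_
    have h := (hE (E.symm x)).1
    rw [Equiv.apply_symm_apply] at h
    exact h
  refine MatBy.eq hρ hH (matBy_uOp ρ hqM) (E.symm.trans (Equiv.punitProd _).symm) fun x => ?_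
  refine ⟨1, one_mem_lvl M, 1, 1, one_ne_zero, one_ne_zero, ?_⟩
  rw [one_mul]
  refine natCast_one_smul_mat ?_
  simp [heckMat, stepDegReps, mm_mul]

end UOp

end Fermat.Agent.HeckeModule
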