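import Fermat.Agent.TwoAdic.Modules.AtkinLoc
import Fermat.Agent.TwoAdic.Scalar.RaiseHecke

/-!
With trivial character the Atkin–Lehner operators at primes other than `q` commute with both
degeneracy maps and all four transfers at `q`, hence with the raising and lowering maps.
-/

set_option autoImplicit false

universe uO uA

namespace Fermat.Agent.HeckeModule

open CongruenceSubgroup HeckeJ0 LevelRaising TwoAdic

/-- Trivial coefficients written with the trivial character. -/
noncomputable abbrev oneRep (O : Type uO) [CommRing O] (A : Type uA) [AddCommGroup A] [Module O A]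
    (N : ℕ) : Representation O (ZMod N)ˣ A :=
  scalarRep (1 : (ZMod N)ˣ →* O) A

variable {O : Type uO} [CommRing O] {A : Type uA} [AddCommGroup A] [Module O A]

lemma oneRep_eq_one {N : ℕ} (u : (ZMod N)ˣ) : oneRep O A N u = 1 :=
  LinearMap.ext fun a => by rw [scalarRep_apply, MonoidHom.one_apply, one_smul]; rfl

section One

variable {N : ℕ} {W : Finset ℕ} (hW : IsALPrimes N W) {e : ℕ} (he : e ∈ W)

variable (A) in
/-- The Atkin–Lehner operator at `e` for the trivial character. -/
noncomputable abbrev alOne (c : O) : Module.End O (Coh1 (oneRep O A N)) :=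
  alOp A hW he (one_dvd N) (1 : (ZMod 1)ˣ →* O) (Nat.coprime_one_right e) c

lemma alOne_eq_smul (c : O) (u : Coh1 (oneRep O A N)) :
    alOne A hW he c u = c • alOne A hW he 1 u := by
  obtain ⟨z, rfl⟩ := toCoh_surjective (oneRep O A N) u
  show toCoh _ _ = c • toCoh _ _
  rw [← map_smul]
  refine congrArg _ (Subtype.ext (funext fun γ => ?_))
  show (alData A hW he _ _ _ c).raw z.1 γ = c • (alData A hW he _ _ _ 1).raw z.1 γ
  rw [alData_raw, alData_raw, one_smul]

theorem matBy_alOne : MatBy (alOne A hW he (1 : O)) fun _ : Unit => alMat N e :=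
  MatBy.of_data (alData A hW he (one_dvd N) (1 : (ZMod 1)ˣ →* O) (Nat.coprime_one_right e) 1)
    (fun _ => one_smul _ _) _ (fun _ => alMat_det_ne_zero hW he) fun _ => rfl

end One

section Transfer

variable {N N' : ℕ} {W W' : Finset ℕ} (hW : IsALPrimes N W) (hW' : IsALPrimes N' W') {e : ℕ}
  (he : e ∈ W) (he' : e ∈ W')

include hW' he' in
/-- A transfer by coset representatives of a set normalised by the Atkin–Lehner matrices commutes
with the Atkin–Lehner operators. -/
theorem alOne_comm_of_fact {ι : Type*} [Fintype ι] {X : Set Mat} {β : ι → Mat}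
    (hF : IsFact X (Lvl N') β) {Φ : Coh1 (oneRep O A N') →ₗ[O] Coh1 (oneRep O A N)}
    (hΦ : MatBy Φ β) (key : ∀ i, ∃ x ∈ X, β i * alMat N e = alMat N' e * x) (c : O)
    (u : Coh1 (oneRep O A N')) :
    alOne A hW he c (Φ u) = Φ (alOne A hW' he' c u) := by
  have hk : ∀ i, ∃ (j : ι) (g : Gamma0 N'),
      β i * alMat N e = ((g : Matrix.SpecialLinearGroup (Fin 2) ℤ) : Mat) * (alMat N' e * β j) := by
    intro i
    obtain ⟨x, hx, hix⟩ := key i
    obtain ⟨j, y, hy, rfl⟩ := hF.fact x hx
    refine ⟨j, alConj hW' he' (lvlElt hy), ?_⟩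
    have h := alConj_spec hW' he' (lvlElt hy)
    change alMat N' e * y = _ at h
    rw [hix, ← mul_assoc, h, mul_assoc]
  choose σ g hσ using hk
  have hσi : Function.Injective σ := by
    intro i i' h
    have e1 := hσ i
    have e2 := hσ i'
    rw [h] at e1
    have h3 : (((g i' : Matrix.SpecialLinearGroup (Fin 2) ℤ) : Mat)
        * ((g i : Matrix.SpecialLinearGroup (Fin 2) ℤ) : Mat).adjugate) * β i = β i' := by
      refine mat_cancel_right (alMat_det_ne_zero hW he) ?_
      rw [mul_assoc, e1, e2, ← mul_assoc (((g i' : Matrix.SpecialLinearGroup (Fin 2) ℤ) : Mat)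
        * ((g i : Matrix.SpecialLinearGroup (Fin 2) ℤ) : Mat).adjugate),
        mul_assoc ((g i' : Matrix.SpecialLinearGroup (Fin 2) ℤ) : Mat),
        adjugate_mul_lvl (coe_mem_lvl (g i)), mul_one]
    exact hF.unique (lvl_mul (coe_mem_lvl _) (adjugate_mem_detLevel (coe_mem_lvl _)))
      (one_mem_lvl _) (h3.trans (one_mul _).symm)
  let τ : ι ≃ ι := Equiv.ofBijective σ ⟨hσi, (Finite.injective_iff_surjective).mp hσi⟩
  have h := MatBy.eq (oneRep_eq_one (O := O) (A := A)) (hΦ.comp (matBy_alOne hW he))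
    ((matBy_alOne hW' he').comp hΦ) ((Equiv.prodComm _ _).trans ((Equiv.refl Unit).prodCongr τ))
    fun p => ⟨_, coe_mem_lvl (g p.1), 1, 1, one_ne_zero, one_ne_zero, by
      simp only [Nat.cast_one, one_smul]
      exact hσ p.1⟩
  rw [alOne_eq_smul hW he c, alOne_eq_smul hW' he' c, map_smul]
  exact congrArg _ (LinearMap.congr_fun h u)

include hW hW' he he' in
/-- The degeneracy map of `z ↦ d z` commutes with the Atkin–Lehner operators. -/
theorem alOne_comm_degen {d : ℕ} (h : d * N ∣ N')
    {Φ : Coh1 (oneRep O A N) →ₗ[O] Coh1 (oneRep O A N')}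
    (hΦ : MatBy Φ fun _ : Unit => mm d 0 0 1) (c : O) (u : Coh1 (oneRep O A N)) :
    alOne A hW' he' c (Φ u) = Φ (alOne A hW he c u) := by
  obtain ⟨hdet, ⟨x, hx⟩, hw, hz⟩ := alMat_mem hW' he'
  obtain ⟨z, hz'⟩ : ∃ z, alMat N' e 1 0 = (d : ℤ) * ((N : ℤ) * z) := by
    obtain ⟨z, hz'⟩ := (Int.natCast_dvd_natCast.mpr h).trans hz
    exact ⟨z, by rw [hz']; push_cast; ring⟩
  have hX : mm (alMat N' e 0 0) ((d : ℤ) * alMat N' e 0 1) ((N : ℤ) * z) (alMat N' e 1 1)
      ∈ alSet N e := by
    refine ⟨?_, by simpa using Dvd.intro _ hx.symm, by simpa using hw, by simp⟩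
    rw [Matrix.det_fin_two] at hdet
    simp only [mm_det]
    linear_combination hdet + alMat N' e 0 1 * hz'
  obtain ⟨γ, hγ⟩ := exists_eq_mul_alSet (hW e he).2.1 (hW e he).1.ne_zero hX (alMat_mem hW he)
  have hkey : mm d 0 0 1 * alMat N' e
      = ((γ : Matrix.SpecialLinearGroup (Fin 2) ℤ) : Mat) * (alMat N e * mm d 0 0 1) := by
    rw [← mul_assoc, ← hγ]
    conv_lhs => rw [mm_eta (alMat N' e), hz']
    simp only [mm_mul, mm_inj]
    refine ⟨?_, ?_, ?_, ?_⟩ <;> ring
  have h := MatBy.eq (oneRep_eq_one (O := O) (A := A)) (hΦ.comp (matBy_alOne hW' he'))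
    ((matBy_alOne hW he).comp hΦ) (Equiv.refl _)
    fun p => ⟨_, coe_mem_lvl γ, 1, 1, one_ne_zero, one_ne_zero, by
      simp only [Nat.cast_one, one_smul]
      exact hkey⟩
  rw [alOne_eq_smul hW' he' c, alOne_eq_smul hW he c, map_smul]
  exact congrArg _ (LinearMap.congr_fun h u)

include hW hW' he he' in
/-- The representatives of a trace are exchanged. -/
lemma key_lvl (h : N ∣ N') {b : Mat} (hb : b ∈ Lvl N) :
    ∃ x ∈ Lvl N, b * alMat N e = alMat N' e * x := by
  have hX' := alMat_mem hW' he'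
  have hX : alMat N' e ∈ alSet N e :=
    ⟨hX'.1, hX'.2.1, hX'.2.2.1, (Int.natCast_dvd_natCast.mpr h).trans hX'.2.2.2⟩
  obtain ⟨δ, hδ⟩ := exists_eq_alSet_mul (hW e he).2.1 (hW e he).1.ne_zero
    (lvl_mul_alSet (hW e he).2.1 (alMat_mem hW he) hb) hX
  exact ⟨_, coe_mem_lvl δ, hδ⟩

include hW hW' he he' in
/-- The representatives of a twisted trace are exchanged. -/
lemma key_degenSet {q : ℕ} [Fact q.Prime] (hN' : N' = q * N) {b : Mat}
    (hb : b ∈ degenSet N q) : ∃ x ∈ degenSet N q, b * alMat N e = alMat N' e * x := by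
  obtain ⟨z, hz, rfl⟩ := hb
  obtain ⟨hdet, ⟨x0, hx0⟩, hw0, hz0⟩ := alMat_mem hW' he'
  obtain ⟨t, ht⟩ : ∃ t, alMat N' e 1 0 = (q : ℤ) * ((N : ℤ) * t) := by
    obtain ⟨t, ht⟩ := hz0
    exact ⟨t, by rw [ht, hN']; push_cast; ring⟩
  set Yd := mm (alMat N' e 0 0) ((q : ℤ) * alMat N' e 0 1) ((N : ℤ) * t) (alMat N' e 1 1)
  have hYd : Yd ∈ alSet N e := by
    refine ⟨?_, by simpa [Yd] using Dvd.intro _ hx0.symm, by simpa [Yd] using hw0, by simp [Yd]⟩
    rw [Matrix.det_fin_two] at hdet
    simp only [Yd, mm_det]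
    linear_combination hdet + alMat N' e 0 1 * ht
  obtain ⟨δ, hδ⟩ := exists_eq_alSet_mul (hW e he).2.1 (hW e he).1.ne_zero
    (lvl_mul_alSet (hW e he).2.1 (alMat_mem hW he) hz) hYd
  refine ⟨_, ⟨_, coe_mem_lvl δ, rfl⟩, ?_⟩
  have hD : mm 1 0 0 (q : ℤ) * Yd = alMat N' e * mm 1 0 0 (q : ℤ) := by
    conv_rhs => rw [mm_eta (alMat N' e), ht]
    simp only [Yd, mm_mul, mm_inj]
    refine ⟨?_, ?_, ?_, ?_⟩ <;> ring
  show mm 1 0 0 (q : ℤ) * z * alMat N e = alMat N' e * (mm 1 0 0 (q : ℤ) * _)
  rw [mul_assoc, hδ, ← mul_assoc, hD, mul_assoc]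

end Transfer

section Raise


variable {N q : ℕ} [hq : Fact q.Prime] {W : Finset ℕ} (hW : IsALPrimes N W)
  (hW' : IsALPrimes (q * (q * N)) W) {e : ℕ} (he : e ∈ W) (heq : e ≠ q)

include hW heq in
lemma isALPrimes_mul (he : e ∈ W) : IsALPrimes (q * N) {e} := by
  intro a ha
  rw [Finset.mem_singleton] at ha
  subst ha
  obtain ⟨hp, hd, hnd⟩ := hW a he
  refine ⟨hp, hd.mul_left q, fun h => hnd ?_⟩
  exact ((Nat.Coprime.mul_left ((Nat.coprime_primes hp hq.out).mpr heq)
    ((Nat.coprime_primes hp hq.out).mpr heq)).dvd_of_dvd_mul_left h)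

include hW heq in
/-- The raising map commutes with the Atkin–Lehner operators at primes other than `q`. -/
theorem alOne_sqRaise (c : O) (u : Coh1 (oneRep O A N)) :
    alOne A hW' he c (sqRaise (q := q) (oneRep O A N) u)
      = sqRaise (q := q) (oneRep O A N) (alOne A hW he c u) := by
  have hW1 := isALPrimes_mul (q := q) hW heq he
  have he1 := Finset.mem_singleton_self e
  have m1 : ∀ v, alOne A hW1 he1 c (degenOne (oneRep O A N) q v)
      = degenOne (oneRep O A N) q (alOne A hW he c v) := fun v =>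
    alOne_comm_degen hW hW1 he he1 (d := 1) (by rw [one_mul]; exact dvd_mul_left N q)
      (by rw [Nat.cast_one]; exact matBy_degenOne (q := q) (oneRep O A N)) c v
  have m2 : ∀ v, alOne A hW1 he1 c (degenUp (oneRep O A N) q v)
      = degenUp (oneRep O A N) q (alOne A hW he c v) := fun v =>
    alOne_comm_degen hW hW1 he he1 dvd_rfl (matBy_degenUp (oneRep O A N)) c v
  have n1 : ∀ v, alOne A hW' he c (degenOne (pullRep (oneRep O A N) (dvd_mul_left N q)) q v)
      = degenOne (pullRep (oneRep O A N) (dvd_mul_left N q)) q (alOne A hW1 he1 c v) := fun v =>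
    alOne_comm_degen hW1 hW' he1 he (d := 1)
      (by rw [one_mul]; exact dvd_mul_left _ q)
      (by rw [Nat.cast_one]; exact matBy_degenOne (q := q) (oneRep O A (q * N))) c v
  have n2 : ∀ v, alOne A hW' he c (degenUp (pullRep (oneRep O A N) (dvd_mul_left N q)) q v)
      = degenUp (pullRep (oneRep O A N) (dvd_mul_left N q)) q (alOne A hW1 he1 c v) := fun v =>
    alOne_comm_degen hW1 hW' he1 he dvd_rfl
      (matBy_degenUp (oneRep O A (q * N))) c v
  have hT : ∀ v, heckeOp (oneRep O A N) q (alOne A hW he c v)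
      = alOne A hW he c (heckeOp (oneRep O A N) q v) := fun v =>
    (alOp_heckeOp_ne (A := A) hW he (one_dvd N) (1 : (ZMod 1)ˣ →* O) (Nat.coprime_one_right e) c
      (ℓ := q) (Ne.symm heq) v).symm
  have e1 : ∀ v, alOne A hW' he c (sqOne (oneRep O A N) q v)
      = sqOne (oneRep O A N) q (alOne A hW he c v) := fun v =>
    (n1 _).trans (congrArg (degenOne (pullRep (oneRep O A N) (dvd_mul_left N q)) q) (m1 v))
  have e2 : ∀ v, alOne A hW' he c (sqMid (oneRep O A N) q v)
      = sqMid (oneRep O A N) q (alOne A hW he c v) := fun v =>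
    (n1 _).trans (congrArg (degenOne (pullRep (oneRep O A N) (dvd_mul_left N q)) q) (m2 v))
  have e3 : ∀ v, alOne A hW' he c (sqTop (oneRep O A N) q v)
      = sqTop (oneRep O A N) q (alOne A hW he c v) := fun v =>
    (n2 _).trans (congrArg (degenUp (pullRep (oneRep O A N) (dvd_mul_left N q)) q) (m2 v))
  refine ((congrArg (alOne A hW' he c) (sqRaise_apply (oneRep O A N) u)).trans ?_).trans
    (sqRaise_apply (oneRep O A N) (alOne A hW he c u)).symm
  refine (map_add (alOne A hW' he c) _ _).trans (congrArg₂ (· + ·)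
    ((map_sub (alOne A hW' he c) _ _).trans (congrArg₂ (· - ·)
      ((map_smul (alOne A hW' he c) _ _).trans (congrArg _ (e1 u)))
      ((e2 _).trans (congrArg (sqMid (oneRep O A N) q) (hT u).symm)))) (e3 u))

variable [NeZero N] (hqN : ¬ q ∣ N)

include hW heq in
/-- The lowering map commutes with the Atkin–Lehner operators at primes other than `q`. -/
theorem alOne_sqLower (c : O) (y : Coh1 (sqRep (oneRep O A N) q)) :
    alOne A hW he c (sqLower (oneRep O A N) hqN y)
      = sqLower (oneRep O A N) hqN (alOne A hW' he c y) := by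
  have : NeZero (q * N) := ⟨mul_ne_zero hq.out.ne_zero (NeZero.ne N)⟩
  have hW1 := isALPrimes_mul (q := q) hW heq he
  have he1 := Finset.mem_singleton_self e
  have t1 : ∀ v, alOne A hW he c (trace (oneRep O A N) hqN v)
      = trace (oneRep O A N) hqN (alOne A hW1 he1 c v) := fun v =>
    alOne_comm_of_fact hW hW1 he he1 (fact_traceMat' hqN) (matBy_trace (oneRep O A N) hqN)
      (fun i => key_lvl hW hW1 he he1 (dvd_mul_left N q) (traceMat_mem_lvl hq.out hqN i)) c v
  have t2 : ∀ v, alOne A hW he c (traceTwist (oneRep O A N) hqN v)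
      = traceTwist (oneRep O A N) hqN (alOne A hW1 he1 c v) := fun v =>
    alOne_comm_of_fact hW hW1 he he1 (fact_degenReps hqN) (matBy_traceTwist (oneRep O A N) hqN)
      (fun i => key_degenSet hW hW1 he he1 rfl (by
        simpa using (fact_degenReps hqN).mem 1 (one_mem_lvl _) i)) c v
  have s1 : ∀ v, alOne A hW1 he1 c
        (stepTrace (dvd_mul_right q N) (pullRep (oneRep O A N) (dvd_mul_left N q)) v)
      = stepTrace (dvd_mul_right q N) (pullRep (oneRep O A N) (dvd_mul_left N q))
        (alOne A hW' he c v) := fun v =>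
    alOne_comm_of_fact hW1 hW' he1 he (fact_stepReps_one (dvd_mul_right q N))
      (matBy_stepTrace (oneRep O A (q * N)) (dvd_mul_right q N))
      (fun i => key_lvl hW1 hW' he1 he (dvd_mul_left _ q) (stepReps_mem i)) c v
  have s2 : ∀ v, alOne A hW1 he1 c
        (stepTraceTwist (dvd_mul_right q N) (pullRep (oneRep O A N) (dvd_mul_left N q)) v)
      = stepTraceTwist (dvd_mul_right q N) (pullRep (oneRep O A N) (dvd_mul_left N q))
        (alOne A hW' he c v) := fun v =>
    alOne_comm_of_fact hW1 hW' he1 he (fact_stepDegReps_one (dvd_mul_right q N))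
      (matBy_stepTraceTwist (oneRep O A (q * N)) (dvd_mul_right q N))
      (fun i => key_degenSet hW1 hW' he1 he rfl (by
        simpa using (fact_stepDegReps_one (dvd_mul_right q N)).mem 1 (one_mem_lvl _) i)) c v
  have hT : ∀ v, alOne A hW he c (heckeOp (oneRep O A N) q v)
      = heckeOp (oneRep O A N) q (alOne A hW he c v) := fun v =>
    alOp_heckeOp_ne (A := A) hW he (one_dvd N) (1 : (ZMod 1)ˣ →* O) (Nat.coprime_one_right e) c
      (ℓ := q) (Ne.symm heq) v
  refine ((congrArg (alOne A hW he c) (sqLower_apply (oneRep O A N) hqN y)).trans ?_).trans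
    (sqLower_apply (oneRep O A N) hqN (alOne A hW' he c y)).symm
  refine (map_add (alOne A hW he c) _ _).trans (congrArg₂ (· + ·)
    ((map_sub (alOne A hW he c) _ _).trans (congrArg₂ (· - ·)
      ((t1 _).trans (congrArg (trace (oneRep O A N) hqN) (s1 y)))
      ((hT _).trans (congrArg (heckeOp (oneRep O A N) q)
        ((t2 _).trans (congrArg (traceTwist (oneRep O A N) hqN) (s1 y))))))) ?_)
  exact (map_smul (alOne A hW he c) _ _).trans
    (congrArg _ ((t2 _).trans (congrArg (traceTwist (oneRep O A N) hqN) (s2 y))))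

end Raise

section Root

variable {N q : ℕ} [hq : Fact q.Prime] [NeZero N] {W : Finset ℕ} (hW : IsALPrimes N W)
  (hW' : IsALPrimes (q * N) W) {e : ℕ} (he : e ∈ W) (hqN : ¬ q ∣ N)

omit [NeZero N] in
include hW hW' in
/-- The maps of the step at a root commute with the Atkin–Lehner operators at primes other
than `q`. -/
theorem alOne_root_maps (c : O) :
    (∀ u, alOne A hW' he c (degenOne (oneRep O A N) q u)
      = degenOne (oneRep O A N) q (alOne A hW he c u)) ∧
    (∀ u, alOne A hW' he c (degenUp (oneRep O A N) q u)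
      = degenUp (oneRep O A N) q (alOne A hW he c u)) ∧
    (∀ v, alOne A hW he c (trace (oneRep O A N) hqN v)
      = trace (oneRep O A N) hqN (alOne A hW' he c v)) ∧
    ∀ v, alOne A hW he c (traceTwist (oneRep O A N) hqN v)
      = traceTwist (oneRep O A N) hqN (alOne A hW' he c v) :=
  ⟨fun u => alOne_comm_degen hW hW' he he (d := 1)
      (by rw [one_mul]; exact dvd_mul_left N q)
      (by rw [Nat.cast_one]; exact matBy_degenOne (q := q) (oneRep O A N)) c u,
    fun u => alOne_comm_degen hW hW' he he dvd_rfl (matBy_degenUp (oneRep O A N)) c u,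
    fun v => alOne_comm_of_fact hW hW' he he (fact_traceMat' hqN)
      (matBy_trace (oneRep O A N) hqN)
      (fun i => key_lvl hW hW' he he (dvd_mul_left N q) (traceMat_mem_lvl hq.out hqN i)) c v,
    fun v => alOne_comm_of_fact hW hW' he he (fact_degenReps hqN)
      (matBy_traceTwist (oneRep O A N) hqN)
      (fun i => key_degenSet hW hW' he he rfl (by
        simpa using (fact_degenReps hqN).mem 1 (one_mem_lvl _) i)) c v⟩

end Root

end Fermat.Agent.HeckeModule
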