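import Fermat.Agent.Engine.Lifting.TraceAtkin
import Fermat.Agent.TwoAdic.Scalar.RaiseHecke

/-!
The transfers from level `qM` to level `M` and the raising and lowering maps between levels `N` and
`q²N` commute with the Hecke operators at every prime other than `q`.
-/

set_option autoImplicit false

namespace Fermat.Agent.HeckeModule

open HeckeJ0 LevelRaising TwoAdic Engine.Lifting

section Step

variable {O : Type} [CommRing O] {A : Type} [AddCommGroup A] [Module O A] {M q ℓ : ℕ}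
  [hq : Fact q.Prime] [hℓ : Fact ℓ.Prime] [NeZero M] (hqM : q ∣ M)
  (ρ : Representation O (ZMod M)ˣ A) (hℓq : ℓ ≠ q)
include hℓq

omit [NeZero M] in
lemma not_dvd_natCast_of_ne : ¬ (q : ℤ) ∣ (ℓ : ℤ) := by
  exact_mod_cast fun h => hℓq ((Nat.prime_dvd_prime_iff_eq hq.out hℓ.out).mp h).symm

/-- The trace from level `qM` commutes with the Hecke operators at the primes other than `q`. -/
theorem stepTrace_heckeOp_ne (u : Coh1 (pullRep ρ (dvd_mul_left M q))) :
    stepTrace hqM ρ (heckeOp _ ℓ u) = heckeOp ρ ℓ (stepTrace hqM ρ u) := by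
  by_cases hℓM : ℓ ∣ M
  · refine transfer_uOp (X' := uSet M ℓ) ρ (β := stepReps M q) stepReps_apply_zero
      ((fact_uSet hℓ.out hℓM).comp (fact_stepReps_one hqM)) ?_ hℓM
      (fact_stepReps_one hqM).det_ne_zero (stepData hqM ρ) (fun _ => rfl) (fun _ => rfl) u
    have h := isFact_restrict (fact_stepReps hqM (not_dvd_natCast_of_ne hℓq))
      (fun x => ¬ (ℓ : ℤ) ∣ x 0 0) (fun x => ¬ (ℓ : ℤ) ∣ x 0 0) fun y _ i =>
      (dvd_mul_apply_iff hℓM (stepReps_apply_zero i).1 (stepReps_apply_zero i).2 y).not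
    exact h.comp (fact_uSet hℓ.out (hℓM.mul_left q))
  · exact stepTrace_heckeOp hqM ρ (fun h => (hℓ.out.dvd_mul.mp h).elim
      (fun h' => hℓq ((Nat.prime_dvd_prime_iff_eq hℓ.out hq.out).mp h')) hℓM) u

/-- The twisted trace from level `qM` commutes with the Hecke operators at the primes other than
`q`. -/
theorem stepTraceTwist_heckeOp_ne (u : Coh1 (pullRep ρ (dvd_mul_left M q))) :
    stepTraceTwist hqM ρ (heckeOp _ ℓ u) = heckeOp ρ ℓ (stepTraceTwist hqM ρ u) := by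
  by_cases hℓM : ℓ ∣ M
  · refine transfer_uOp (X' := (mm 1 0 0 (q : ℤ) * ·) '' uSet M ℓ) ρ (β := stepDegReps q)
      stepDegReps_apply_zero
      ((isFact_mul_left (fact_uSet hℓ.out hℓM) (mm 1 0 0 q)
        (by simp [hq.out.ne_zero])).comp (fact_stepDegReps_one hqM)) ?_ hℓM
      (fact_stepDegReps_one hqM).det_ne_zero (stepDegData hqM ρ) (fun _ => rfl) (fun _ => rfl) u
    have h := isFact_restrict (fact_stepDegReps hqM (not_dvd_natCast_of_ne hℓq))
      (fun x => ¬ (ℓ : ℤ) ∣ x 0 0) (fun x => ¬ (ℓ : ℤ) ∣ x 0 0) fun y _ i =>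
      (dvd_mul_apply_iff hℓM (stepDegReps_apply_zero i).1 (stepDegReps_apply_zero i).2 y).not
    have hset : {x | x ∈ (mm 1 0 0 (q : ℤ) * ·) '' DetLevel M (ℓ : ℤ) ∧ ¬ (ℓ : ℤ) ∣ x 0 0} =
        (mm 1 0 0 (q : ℤ) * ·) '' uSet M ℓ := by
      ext x
      constructor
      · rintro ⟨⟨z, hz, rfl⟩, hx⟩
        exact ⟨z, ⟨hz, by simpa [Matrix.mul_apply] using hx⟩, rfl⟩
      · rintro ⟨z, ⟨hz, hz'⟩, rfl⟩
        exact ⟨⟨z, hz, rfl⟩, by simpa [Matrix.mul_apply] using hz'⟩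
    rw [hset] at h
    exact h.comp (fact_uSet hℓ.out (hℓM.mul_left q))
  · exact stepTraceTwist_heckeOp hqM ρ (fun h => (hℓ.out.dvd_mul.mp h).elim
      (fun h' => hℓq ((Nat.prime_dvd_prime_iff_eq hℓ.out hq.out).mp h')) hℓM) u

end Step

section Trace

variable {O : Type} [CommRing O] {A : Type} [AddCommGroup A] [Module O A] {N q ℓ : ℕ}
  [hq : Fact q.Prime] [hℓ : Fact ℓ.Prime] [NeZero N] (hqN : ¬ q ∣ N)
  (ρ : Representation O (ZMod N)ˣ A) (hℓq : ℓ ≠ q)
include hℓq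

omit [NeZero N] in
/-- The trace commutes with the Hecke operators at the primes other than `q`. -/
theorem trace_heckeOp_ne (u : Coh1 (pullRep ρ (dvd_mul_left N q))) :
    trace ρ hqN (heckeOp _ ℓ u) = heckeOp ρ ℓ (trace ρ hqN u) := by
  by_cases hℓN : ℓ ∣ N
  · exact Engine.Lifting.trace_uOp ρ hqN hℓN u
  · exact trace_heckeOp ρ hqN (fun h => (hℓ.out.dvd_mul.mp h).elim
      (fun h' => hℓq ((Nat.prime_dvd_prime_iff_eq hℓ.out hq.out).mp h')) hℓN) u

omit [NeZero N] in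
/-- The twisted trace commutes with the Hecke operators at the primes other than `q`. -/
theorem traceTwist_heckeOp_ne (u : Coh1 (pullRep ρ (dvd_mul_left N q))) :
    traceTwist ρ hqN (heckeOp _ ℓ u) = heckeOp ρ ℓ (traceTwist ρ hqN u) := by
  by_cases hℓN : ℓ ∣ N
  · exact Engine.Lifting.traceTwist_uOp ρ hqN hℓN u
  · exact traceTwist_heckeOp ρ hqN (fun h => (hℓ.out.dvd_mul.mp h).elim
      (fun h' => hℓq ((Nat.prime_dvd_prime_iff_eq hℓ.out hq.out).mp h')) hℓN) u

omit [NeZero N] in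
/-- The raising map commutes with the Hecke operators at the primes other than `q`. -/
theorem sqRaise_heckeOp_ne (u : Coh1 ρ) :
    sqRaise (q := q) ρ (heckeOp ρ ℓ u) = heckeOp _ ℓ (sqRaise (q := q) ρ u) := by
  have hc : heckeOp ρ q (heckeOp ρ ℓ u) = heckeOp ρ ℓ (heckeOp ρ q u) :=
    LinearMap.congr_fun (heckeOp_comm (ℓ := q) ρ ℓ) u
  simp only [sqRaise_apply, map_add, map_sub, map_smul, hc, sqOne_heckeOp ρ q hℓq,
    sqMid_heckeOp ρ q hℓq, sqTop_heckeOp ρ q hℓq]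

/-- The lowering map commutes with the Hecke operators at the primes other than `q`. -/
theorem sqLower_heckeOp_ne (y : Coh1 (sqRep ρ q)) :
    sqLower ρ hqN (heckeOp _ ℓ y) = heckeOp ρ ℓ (sqLower ρ hqN y) := by
  have : NeZero (q * N) := ⟨mul_ne_zero hq.out.ne_zero (NeZero.ne N)⟩
  have hc : ∀ u, heckeOp ρ q (heckeOp ρ ℓ u) = heckeOp ρ ℓ (heckeOp ρ q u) := fun u =>
    LinearMap.congr_fun (heckeOp_comm (ℓ := q) ρ ℓ) u
  simp only [sqLower_apply, map_add, map_sub, map_smul,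
    stepTrace_heckeOp_ne (dvd_mul_right q N) (pullRep ρ (dvd_mul_left N q)) hℓq,
    stepTraceTwist_heckeOp_ne (dvd_mul_right q N) (pullRep ρ (dvd_mul_left N q)) hℓq,
    trace_heckeOp_ne hqN ρ hℓq, traceTwist_heckeOp_ne hqN ρ hℓq, hc]

end Trace

end Fermat.Agent.HeckeModule
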