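import Fermat.Agent.TwoAdic.Modules.LocCompare
import Fermat.Agent.TwoAdic.Scalar.RaiseAll

/-!
The raising and lowering maps between levels `N` and `q²N` on localisations: the prime of level
`q²N` sends `U_q` to `0`, and lowering after raising is `(q-1) ((q+1)² - T_q²)`.
-/

set_option autoImplicit false

universe uO uA uM

namespace Fermat.Agent.HeckeModule

open TwoAdic

section LiftEnd

variable {O : Type uO} [CommRing O] {A : Type uA} [AddCommGroup A] [Module O A] {L : ℕ}
  {σ : Representation O (ZMod L)ˣ A} {M : Type uM} [AddCommGroup M] [Module O M] {S : Set ℕ}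
  (f : Coh1 σ →ₗ[O] M) (Φ : AwayPoly O S →ₐ[O] Module.End O M)
  (hf : ∀ (l : AwayIndex S) (u : Coh1 σ),
    f ((MvPolynomial.X (l : Nat.Primes) : HeckePoly O) • u) = Φ (MvPolynomial.X l) (f u))

lemma awayIncl_injective : Function.Injective (awayIncl O S) :=
  MvPolynomial.rename_injective _ Subtype.val_injective

include hf in
/-- A map intertwining the generators intertwines all polynomials. -/
theorem map_awayIncl_smul_end (a : AwayPoly O S) (u : Coh1 σ) :
    f (awayIncl O S a • u) = Φ a (f u) := by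
  induction a using MvPolynomial.induction_on generalizing u with
  | C r =>
    rw [← MvPolynomial.algebraMap_eq, AlgHom.commutes, AlgHom.commutes, algebraMap_smul, map_smul,
      Module.algebraMap_end_apply]
  | add p p' hp hp' => simp only [map_add, add_smul, LinearMap.add_apply, hp, hp']
  | mul_X p l hp =>
    rw [map_mul, map_mul, awayIncl_X, mul_smul, hp, hf, Module.End.mul_apply]

variable (m : Ideal (AwayPoly O S)) [m.IsPrime]

/-- A preimage of an element of the monoid. -/
noncomputable def awayPre (s : awayMonoid m) : AwayPoly O S := s.2.choose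

lemma awayPre_notMem (s : awayMonoid m) : awayPre m s ∉ m := s.2.choose_spec.1

lemma awayIncl_awayPre (s : awayMonoid m) : awayIncl O S (awayPre m s) = s := s.2.choose_spec.2

variable (hb : ∀ a, a ∉ m → Function.Bijective (Φ a))

/-- Division by an element of the monoid. -/
noncomputable def divEnd (s : awayMonoid m) : M ≃ₗ[O] M :=
  LinearEquiv.ofBijective (Φ (awayPre m s)) (hb _ (awayPre_notMem m s))

/-- The map out of the localisation induced by an intertwining map. -/
noncomputable def locLiftEnd : CohLoc (awayMonoid m) σ →ₗ[O] M where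
  toFun x := LocalizedModule.liftOn x (fun p => (divEnd Φ m hb p.2).symm (f p.1))
    fun p p' h => by
      obtain ⟨u, hu⟩ := h
      have h1 := congrArg f hu
      simp only [Submonoid.smul_def] at h1
      rw [← awayIncl_awayPre m u, ← awayIncl_awayPre m p.2, ← awayIncl_awayPre m p'.2] at h1
      simp only [map_awayIncl_smul_end f Φ hf] at h1
      have h2 := (hb _ (awayPre_notMem m u)).1 h1
      refine (divEnd Φ m hb p.2).injective ((divEnd Φ m hb p'.2).injective ?_)
      rw [LinearEquiv.apply_symm_apply]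
      show Φ (awayPre m p'.2) (f p.1) = Φ (awayPre m p'.2) (Φ (awayPre m p.2) _)
      rw [← Module.End.mul_apply, ← map_mul, mul_comm, map_mul, Module.End.mul_apply]
      show _ = Φ (awayPre m p.2) (divEnd Φ m hb p'.2 ((divEnd Φ m hb p'.2).symm (f p'.1)))
      rw [LinearEquiv.apply_symm_apply]
      exact h2
  map_add' x y := by
    induction x using LocalizedModule.induction_on with
    | _ a s =>
      induction y using LocalizedModule.induction_on with
      | _ b t =>
        rw [LocalizedModule.mk_add_mk, LocalizedModule.liftOn_mk, LocalizedModule.liftOn_mk,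
          LocalizedModule.liftOn_mk]
        refine (divEnd Φ m hb (s * t)).injective ?_
        rw [LinearEquiv.apply_symm_apply, map_add, map_add]
        have he : awayPre m (s * t) = awayPre m s * awayPre m t :=
          awayIncl_injective (by simp only [map_mul, awayIncl_awayPre, Submonoid.coe_mul])
        show _ = Φ (awayPre m (s * t)) _ + Φ (awayPre m (s * t)) _
        rw [Submonoid.smul_def, Submonoid.smul_def, ← awayIncl_awayPre m s,
          ← awayIncl_awayPre m t, map_awayIncl_smul_end f Φ hf, map_awayIncl_smul_end f Φ hf, he]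
        congr 1
        · rw [mul_comm, map_mul, Module.End.mul_apply]
          exact congrArg _ ((divEnd Φ m hb s).apply_symm_apply (f a)).symm
        · rw [map_mul, Module.End.mul_apply]
          exact congrArg _ ((divEnd Φ m hb t).apply_symm_apply (f b)).symm
  map_smul' r x := by
    induction x using LocalizedModule.induction_on with
    | _ a s =>
      rw [LocalizedModule.smul'_mk, LocalizedModule.liftOn_mk, RingHom.id_apply,
        LocalizedModule.liftOn_mk, map_smul, map_smul]

variable {f Φ hf m hb}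

lemma apply_locLiftEnd_mk (u : Coh1 σ) (s : awayMonoid m) {a : AwayPoly O S}
    (ha : awayIncl O S a = s) :
    Φ a (locLiftEnd f Φ hf m hb (LocalizedModule.mk u s)) = f u := by
  obtain rfl : a = awayPre m s := awayIncl_injective (ha.trans (awayIncl_awayPre m s).symm)
  simp only [locLiftEnd, LinearMap.coe_mk, AddHom.coe_mk, LocalizedModule.liftOn_mk]
  exact (divEnd Φ m hb s).apply_symm_apply (f u)

lemma locLiftEnd_smul (a : AwayPoly O S) (x : CohLoc (awayMonoid m) σ) :
    locLiftEnd f Φ hf m hb (awayIncl O S a • x) = Φ a (locLiftEnd f Φ hf m hb x) := by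
  induction x using LocalizedModule.induction_on with
  | _ u s =>
    refine (hb _ (awayPre_notMem m s)).1 ?_
    rw [LocalizedModule.smul'_mk, apply_locLiftEnd_mk _ _ (awayIncl_awayPre m s),
      map_awayIncl_smul_end f Φ hf, ← Module.End.mul_apply, ← map_mul, mul_comm, map_mul,
      Module.End.mul_apply, apply_locLiftEnd_mk _ _ (awayIncl_awayPre m s)]

end LiftEnd

section SmulEnd

variable {O : Type uO} [CommRing O] {A : Type uA} [AddCommGroup A] [Module O A] {L : ℕ}
  {σ : Representation O (ZMod L)ˣ A} {P : Submonoid (HeckePoly O)} {S : Set ℕ}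

/-- The action through a homomorphism to all Hecke polynomials. -/
noncomputable def polyEnd (h : AwayPoly O S →ₐ[O] HeckePoly O) :
    AwayPoly O S →ₐ[O] Module.End O (CohLoc P σ) :=
  (Algebra.lsmul O O (CohLoc P σ)).comp h

lemma polyEnd_apply (h : AwayPoly O S →ₐ[O] HeckePoly O) (a : AwayPoly O S) (x : CohLoc P σ) :
    polyEnd h a x = h a • x := rfl

end SmulEnd

section Square

variable {O : Type} [CommRing O] {A : Type} [AddCommGroup A] [Module O A]
  {N q : ℕ} [hq : Fact q.Prime] {S : Set ℕ} (hS : q ∈ S)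
  (m : Ideal (AwayPoly O S)) [m.IsPrime]
  {ρ : Representation O (ZMod N)ˣ A}

/-- The prime at level `q²N`: `U_q ↦ 0`. -/
noncomputable abbrev sqIdeal (q : ℕ) : Ideal (AwayPoly O (S \ {q})) :=
  relaxIdeal m (S \ {q}) fun _ => 0

variable (ρ) in
/-- The raising map on localisations. -/
noncomputable def sqRaiseLoc :
    CohLoc (awayMonoid m) ρ →ₗ[O] CohLoc (awayMonoid (sqIdeal m q)) (sqRep ρ q) :=
  (locMono (awayMonoid_le_relax Set.sdiff_subset (fun _ => (0 : O)) m)).restrictScalars O ∘ₗ
    locLift (awayMonoid m) (sqRaise (q := q) ρ) ((isAway_awayMonoid m).commute _ fun ℓ hℓ hℓS u =>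
      sqRaise_heckeOp_ne ρ (fun h => hℓS (by rw [h]; exact hS)) u)

omit hq in
lemma sqRaiseLoc_mk [Fact q.Prime] (u : Coh1 ρ) (s : awayMonoid m) :
    sqRaiseLoc hS m ρ (LocalizedModule.mk u s) = LocalizedModule.mk (sqRaise (q := q) ρ u)
      (⟨(s : HeckePoly O), awayMonoid_le_relax Set.sdiff_subset (fun _ => (0 : O)) m s.2⟩ :
        awayMonoid (sqIdeal m q)) := by
  rw [sqRaiseLoc, LinearMap.comp_apply, locLift_mk, LinearMap.restrictScalars_apply, locMono_mk]

variable (hρ : ∀ u, ρ u = 1) [NeZero N] (hqN : ¬ q ∣ N)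

/-- The scalar `X_q ↦ 0` followed by the action. -/
noncomputable abbrev sqHom (O : Type uO) [CommRing O] (S : Set ℕ) (q : ℕ) :
    AwayPoly O (S \ {q}) →ₐ[O] HeckePoly O :=
  (awayIncl O S).comp (relaxHom O S (S \ {q}) fun _ => 0)

omit hq [NeZero N] in
lemma sqHom_X (l : AwayIndex (S \ {q})) :
    (((l : Nat.Primes) : ℕ) = q ∧ sqHom O S q (MvPolynomial.X l) = 0 ∧
      ((l : Nat.Primes) : ℕ) ∈ S) ∨
    (((l : Nat.Primes) : ℕ) ∉ S ∧
      sqHom O S q (MvPolynomial.X l) = MvPolynomial.X (l : Nat.Primes)) := by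
  by_cases h : ((l : Nat.Primes) : ℕ) ∈ S
  · refine Or.inl ⟨not_not.mp fun hne => l.2 ⟨h, hne⟩, ?_, h⟩
    rw [AlgHom.comp_apply, relaxHom, MvPolynomial.aeval_X, dif_pos h, map_zero, map_zero]
  · refine Or.inr ⟨h, ?_⟩
    rw [AlgHom.comp_apply, relaxHom, MvPolynomial.aeval_X, dif_neg h, awayIncl_X]

include hρ hqN in
/-- The raising map is equivariant, `U_q` acting as `0`. -/
theorem sqRaiseLoc_smul (a : AwayPoly O (S \ {q})) (x : CohLoc (awayMonoid m) ρ) :
    awayIncl O (S \ {q}) a • sqRaiseLoc hS m ρ x = sqRaiseLoc hS m ρ (sqHom O S q a • x) := by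
  induction a using MvPolynomial.induction_on generalizing x with
  | C r => rw [← MvPolynomial.algebraMap_eq, AlgHom.commutes, AlgHom.commutes, algebraMap_smul,
      algebraMap_smul, map_smul]
  | add p p' hp hp' => rw [map_add, map_add, add_smul, add_smul, map_add, hp, hp']
  | mul_X p l hp =>
    rw [map_mul, map_mul, mul_smul, mul_smul, ← hp]
    congr 1
    have : Fact ((l : Nat.Primes) : ℕ).Prime := ⟨(l : Nat.Primes).2⟩
    induction x using LocalizedModule.induction_on with
    | _ u s =>
      rw [awayIncl_X, sqRaiseLoc_mk, LocalizedModule.smul'_mk]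
      rcases sqHom_X (O := O) (S := S) l with ⟨hl, h0, -⟩ | ⟨hl, hX⟩
      · have hU : (MvPolynomial.X (l : Nat.Primes) : HeckePoly O) • sqRaise (q := q) ρ u = 0 := by
          rw [show (l : Nat.Primes) = ⟨q, hq.out⟩ from Subtype.ext hl, X_smul,
            heckeOp_eq_uOp (ρ := sqRep ρ q) (fun u => hρ _) (dvd_mul_right q (q * N))]
          exact sqU_sqRaise hρ hqN u
        rw [hU, h0, zero_smul, map_zero, LocalizedModule.zero_mk]
      · rw [hX, LocalizedModule.smul'_mk, sqRaiseLoc_mk]
        refine congrArg (LocalizedModule.mk · _) ?_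
        exact (X_smul _ _ _).trans ((sqRaise_heckeOp_ne ρ (fun h => hl (by rw [h]; exact hS)) u).symm.trans
          (congrArg _ (X_smul ρ _ u).symm))

include hρ hS in
lemma sqLowerLoc_aux (l : AwayIndex (S \ {q})) (y : Coh1 (sqRep ρ q)) :
    LocalizedModule.mkLinearMap (awayMonoid m) (Coh1 ρ) (sqLower ρ hqN
        ((MvPolynomial.X (l : Nat.Primes) : HeckePoly O) • y))
      = polyEnd (sqHom O S q) (MvPolynomial.X l)
        (LocalizedModule.mkLinearMap (awayMonoid m) (Coh1 ρ) (sqLower ρ hqN y)) := by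
  have : Fact ((l : Nat.Primes) : ℕ).Prime := ⟨(l : Nat.Primes).2⟩
  rcases sqHom_X (O := O) (S := S) l with ⟨hl, h0, -⟩ | ⟨hl, hX⟩
  · rw [show (l : Nat.Primes) = ⟨q, hq.out⟩ from Subtype.ext hl, X_smul,
      heckeOp_eq_uOp (ρ := sqRep ρ q) (fun u => hρ _) (dvd_mul_right q (q * N)), sqLower_sqU hρ hqN, map_zero,
      polyEnd_apply, h0, zero_smul]
  · rw [polyEnd_apply, hX, ← map_smul]
    refine congrArg _ ?_
    exact (congrArg _ (X_smul _ _ y)).trans
      ((sqLower_heckeOp_ne hqN ρ (fun h => hl (by rw [h]; exact hS)) y).trans (X_smul ρ _ _).symm)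

omit hq [NeZero N] in
lemma sqHom_bijective (a : AwayPoly O (S \ {q})) (ha : a ∉ sqIdeal m q) :
    Function.Bijective (polyEnd (σ := ρ) (P := awayMonoid m) (sqHom O S q) a) :=
  bijective_smul_of_mem (mem_awayMonoid ha)

/-- The lowering map on localisations. -/
noncomputable def sqLowerLoc :
    CohLoc (awayMonoid (sqIdeal m q)) (sqRep ρ q) →ₗ[O] CohLoc (awayMonoid m) ρ :=
  locLiftEnd ((LocalizedModule.mkLinearMap (awayMonoid m) (Coh1 ρ)).restrictScalars O ∘ₗ
      sqLower ρ hqN) (polyEnd (sqHom O S q)) (sqLowerLoc_aux hS m hρ hqN) (sqIdeal m q)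
    (sqHom_bijective m)

/-- The value of the lowering map, cleared of denominators. -/
lemma sqLowerLoc_mk (y : Coh1 (sqRep ρ q)) (t : awayMonoid (sqIdeal m q))
    {a : AwayPoly O (S \ {q})} (ha : awayIncl O (S \ {q}) a = t) :
    sqHom O S q a • sqLowerLoc hS m hρ hqN (LocalizedModule.mk y t)
      = LocalizedModule.mk (sqLower ρ hqN y) 1 := by
  unfold sqLowerLoc
  exact apply_locLiftEnd_mk (hb := sqHom_bijective m) y t ha

/-- The lowering map is equivariant. -/
theorem sqLowerLoc_smul (a : AwayPoly O (S \ {q}))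
    (y : CohLoc (awayMonoid (sqIdeal m q)) (sqRep ρ q)) :
    sqLowerLoc hS m hρ hqN (awayIncl O (S \ {q}) a • y)
      = sqHom O S q a • sqLowerLoc hS m hρ hqN y :=
  locLiftEnd_smul a y

/-- The index of the prime `q`. -/
def sqPrime (q : ℕ) [hq : Fact q.Prime] : Nat.Primes := ⟨q, hq.out⟩

/-- `(q - 1) ((q + 1)² - X_q²)`. -/
noncomputable def sqElt (O : Type uO) [CommRing O] (q : ℕ) [hq : Fact q.Prime] : HeckePoly O :=
  (MvPolynomial.C ((q : O) - 1) : HeckePoly O) *
    ((MvPolynomial.C (((q : O) + 1) ^ 2) : HeckePoly O) - MvPolynomial.X (sqPrime q) ^ 2)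

omit [NeZero N] in
lemma sqElt_smul_coh (u : Coh1 ρ) :
    sqElt O q • u = ((q : O) - 1) • (((q : O) + 1) ^ 2 • u - heckeOp ρ q (heckeOp ρ q u)) := by
  have hC : ∀ (r : O) (v : Coh1 ρ), (MvPolynomial.C r : HeckePoly O) • v = r • v := fun r v =>
    algebraMap_smul (HeckePoly O) r v
  have hX : ∀ v : Coh1 ρ,
      (MvPolynomial.X (sqPrime q) : HeckePoly O) • v = heckeOp ρ q v :=
    fun v => X_smul ρ q v
  rw [sqElt, mul_smul, hC]
  refine congrArg _ ?_
  rw [sub_smul, hC, pow_two (MvPolynomial.X (sqPrime q)), mul_smul, hX, hX]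

/-- Lowering after raising is `(q - 1) ((q + 1)² - T_q²)`. -/
theorem sqLowerLoc_sqRaiseLoc (x : CohLoc (awayMonoid m) ρ) :
    sqLowerLoc hS m hρ hqN (sqRaiseLoc hS m ρ x) = sqElt O q • x := by
  induction x using LocalizedModule.induction_on with
  | _ u s =>
    obtain ⟨a, ha, hsa⟩ := s.2
    have hm' : restrictAway O Set.sdiff_subset a ∉ sqIdeal m q := by
      rw [Ideal.mem_comap, relaxHom_restrictAway]; exact ha
    refine (sqHom_bijective (ρ := ρ) m _ hm').1 ?_
    rw [sqRaiseLoc_mk]
    refine (sqLowerLoc_mk hS m hρ hqN (sqRaise (q := q) ρ u) _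
      ((awayIncl_restrictAway Set.sdiff_subset a).trans
        (show awayIncl O S a = (s : HeckePoly O) from hsa))).trans ?_
    have hh : sqHom O S q (restrictAway O Set.sdiff_subset a) = (s : HeckePoly O) := by
      rw [AlgHom.comp_apply, relaxHom_restrictAway]; exact hsa
    rw [polyEnd_apply, hh, smul_smul, mul_comm (s : HeckePoly O), mul_smul, LocalizedModule.smul'_mk,
      ← Submonoid.smul_def, LocalizedModule.mk_cancel, LocalizedModule.smul'_mk, sqElt_smul_coh]
    exact congrArg (LocalizedModule.mk · 1) (sqLower_sqRaise hρ hqN u)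

end Square

end Fermat.Agent.HeckeModule
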