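import Fermat.Agent.HeckeModule.LevelLoc
import Fermat.Agent.TwoAdic.Scalar.LocRaise
import Fermat.Agent.HeckeModule.LevelFree
import Fermat.Agent.TwoAdic.Scalar.RaiseAll

/-!
The transfer `trace - α · twisted trace` from level `qN` to the localised `H¹` of level `N`, for
an endomorphism `α` (a root of `X² - T_q X + q` in the step at `2`).
-/

set_option autoImplicit false

namespace Fermat.Agent.HeckeModule

open TwoAdic

section Step

variable {O : Type} [CommRing O] {A : Type} [AddCommGroup A] [Module O A]
  {N q : ℕ} [hq : Fact q.Prime] {S : Set ℕ}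
  (m : Ideal (AwayPoly O S)) [m.IsPrime] {ρ : Representation O (ZMod N)ˣ A}
  (α : Module.End (HeckePoly O) (CohLoc (awayMonoid m) ρ)) [NeZero N] (hqN : ¬ q ∣ N)

/-- The transfer `trace - α · twisted trace` from classes of level `qN`. -/
noncomputable def rootTransfer :
    Coh1 (pullRep ρ (dvd_mul_left N q)) →ₗ[O] CohLoc (awayMonoid m) ρ :=
  (LocalizedModule.mkLinearMap (awayMonoid m) (Coh1 ρ)).restrictScalars O ∘ₗ trace ρ hqN
    - α.restrictScalars O ∘ₗ
      ((LocalizedModule.mkLinearMap (awayMonoid m) (Coh1 ρ)).restrictScalars O ∘ₗ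
        traceTwist ρ hqN)

omit [NeZero N] in
lemma rootTransfer_apply (w : Coh1 (pullRep ρ (dvd_mul_left N q))) :
    rootTransfer m α hqN w = LocalizedModule.mk (trace ρ hqN w) 1
      - α (LocalizedModule.mk (traceTwist ρ hqN w) 1) := rfl

end Step

end Fermat.Agent.HeckeModule
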