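import Fermat.Agent.TwoAdic.Scalar.LocRaise
import Fermat.Agent.TwoAdic.Scalar.LocRoot

/-!
The localised raising and lowering maps at `q²` intertwine the Hecke operators at every prime: `X_ℓ`
with `X_ℓ` for `ℓ ≠ q`, and `X_q` with `0`.
-/

set_option autoImplicit false

namespace Fermat.Agent.HeckeModule

open TwoAdic

variable {O : Type} [CommRing O] {A : Type} [AddCommGroup A] [Module O A] {N q : ℕ}
  [hq : Fact q.Prime] {S : Set ℕ} (m : Ideal (AwayPoly O S)) [m.IsPrime]
  {ρ : Representation O (ZMod N)ˣ A}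

section Square

variable (hS : q ∈ S)

omit hq in
lemma smul_sdiff_singleton_notMem (q : ℕ) : q ∉ S \ {q} := fun h => h.2 rfl

/-- `X_ℓ` commutes with the raising map for `ℓ ≠ q`. -/
theorem X_smul_sqRaiseLoc {l : Nat.Primes} (hl : (l : ℕ) ≠ q) (x : CohLoc (awayMonoid m) ρ) :
    (MvPolynomial.X l : HeckePoly O) • sqRaiseLoc hS m ρ x
      = sqRaiseLoc hS m ρ ((MvPolynomial.X l : HeckePoly O) • x) := by
  have : Fact (l : ℕ).Prime := ⟨l.2⟩
  induction x using LocalizedModule.induction_on with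
  | _ u s =>
    rw [LocalizedModule.smul'_mk, sqRaiseLoc_mk, sqRaiseLoc_mk, LocalizedModule.smul'_mk]
    exact congrArg (LocalizedModule.mk · _) ((X_smul _ _ _).trans
      ((sqRaise_heckeOp_ne ρ hl u).symm.trans (congrArg _ (X_smul ρ _ u).symm)))

variable (hρ : ∀ u, ρ u = 1) [NeZero N] (hqN : ¬ q ∣ N)

include hρ hqN in
/-- `U_q` kills the raised classes. -/
theorem X_smul_sqRaiseLoc_self (x : CohLoc (awayMonoid m) ρ) :
    (MvPolynomial.X (sqPrime q) : HeckePoly O) • sqRaiseLoc hS m ρ x = 0 := by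
  have h := sqRaiseLoc_smul hS m hρ hqN
    (MvPolynomial.X (⟨sqPrime q, smul_sdiff_singleton_notMem q⟩ : AwayIndex (S \ {q}))) x
  rcases sqHom_X (O := O) (S := S) (q := q)
    (⟨sqPrime q, smul_sdiff_singleton_notMem q⟩ : AwayIndex (S \ {q})) with ⟨-, h0, -⟩ | ⟨hl, -⟩
  · rw [awayIncl_X, h0, zero_smul, map_zero] at h
    exact h
  · exact absurd hS hl

/-- `X_ℓ` commutes with the lowering map for `ℓ ≠ q`. -/
theorem sqLowerLoc_X_smul {l : Nat.Primes} (hl : (l : ℕ) ≠ q)
    (y : CohLoc (awayMonoid (sqIdeal m q)) (sqRep ρ q)) :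
    sqLowerLoc hS m hρ hqN ((MvPolynomial.X l : HeckePoly O) • y)
      = (MvPolynomial.X l : HeckePoly O) • sqLowerLoc hS m hρ hqN y := by
  have : Fact (l : ℕ).Prime := ⟨l.2⟩
  induction y using LocalizedModule.induction_on with
  | _ w t =>
    obtain ⟨a, ha, hat⟩ := t.2
    have hat' : awayIncl O (S \ {q}) a = (t : HeckePoly O) := hat
    refine (sqHom_bijective (ρ := ρ) m a ha).1 ?_
    rw [LocalizedModule.smul'_mk, polyEnd_apply, polyEnd_apply,
      sqLowerLoc_mk hS m hρ hqN _ t hat',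
      smul_comm (sqHom O S q a) (MvPolynomial.X l : HeckePoly O),
      sqLowerLoc_mk hS m hρ hqN _ t hat', LocalizedModule.smul'_mk]
    exact congrArg (LocalizedModule.mk · 1) ((congrArg _ (X_smul _ _ w)).trans
      ((sqLower_heckeOp_ne hqN ρ hl w).trans (X_smul ρ _ _).symm))

/-- The lowering map kills the image of `U_q`. -/
theorem sqLowerLoc_X_smul_self (y : CohLoc (awayMonoid (sqIdeal m q)) (sqRep ρ q)) :
    sqLowerLoc hS m hρ hqN ((MvPolynomial.X (sqPrime q) : HeckePoly O) • y) = 0 := by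
  have h := sqLowerLoc_smul hS m hρ hqN
    (MvPolynomial.X (⟨sqPrime q, smul_sdiff_singleton_notMem q⟩ : AwayIndex (S \ {q}))) y
  rcases sqHom_X (O := O) (S := S) (q := q)
    (⟨sqPrime q, smul_sdiff_singleton_notMem q⟩ : AwayIndex (S \ {q})) with ⟨-, h0, -⟩ | ⟨hl, -⟩
  · rw [awayIncl_X, h0, zero_smul] at h
    exact h
  · exact absurd hS hl

end Square

end Fermat.Agent.HeckeModule
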