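import Fermat.Prelude.Thm_IsAdicComplete_of_module_finite
import Fermat.Agent.HeckeModule.Operators
import Mathlib.Algebra.Algebra.Subalgebra.Basic
import Mathlib.RingTheory.Henselian
import Mathlib.RingTheory.Finiteness.Basic

/-!
The unit root of `X² - T X + q` for an invertible endomorphism `T` of a finite module over a
complete local ring, `q` in the maximal ideal, and its naturality.
-/

set_option autoImplicit false

open IsLocalRing

universe uE uE'

namespace Fermat.Agent.HeckeModule

variable {O : Type} [CommRing O] [IsNoetherianRing O] [IsLocalRing O]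

/-- The unit root commutes with every map commuting with `T`. -/
theorem comm_of_root {E : Type uE} [AddCommGroup E] [Module O E] {E' : Type uE'} [AddCommGroup E']
    [Module O E'] [Module.Finite O E'] {q : O} (hq : q ∈ maximalIdeal O) (f : E →ₗ[O] E')
    {T : Module.End O E} {T' : Module.End O E'} (hf : ∀ x, f (T x) = T' (f x))
    {α : Module.End O E} {α' : Module.End O E'} (hαb : Function.Bijective α)
    (hαb' : Function.Bijective α') (hα : ∀ x, α (α x) = T (α x) - q • x)
    (hT'α' : ∀ x, T' (α' x) = α' (T' x)) (hα' : ∀ x, α' (α' x) = T' (α' x) - q • x) (x : E) :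
    f (α x) = α' (f x) := by
  let e' := LinearEquiv.ofBijective α' hαb'
  have hinv : ∀ z, α' (e'.symm z) = z := fun z => e'.apply_symm_apply z
  suffices h : ∀ (n : ℕ) (z : E), f (α z) - α' (f z) ∈
      maximalIdeal O ^ n • (⊤ : Submodule O E') by
    have hh : IsHausdorff (maximalIdeal O) E' :=
      IsHausdorff.of_le_jacobson _ _ (maximalIdeal_le_jacobson _)
    refine sub_eq_zero.mp (hh.haus _ fun n => ?_)
    rw [SModEq.zero]
    exact h n x
  intro n
  induction n with
  | zero => intro z; simp
  | succ n ih =>
    intro z
    obtain ⟨y, rfl⟩ := hαb.2 z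
    -- `α' (f (α² y) - α' f (α y)) = q • (f α y - α' f y)` up to sign
    have key : α' (f (α (α y)) - α' (f (α y))) = q • (f (α y) - α' (f y)) := by
      have h1 := hα' (f (α y))
      have h2 : f (α (α y)) = T' (f (α y)) - q • f y := by rw [hα, map_sub, map_smul, hf]
      rw [map_sub, h1, h2, map_sub, map_smul, hT'α', smul_sub]
      abel
    have h3 := (e'.symm : E' →ₗ[O] E').map_smul q (f (α y) - α' (f y))
    rw [← key] at h3
    have h4 : f (α (α y)) - α' (f (α y)) = q • e'.symm (f (α y) - α' (f y)) :=
      (e'.symm_apply_apply _).symm.trans h3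
    rw [h4, pow_succ', mul_smul]
    refine Submodule.smul_mem_smul hq ?_
    have := Submodule.mem_map_of_mem (f := (e'.symm : E' →ₗ[O] E')) (ih y)
    rw [Submodule.map_smul''] at this
    exact Submodule.smul_mono le_rfl le_top this

variable [IsAdicComplete (maximalIdeal O) O]

/-- An invertible endomorphism of a finite module has a unit root of `X² - T X + q`, commuting with
everything commuting with `T`. -/
theorem exists_root {E : Type uE} [AddCommGroup E] [Module O E] [Module.Finite O E] {q : O}
    (hq : q ∈ maximalIdeal O) (T : Module.End O E) (hT : Function.Bijective T) :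
    ∃ α : Module.End O E, Function.Bijective α ∧ (∀ x, α (α x) = T (α x) - q • x) ∧
      ∀ g : Module.End O E, Commute g T → Commute g α := by
  let B : Subalgebra O (Module.End O E) :=
    Subalgebra.centralizer O ↑(Subalgebra.centralizer O ({T} : Set (Module.End O E)))
  have hTB : T ∈ B := fun g hg => ((Subalgebra.mem_centralizer_iff O).mp hg T rfl).symm
  have hcomm : ∀ a b : B, a * b = b * a := fun a b => Subtype.ext (by
    refine ((Subalgebra.mem_centralizer_iff O).mp b.2 _ ?_)
    refine (Subalgebra.mem_centralizer_iff O).mpr fun t ht => ?_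
    rw [Set.mem_singleton_iff.mp ht]
    exact (Subalgebra.mem_centralizer_iff O).mp a.2 T
      ((Subalgebra.mem_centralizer_iff O).mpr fun t ht => by rw [Set.mem_singleton_iff.mp ht]))
  let _ : CommRing B := { (inferInstance : Ring B) with mul_comm := hcomm }
  have hfinEnd : Module.Finite O (Module.End O E) := by
    obtain ⟨n, π, hπ⟩ := Module.Finite.exists_fin' O E
    exact Module.Finite.of_injective (LinearMap.lcomp O E π : (E →ₗ[O] E) →ₗ[O] _)
      fun a b h => LinearMap.ext fun x => by
        obtain ⟨y, rfl⟩ := hπ x
        exact LinearMap.congr_fun h y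
  have : Module.Finite O B := Module.Finite.of_injective B.val.toLinearMap Subtype.val_injective
  let I : Ideal B := (maximalIdeal O).map (algebraMap O B)
  have h1 : IsAdicComplete (maximalIdeal O) B := IsAdicComplete.of_module_finite _ _
  have : IsAdicComplete I B := (IsAdicComplete.map_algebraMap_iff (maximalIdeal O) B).mpr h1
  let T₀ : B := ⟨T, hTB⟩
  have hT₀ : IsUnit T₀ := by
    obtain ⟨u, hu⟩ := (Module.End.isUnit_iff T).mpr hT
    have hinv : (↑u⁻¹ : Module.End O E) ∈ B := fun g hg => by
      have hc : Commute g (u : Module.End O E) := by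
        rw [hu]; exact ((Subalgebra.mem_centralizer_iff O).mp hg T rfl).symm
      exact hc.units_inv_right.eq
    refine IsUnit.of_mul_eq_one ⟨↑u⁻¹, hinv⟩ (Subtype.ext ?_)
    show T * ↑u⁻¹ = 1
    rw [← hu, u.mul_inv]
  let f : Polynomial B :=
    Polynomial.X ^ 2 + (Polynomial.C (-T₀) * Polynomial.X + Polynomial.C (algebraMap O B q))
  have hmonic : f.Monic := Polynomial.monic_X_pow_add (lt_of_le_of_lt (Polynomial.degree_linear_le)
    (by norm_num))
  have hd : f.derivative.eval T₀ = T₀ := by simp [f]; ring
  obtain ⟨a, ha, ha'⟩ := HenselianRing.is_henselian (I := I) f hmonic T₀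
    (by
      have e : f.eval T₀ = algebraMap O B q := by simp [f]; ring
      rw [e]; exact Ideal.mem_map_of_mem _ hq)
    (by rw [hd]; exact hT₀.map _)
  have haU : IsUnit a := by
    obtain ⟨u, hu⟩ := hT₀
    have h := Ideal.mem_jacobson_bot.mp (HenselianRing.jac (I := I) ha') ↑u⁻¹
    rw [sub_mul, ← hu, Units.mul_inv, sub_add_cancel] at h
    exact isUnit_of_mul_isUnit_left h
  refine ⟨a.1, (Module.End.isUnit_iff _).mp (haU.map B.val), fun x => ?_, fun g hg => ?_⟩
  · have h := congrArg (fun b : B => (b : Module.End O E) x) (show f.eval a = 0 from ha)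
    simp [f, pow_two, Module.algebraMap_end_apply] at h
    exact eq_sub_of_add_eq (by linear_combination (norm := abel) h)
  · exact (Subalgebra.mem_centralizer_iff O).mp a.2 g
      ((Subalgebra.mem_centralizer_iff O).mpr fun t ht => by
        rw [Set.mem_singleton_iff.mp ht]; exact hg.eq.symm)

end Fermat.Agent.HeckeModule
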