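import Fermat.Agent.TwoAdic.Scalar.SignCommute
import Fermat.Agent.TwoAdic.Scalar.LocHecke
import Fermat.Agent.TwoAdic.Scalar.RootExists

/-!
The localised raising and lowering maps at `q²` commute with the Atkin–Lehner involutions at the primes of
the level other than `q` (trivial character).
-/

set_option autoImplicit false

namespace Fermat.Agent.HeckeModule

open TwoAdic

variable {O : Type} [CommRing O] {A : Type} [AddCommGroup A] [Module O A]

section Def

variable {N : ℕ} {W : Finset ℕ} {S : Set ℕ} {P : Submonoid (HeckePoly O)}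

lemma alOne_heckeOp_ne (hW : IsALPrimes N W) {e : ℕ} (he : e ∈ W) (c : O) {ℓ : ℕ}
    [Fact ℓ.Prime] (hℓ : ℓ ≠ e) (u : Coh1 (oneRep O A N)) :
    alOne A hW he c (heckeOp (oneRep O A N) ℓ u)
      = heckeOp (oneRep O A N) ℓ (alOne A hW he c u) :=
  alOp_heckeOp_ne (A := A) hW he (one_dvd N) (1 : (ZMod 1)ˣ →* O) (Nat.coprime_one_right e) c hℓ u

variable (A) in
/-- The localised Atkin–Lehner involution for the trivial character. -/
noncomputable def alOneLoc (hW : IsALPrimes N W) (c : ℕ → O) (hP : IsAway S P)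
    (hWS : ∀ e ∈ W, e ∈ S) (e : ℕ) : Module.End O (CohLoc P (oneRep O A N)) :=
  if he : e ∈ W then
    locLift P (alOne A hW he (c e)) (hP.commute _ fun _ _ hℓ u =>
      alOne_heckeOp_ne hW he (c e) (ne_of_notMem hℓ (hWS e he)) u)
  else 1

lemma alOneLoc_mk (hW : IsALPrimes N W) (c : ℕ → O) (hP : IsAway S P) (hWS : ∀ e ∈ W, e ∈ S)
    {e : ℕ} (he : e ∈ W) (u : Coh1 (oneRep O A N)) (s : P) :
    alOneLoc A hW c hP hWS e (LocalizedModule.mk u s)
      = LocalizedModule.mk (alOne A hW he (c e) u) s := by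
  rw [alOneLoc, dif_pos he, locLift_mk]

/-- Localised involutions commute with every Hecke operator at another prime. -/
theorem alOneLoc_X_smul (hW : IsALPrimes N W) (c : ℕ → O) (hP : IsAway S P)
    (hWS : ∀ e ∈ W, e ∈ S) {e : ℕ} (he : e ∈ W) {l : Nat.Primes} (hl : (l : ℕ) ≠ e)
    (x : CohLoc P (oneRep O A N)) :
    alOneLoc A hW c hP hWS e ((MvPolynomial.X l : HeckePoly O) • x)
      = (MvPolynomial.X l : HeckePoly O) • alOneLoc A hW c hP hWS e x := by
  have : Fact (l : ℕ).Prime := ⟨l.2⟩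
  induction x using LocalizedModule.induction_on with
  | _ u s =>
    rw [LocalizedModule.smul'_mk, alOneLoc_mk hW c hP hWS he, alOneLoc_mk hW c hP hWS he,
      LocalizedModule.smul'_mk]
    exact congrArg (LocalizedModule.mk · s) ((congrArg _ (X_smul _ _ u)).trans
      ((alOne_heckeOp_ne hW he (c e) hl u).trans (X_smul _ _ _).symm))

/-- Localised involutions commute with the polynomials away from `S`. -/
theorem alOneLoc_awayIncl_smul (hW : IsALPrimes N W) (c : ℕ → O) (hP : IsAway S P)
    (hWS : ∀ e ∈ W, e ∈ S) (a : AwayPoly O S) (e : ℕ) (x : CohLoc P (oneRep O A N)) :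
    alOneLoc A hW c hP hWS e (awayIncl O S a • x)
      = awayIncl O S a • alOneLoc A hW c hP hWS e x := by
  unfold alOneLoc
  by_cases he : e ∈ W
  · simp only [dif_pos he]
    exact locLift_smul _ _ _ (map_awayIncl_smul (S := S) _ (fun ℓ _ hℓ u =>
      alOne_heckeOp_ne hW he (c e) (ne_of_notMem hℓ (hWS e he)) u) a) x
  · simp only [dif_neg he]
    rfl

end Def

variable {N q : ℕ} [hq : Fact q.Prime] {W : Finset ℕ} {S : Set ℕ}
  (m : Ideal (AwayPoly O S)) [m.IsPrime] (hW : IsALPrimes N W) (c : ℕ → O)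
  (hWS : ∀ e ∈ W, e ∈ S) {e : ℕ} (he : e ∈ W)

section Square

variable (hS : q ∈ S) (hW' : IsALPrimes (q * (q * N)) W) (hWS' : ∀ e ∈ W, e ∈ S \ {q})

include hW hWS he hS in
/-- The raising map at `q²` commutes with the involutions. -/
theorem alOneLoc_sqRaiseLoc (heq : e ≠ q) (x : CohLoc (awayMonoid m) (oneRep O A N)) :
    alOneLoc A hW' c (isAway_awayMonoid (sqIdeal m q)) hWS' e
        (sqRaiseLoc (q := q) hS m (oneRep O A N) x)
      = sqRaiseLoc (q := q) hS m (oneRep O A N)
          (alOneLoc A hW c (isAway_awayMonoid m) hWS e x) := by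
  induction x using LocalizedModule.induction_on with
  | _ u s =>
    rw [sqRaiseLoc_mk, alOneLoc_mk hW c _ hWS he, sqRaiseLoc_mk]
    exact (alOneLoc_mk hW' c _ hWS' he _ _).trans
      (congrArg (LocalizedModule.mk · _) (alOne_sqRaise hW hW' he heq (c e) u))

variable [NeZero N] (hqN : ¬ q ∣ N)

include hW hWS he hS hqN in
/-- The lowering map at `q²` commutes with the involutions. -/
theorem alOneLoc_sqLowerLoc (heq : e ≠ q)
    (y : CohLoc (awayMonoid (sqIdeal m q)) (sqRep (oneRep O A N) q)) :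
    alOneLoc A hW c (isAway_awayMonoid m) hWS e
        (sqLowerLoc hS m oneRep_eq_one hqN y)
      = sqLowerLoc hS m oneRep_eq_one hqN
          (alOneLoc A hW' c (isAway_awayMonoid (sqIdeal m q)) hWS' e y) := by
  induction y using LocalizedModule.induction_on with
  | _ w t =>
    obtain ⟨a, ha, hat⟩ := t.2
    have hat' : awayIncl O (S \ {q}) a = (t : HeckePoly O) := hat
    refine (sqHom_bijective (ρ := oneRep O A N) m a ha).1 ?_
    have h1 : ∀ z, polyEnd (sqHom O S q) a (alOneLoc A hW c (isAway_awayMonoid m) hWS e z)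
        = alOneLoc A hW c (isAway_awayMonoid m) hWS e (polyEnd (sqHom O S q) a z) := fun z =>
      (alOneLoc_awayIncl_smul hW c (isAway_awayMonoid m) hWS
        (relaxHom O S (S \ {q}) (fun _ => (0 : O)) a) e z).symm
    rw [h1, polyEnd_apply, sqLowerLoc_mk hS m _ hqN _ t hat', alOneLoc_mk hW c _ hWS he]
    refine Eq.trans ?_ (congrArg (polyEnd (sqHom O S q) a)
      (congrArg (sqLowerLoc hS m oneRep_eq_one hqN) (alOneLoc_mk hW' c _ hWS' he w t).symm))
    rw [polyEnd_apply]
    exact (congrArg (LocalizedModule.mk · 1) (alOne_sqLower hW hW' he heq hqN (c e) w)).trans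
      (sqLowerLoc_mk hS m oneRep_eq_one hqN _ t hat').symm

end Square

end Fermat.Agent.HeckeModule
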