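import Fermat.Agent.TwoAdic.Criterion
import Fermat.Agent.TwoAdic.Scalar.LocalBound
import Mathlib.RingTheory.Ideal.MinimalPrime.Noetherian

/-!
# Congruence ideals along a level raising and the criterion at scalar primes

`M`, `M'` are modules over the Hecke algebras `T`, `T'` of the lower and higher level, `ι` and `ι'`
the raising and lowering maps, compatible with `s : T' → T`, with `ι' ∘ ι = c`.  If `ι` is
injective, `ι'` surjective, and the part of `M'` killed by `ker (θ ∘ s)` is in the image of `ι`,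
then `congIdeal (θ ∘ s) ≤ θ c · congIdeal θ`.  With Wiles's criterion this gives `R' = T'`
from `R = T` when the cotangent space grows at most by `ord c`.
-/

set_option autoImplicit false

open IsLocalRing Fermat.Agent.DefRing

namespace Fermat.Agent.TwoAdic.Scalar

variable {O : Type} [CommRing O] [IsDomain O] [IsDiscreteValuationRing O]

omit [IsDomain O] [IsDiscreteValuationRing O] in
/-- The congruence ideal at the higher level. -/
theorem congIdeal_comp_le {T T' : Type} [CommRing T] [Algebra O T] [CommRing T'] [Algebra O T']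
    (θ : T →ₐ[O] O) (s : T' →ₐ[O] T) (hs : Function.Surjective s)
    {M M' : Type*} [AddCommGroup M] [Module T M] [AddCommGroup M'] [Module T' M']
    (f : M →ₗ[T] T) (e : M) (hfe : f e = 1)
    (ι : M →+ M') (hι : Function.Injective ι) (hιlin : ∀ t' m, ι (s t' • m) = t' • ι m)
    (ι' : M' →+ M) (hι' : ∃ y, ι' y = e) (hι'lin : ∀ t' y, ι' (t' • y) = s t' • ι' y)
    (c : T) (hc : ∀ m, ι' (ι m) = c • m)
    (hrange : ∀ y : M', (∀ t', θ (s t') = 0 → t' • y = 0) → ∃ m, ι m = y) :
    congIdeal (θ.comp s) ≤ Ideal.span {θ c} * congIdeal θ := by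
  intro o ho
  obtain ⟨x, hx, rfl⟩ := mem_congIdeal.1 ho
  obtain ⟨y, hy⟩ := hι'
  obtain ⟨m, hm⟩ := hrange (x • y) fun t' ht' => by
    rw [← mul_smul, mul_comm, hx t' ht', zero_smul]
  have hfm : ∀ z ∈ RingHom.ker θ, f m * z = 0 := by
    intro z hz
    obtain ⟨t', rfl⟩ := hs z
    have h : ι (s t' • m) = 0 := by
      rw [hιlin, hm, ← mul_smul, mul_comm, hx t' hz, zero_smul]
    have h' : s t' • m = 0 := hι (by rw [h, map_zero])
    rw [mul_comm, ← smul_eq_mul, ← map_smul, h', map_zero]
  have key : s x = c * f m := by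
    have h := congrArg f ((hc m).symm.trans (by rw [hm, hι'lin, hy] : ι' (ι m) = s x • e))
    rw [map_smul, map_smul, hfe, smul_eq_mul, smul_eq_mul, mul_one] at h
    exact h.symm
  show θ (s x) ∈ _
  rw [key, map_mul]
  exact Ideal.mul_mem_mul (Ideal.mem_span_singleton_self _) (mem_congIdeal.2 ⟨_, hfm, rfl⟩)

/-- A reduced finite algebra has non-zero congruence ideals. -/
theorem congIdeal_ne_bot {T : Type} [CommRing T] [Algebra O T]
    [Module.Finite O T] [IsReduced T] (θ : T →ₐ[O] O) : congIdeal θ ≠ ⊥ := by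
  classical
  have : IsNoetherianRing T := IsNoetherianRing.of_finite O T
  have : Algebra.IsIntegral O T := Algebra.IsIntegral.of_finite O T
  set p := RingHom.ker θ with hp
  have hpp : p.IsPrime := RingHom.ker_isPrime _
  have hmin : ∀ q : Ideal T, q.IsPrime → q ≤ p → q = p := by
    intro q hq hqp
    by_contra hne
    obtain ⟨x, hxp, hxq⟩ := SetLike.exists_of_lt (lt_of_le_of_ne hqp hne)
    have h := Ideal.comap_lt_comap_of_integral_mem_sdiff (R := O) hqp ⟨hxp, hxq⟩
      (Algebra.IsIntegral.isIntegral x)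
    refine not_le_of_gt h fun o ho => ?_
    have h0 : θ (algebraMap O T o) = 0 := ho
    rw [θ.commutes, Algebra.algebraMap_self, RingHom.id_apply] at h0
    rw [h0]; exact zero_mem _
  have hfin : (minimalPrimes T).Finite := minimalPrimes.finite_of_isNoetherianRing T
  have hq : ∀ q ∈ hfin.toFinset.erase p, ∃ x ∈ q, x ∉ p := fun q hq => by
    rw [Finset.mem_erase, Set.Finite.mem_toFinset] at hq
    exact SetLike.not_le_iff_exists.1 fun h => hq.1 (hmin q hq.2.1.1 h)
  choose g hg hgp using hq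
  set x := ∏ q ∈ (hfin.toFinset.erase p).attach, g q.1 q.2 with hx
  have hxp : x ∉ p := by
    rw [hx, Ideal.IsPrime.prod_mem_iff]
    rintro ⟨q, -, hq⟩
    exact hgp q.1 q.2 hq
  refine (Submodule.ne_bot_iff _).2 ⟨θ x, mem_congIdeal.2 ⟨x, fun y hy => ?_, rfl⟩, hxp⟩
  have h : x * y ∈ sInf (minimalPrimes T) := by
    refine Submodule.mem_sInf.2 fun q hq => ?_
    rcases eq_or_ne q p with heq | hne
    · rw [heq]; exact Ideal.mul_mem_left _ _ hy
    · refine Ideal.mul_mem_right _ _ ?_
      have hq' : q ∈ hfin.toFinset.erase p :=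
        Finset.mem_erase.2 ⟨hne, hfin.mem_toFinset.2 hq⟩
      rw [hx, ← Finset.mul_prod_erase _ _ (Finset.mem_attach _ ⟨q, hq'⟩)]
      exact Ideal.mul_mem_right _ _ (hg q hq')
  rw [minimalPrimes, Ideal.sInf_minimalPrimes] at h
  exact (Ideal.radical_bot_of_isReduced (R := T)).le h

/-- The lengths of the quotients by the congruence ideals. -/
theorem length_congIdeal_add_le {T T' : Type} [CommRing T] [Algebra O T] [CommRing T']
    [Algebra O T'] (θ : T →ₐ[O] O) (θ' : T' →ₐ[O] O) (d : O)
    (h : congIdeal θ' ≤ Ideal.span {d} * congIdeal θ) (h0 : congIdeal θ' ≠ ⊥) :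
    Module.length O (O ⧸ congIdeal θ) + Ring.ord O d ≤ Module.length O (O ⧸ congIdeal θ') := by
  have hθ : congIdeal θ = Ideal.span {Submodule.IsPrincipal.generator (congIdeal θ)} :=
    (Ideal.span_singleton_generator _).symm
  have hθ' : congIdeal θ' = Ideal.span {Submodule.IsPrincipal.generator (congIdeal θ')} :=
    (Ideal.span_singleton_generator _).symm
  set η := Submodule.IsPrincipal.generator (congIdeal θ)
  set η' := Submodule.IsPrincipal.generator (congIdeal θ')
  rw [hθ, hθ', Ideal.span_singleton_mul_span_singleton, Ideal.span_singleton_le_span_singleton] at h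
  rw [hθ', Ne, Ideal.span_singleton_eq_bot] at h0
  rw [hθ, hθ']
  show Ring.ord O η + Ring.ord O d ≤ Ring.ord O η'
  have hη : η ≠ 0 := fun he => h0 (by simpa [he] using h)
  rw [add_comm, ← Ring.ord_mul O (mem_nonZeroDivisors_of_ne_zero hη)]
  exact Ring.ord_le_ord_of_dvd h

variable [IsAdicComplete (maximalIdeal O) O]

omit [IsDomain O] [IsDiscreteValuationRing O] [IsAdicComplete (maximalIdeal O) O] in
theorem isFiniteCI_of_algEquiv {R S : Type} [CommRing R] [Algebra O R] [CommRing S] [Algebra O S]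
    (e : R ≃ₐ[O] S) (h : IsFiniteCI O R) : IsFiniteCI O S := by
  obtain ⟨hfin, hfree, r, F, ψ, hψ, hker⟩ := h
  refine ⟨Module.Finite.equiv e.toLinearEquiv, Module.Free.of_equiv e.toLinearEquiv, r, F,
    e.toAlgHom.comp ψ, e.surjective.comp hψ, ?_⟩
  rw [← hker]
  ext x
  simp [RingHom.mem_ker]

/-- `R' = T'` from `R = T` below when the cotangent length grows by at most `ord d`, `d` the
value of the composite `ι' ∘ ι`. -/
theorem bijective_of_cotangent_add_le
    {R R' T T' : Type}
    [CommRing R] [Algebra O R]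
    [CommRing R'] [IsLocalRing R'] [IsNoetherianRing R'] [IsAdicComplete (maximalIdeal R') R']
    [Algebra O R']
    [CommRing T] [IsLocalRing T] [Algebra O T] (hT : IsFiniteCI O T)
    [CommRing T'] [Algebra O T'] [Module.Finite O T'] [Module.Free O T'] [IsReduced T']
    (φ : R →ₐ[O] T) (hφ : Function.Bijective φ) (φ' : R' →ₐ[O] T') (hφ' : Function.Surjective φ')
    (r : R' →ₐ[O] R) (hr : Function.Surjective r) (s : T' →ₐ[O] T)
    (hcomm : s.comp φ' = φ.comp r) (θ : T →ₐ[O] O) (hθ : congIdeal θ ≠ ⊥) (d : O)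
    (hle : Module.length R' (RingHom.ker ((θ.comp φ).comp r)).Cotangent ≤
      Module.length R (RingHom.ker (θ.comp φ)).Cotangent + Ring.ord O d)
    {M M' : Type*} [AddCommGroup M] [Module T M] [AddCommGroup M'] [Module T' M']
    (f : M →ₗ[T] T) (e : M) (hfe : f e = 1)
    (ι : M →+ M') (hι : Function.Injective ι) (hιlin : ∀ t' m, ι (s t' • m) = t' • ι m)
    (ι' : M' →+ M) (hι' : ∃ y, ι' y = e) (hι'lin : ∀ t' y, ι' (t' • y) = s t' • ι' y)
    (c : T) (hc : ∀ m, ι' (ι m) = c • m) (hcd : Associated (θ c) d)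
    (hrange : ∀ y : M', (∀ t', θ (s t') = 0 → t' • y = 0) → ∃ m, ι m = y) :
    Function.Bijective φ' ∧ IsFiniteCI O R' ∧ IsFiniteCI O T' := by
  have hs : Function.Surjective s := by
    intro t
    obtain ⟨x, rfl⟩ := hφ.2 t
    obtain ⟨x', rfl⟩ := hr x
    exact ⟨φ' x', DFunLike.congr_fun hcomm x'⟩
  have h0 : congIdeal (θ.comp s) ≠ ⊥ := congIdeal_ne_bot _
  have hcong := congIdeal_comp_le θ s hs f e hfe ι hι hιlin ι' hι' hι'lin c hc hrange
  have hd : θ c ≠ 0 := fun h => h0 (le_bot_iff.1 (hcong.trans (by simp [h])))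
  have hcomp : (θ.comp s).comp φ' = (θ.comp φ).comp r := by
    rw [AlgHom.comp_assoc, hcomm]; rfl
  have hbase : Module.length R (RingHom.ker (θ.comp φ)).Cotangent =
      Module.length O (O ⧸ congIdeal θ) := by
    rw [← length_cotangent_eq hT θ hθ, length_cotangent_eq_base (θ.comp φ), length_cotangent_eq_base θ]
    let g := Ideal.mapCotangent (RingHom.ker (θ.comp φ)) (RingHom.ker θ) φ fun x hx => hx
    let g' := Ideal.mapCotangent (RingHom.ker θ) (RingHom.ker (θ.comp φ))
      ((AlgEquiv.ofBijective φ hφ).symm : T →ₐ[O] R) fun x hx => by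
        show θ (φ ((AlgEquiv.ofBijective φ hφ).symm x)) = 0
        rw [show φ ((AlgEquiv.ofBijective φ hφ).symm x) = x from
          (AlgEquiv.ofBijective φ hφ).apply_symm_apply x]
        exact hx
    refine LinearEquiv.length_eq (LinearEquiv.ofLinearMap g g' ?_ ?_) <;> ext m <;>
      obtain ⟨⟨x, hx⟩, rfl⟩ := Ideal.toCotangent_surjective _ m
    · exact congrArg _ (Subtype.ext ((AlgEquiv.ofBijective φ hφ).apply_symm_apply x))
    · exact congrArg _ (Subtype.ext ((AlgEquiv.ofBijective φ hφ).symm_apply_apply x))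
  have hle' : Module.length R' (RingHom.ker ((θ.comp s).comp φ')).Cotangent ≤
      Module.length O (O ⧸ congIdeal (θ.comp s)) := by
    rw [hcomp]
    refine hle.trans (le_trans (le_of_eq ?_)
      (length_congIdeal_add_le θ (θ.comp s) _ hcong h0))
    rw [hbase, Ring.ord_eq_of_associated hcd]
  obtain ⟨hbij, hci⟩ := bijective_of_cotangent_le φ' hφ' (θ.comp s) h0 hle'
  exact ⟨hbij, hci, isFiniteCI_of_algEquiv (AlgEquiv.ofBijective φ' hbij) hci⟩

end Fermat.Agent.TwoAdic.Scalar
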