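import Fermat.Agent.EigenSystems.MultOne
import Fermat.Agent.HeckeSemisimple.Cohomology
import Fermat.Agent.HeckeModule.Away
import Fermat.Agent.TwoAdic.Scalar.Congruence
import Mathlib.RingTheory.Localization.Integer

/-!
The range condition of the criterion at scalar primes: a class of the higher level which is eigen
for all operators with the old system is raised, because such classes span at most a plane and the
raised ones already span one.
-/

set_option autoImplicit false

open CongruenceSubgroup

universe uM uM'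

namespace Fermat.Agent.HeckeModule

open EigenSystems HeckeSemisimple

variable {N : ℕ} [NeZero N] {O : Type} [CommRing O] [IsDomain O] [CharZero O]
  {ρ : Representation O (ZMod N)ˣ O} (hρ : ∀ u, ρ u = 1)
include hρ

/-- Three classes which are eigen for all primes with a non-Eisenstein system are dependent. -/
theorem not_linearIndependent_of_eigen_domain {lam : ℕ → O}
    (hne : NonEisensteinSystem N ∅ lam) (c : Fin 3 → Coh1 ρ)
    (hc : ∀ i (ℓ : ℕ) [Fact ℓ.Prime], heckeOp ρ ℓ (c i) = lam ℓ • c i) :
    ¬ LinearIndependent O c := by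
  let K := FractionRing O
  have : CharZero K := charZero_of_injective_algebraMap (IsFractionRing.injective O K)
  let σ : Representation K (ZMod N)ˣ K := scalarRep (1 : (ZMod N)ˣ →* K) K
  have hσ : ∀ u, σ u = 1 := scalarRep_one
  let f : O →+ K := (algebraMap O K).toAddMonoidHom
  let F := mapClass hρ hσ f
  have hF : ∀ (r : O) (u : Coh1 ρ), F (r • u) = algebraMap O K r • F u := fun r u => by
    obtain ⟨z, rfl⟩ := toCoh_surjective ρ u
    rw [← map_smul]
    show mapClass hρ hσ f _ = algebraMap O K r • mapClass hρ hσ f _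
    rw [mapClass_toCoh, mapClass_toCoh, ← map_smul]
    exact congrArg _ (Subtype.ext (funext fun γ => map_mul (algebraMap O K) r (z.1 γ)))
  have hinj : Function.Injective F := (injective_iff_map_eq_zero _).mpr fun u hu => by
    obtain ⟨z, rfl⟩ := toCoh_surjective ρ u
    change mapClass hρ hσ f _ = 0 at hu
    rw [mapClass_toCoh, toCoh_eq_zero_iff_of_trivial hσ] at hu
    rw [toCoh_eq_zero_iff_of_trivial hρ]
    exact Subtype.ext (funext fun γ => IsFractionRing.injective O K
      ((congrFun (congrArg Subtype.val hu) γ).trans (map_zero _).symm))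
  intro hli
  refine not_linearIndependent_of_eigen hσ (lam := fun ℓ => algebraMap O K (lam ℓ)) ?_
    (fun i => F (c i)) (fun i ℓ _ => ?_) ?_
  · obtain ⟨ℓ, hℓ, hS, h1, h⟩ := hne
    refine ⟨ℓ, hℓ, hS, h1, fun he => h (IsFractionRing.injective O K ?_)⟩
    rw [map_add, map_natCast, map_one]
    exact he
  · show heckeOp σ ℓ (F (c i)) = _
    rw [← hF, ← hc i ℓ]
    exact (mapClass_heckeOp hρ hσ f ℓ (c i)).symm
  · rw [Fintype.linearIndependent_iff]
    intro g hg
    obtain ⟨b, hb⟩ := IsLocalization.exist_integer_multiples_of_finite (nonZeroDivisors O) g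
    choose g' hg' using hb
    have h0 : ∑ i, g' i • c i = 0 := hinj (by
      rw [map_zero, map_sum]
      simp only [hF, hg']
      rw [← smul_zero (A := Coh1 σ) (algebraMap O K (b : O)), ← hg, Finset.smul_sum]
      exact Finset.sum_congr rfl fun i _ => by rw [Algebra.smul_def, mul_smul])
    intro i
    have hi := hg' i
    rw [Fintype.linearIndependent_iff.mp hli g' h0 i, map_zero, Algebra.smul_def, eq_comm,
      mul_eq_zero] at hi
    exact hi.resolve_left (fun h => nonZeroDivisors.ne_zero b.2
      (IsFractionRing.injective O K (h.trans (map_zero _).symm)))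

variable [IsNoetherianRing O] {P : Submonoid (HeckePoly O)}

omit [IsDomain O] [CharZero O] hρ in
/-- One element of the monoid kills everything that dies in the localisation. -/
theorem exists_smul_eq_zero_of_mk :
    ∃ t ∈ P, ∀ u : Coh1 ρ, LocalizedModule.mk u (1 : P) = 0 → t • u = 0 := by
  classical
  have := finite_coh1 ρ
  let L : Coh1 ρ →ₗ[O] CohLoc P ρ := (LocalizedModule.mkLinearMap P (Coh1 ρ)).restrictScalars O
  obtain ⟨s, hs⟩ := IsNoetherian.noetherian (LinearMap.ker L)
  have hex : ∀ u ∈ s, ∃ t : P, (t : HeckePoly O) • u = 0 := fun u hu => by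
    have h : LocalizedModule.mk u (1 : P) = 0 :=
      LinearMap.mem_ker.mp (hs ▸ Submodule.subset_span hu : u ∈ LinearMap.ker L)
    rw [IsLocalizedModule.mk_eq_mk', IsLocalizedModule.mk'_eq_zero'] at h
    obtain ⟨t, ht⟩ := h
    exact ⟨t, ht⟩
  choose t ht using hex
  refine ⟨∏ u ∈ s.attach, (t u.1 u.2 : HeckePoly O), P.prod_mem fun u _ => (t u.1 u.2).2,
    fun u hu => ?_⟩
  have hu' : u ∈ Submodule.span O (s : Set (Coh1 ρ)) := hs.symm ▸ (LinearMap.mem_ker.mpr hu)
  induction hu' using Submodule.span_induction with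
  | mem x hx =>
    rw [← Finset.prod_erase_mul _ _ (Finset.mem_attach _ ⟨x, hx⟩), mul_smul, ht, smul_zero]
  | zero => exact smul_zero _
  | add x y hxm hym hx hy =>
    rw [smul_add, hx ?_, hy ?_, add_zero]
    · exact LinearMap.mem_ker.mp (hs ▸ hym : y ∈ LinearMap.ker L)
    · exact LinearMap.mem_ker.mp (hs ▸ hxm : x ∈ LinearMap.ker L)
  | smul r x hxm hx => rw [smul_comm, hx (LinearMap.mem_ker.mp (hs ▸ hxm : x ∈ LinearMap.ker L)),
      smul_zero]

/-- **Multiplicity two on the localisation.** -/
theorem not_linearIndependent_cohLoc (hP : NonEisenstein N P) {lam : Nat.Primes → O}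
    (y : Fin 3 → CohLoc P ρ)
    (hy : ∀ i l, (MvPolynomial.X l : HeckePoly O) • y i = lam l • y i) :
    ¬ LinearIndependent O y := by
  intro hli
  -- the scalar by which a polynomial acts
  have hev : ∀ (a : HeckePoly O) i, a • y i = MvPolynomial.eval lam a • y i := fun a i => by
    induction a using MvPolynomial.induction_on with
    | C r => rw [MvPolynomial.eval_C, ← MvPolynomial.algebraMap_eq, algebraMap_smul]
    | add p p' hp hp' => rw [add_smul, hp, hp', map_add, add_smul]
    | mul_X p l hp =>
      rw [mul_smul, hy, smul_comm, hp, smul_smul, map_mul, MvPolynomial.eval_X, mul_comm]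
  choose u hu using fun i => show ∃ p : Coh1 ρ × P, LocalizedModule.mk p.1 p.2 = y i from
    LocalizedModule.induction_on (fun m s => ⟨(m, s), rfl⟩) (y i)
  obtain ⟨t, htP, ht⟩ := exists_smul_eq_zero_of_mk (ρ := ρ) (P := P)
  set e : Fin 3 → O := fun i => MvPolynomial.eval lam ((u i).2 : HeckePoly O)
  have hmk : ∀ i, LocalizedModule.mk (u i).1 (1 : P) = e i • y i := fun i => by
    rw [← hev]
    conv_rhs => rw [← hu i]
    rw [LocalizedModule.smul'_mk, ← Submonoid.smul_def, LocalizedModule.mk_cancel]
  have he : ∀ i, e i ≠ 0 := fun i h => hli.ne_zero i (by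
    refine ((Module.End.isUnit_iff _).mp (IsLocalizedModule.map_units
      (LocalizedModule.mkLinearMap P (Coh1 ρ)) (u i).2)).1 ?_
    show ((u i).2 : HeckePoly O) • y i = ((u i).2 : HeckePoly O) • (0 : CohLoc P ρ)
    rw [hev, smul_zero, show MvPolynomial.eval lam ((u i).2 : HeckePoly O) = 0 from h, zero_smul])
  let lam' : ℕ → O := fun ℓ => if h : ℓ.Prime then lam ⟨ℓ, h⟩ else 0
  have hne : NonEisensteinSystem N ∅ lam' := by
    obtain ⟨r, hr, hr1, hmem⟩ := hP
    have : Fact r.Prime := ⟨hr⟩
    refine ⟨r, hr, Finset.notMem_empty _, hr1, fun h => hli.ne_zero 0 ?_⟩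
    refine ((Module.End.isUnit_iff _).mp (IsLocalizedModule.map_units
      (LocalizedModule.mkLinearMap P (Coh1 ρ)) ⟨_, hmem⟩)).1 ?_
    show eisen O r • y 0 = eisen O r • (0 : CohLoc P ρ)
    rw [hev, smul_zero]
    have h' : MvPolynomial.eval lam (eisen O r) = 0 := by
      simp only [lam', dif_pos hr] at h
      exact (map_sub (MvPolynomial.eval lam) _ _).trans
        ((congrArg₂ (· - ·) (MvPolynomial.eval_X _) (MvPolynomial.eval_C _)).trans
          (sub_eq_zero.mpr h))
    rw [h', zero_smul]
  refine not_linearIndependent_of_eigen_domain hρ hne (fun i => t • (u i).1) (fun i ℓ hℓ => ?_) ?_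
  · obtain ⟨l, hl, hlam⟩ : ∃ l : Nat.Primes,
        (∀ v : Coh1 ρ, (MvPolynomial.X l : HeckePoly O) • v = heckeOp ρ ℓ v) ∧ lam' ℓ = lam l :=
      ⟨⟨ℓ, hℓ.out⟩, fun v => X_smul ρ ℓ v, dif_pos hℓ.out⟩
    rw [hlam]
    let L : Coh1 ρ →ₗ[HeckePoly O] CohLoc P ρ := LocalizedModule.mkLinearMap P (Coh1 ρ)
    have h0 : LocalizedModule.mk
        ((MvPolynomial.X l : HeckePoly O) • (u i).1 - lam l • (u i).1) (1 : P) = 0 := by
      show L _ = 0
      rw [map_sub, map_smul, LinearMap.map_smul_of_tower, show L (u i).1 = e i • y i from hmk i,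
        smul_comm (MvPolynomial.X l : HeckePoly O) (e i), hy, smul_comm (lam l) (e i), sub_self]
    have h := ht _ h0
    rw [smul_sub, sub_eq_zero, smul_comm t (MvPolynomial.X l : HeckePoly O),
      smul_comm t (lam l)] at h
    rw [← hl]
    exact h
  · rw [Fintype.linearIndependent_iff]
    intro g hg i
    have h : ∑ j, (g j * e j) • y j = 0 := by
      have h1 := congrArg (LocalizedModule.mkLinearMap P (Coh1 ρ)) hg
      rw [map_sum, map_zero] at h1
      simp only [LinearMap.map_smul_of_tower, map_smul, LocalizedModule.mkLinearMap_apply, hmk,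
        smul_smul, smul_comm _ t] at h1
      rw [← Finset.smul_sum] at h1
      refine ((Module.End.isUnit_iff _).mp (IsLocalizedModule.map_units
        (LocalizedModule.mkLinearMap P (Coh1 ρ)) ⟨t, htP⟩)).1 ?_
      show t • (∑ j, (g j * e j) • y j) = t • (0 : CohLoc P ρ)
      rw [h1, smul_zero]
    exact (mul_eq_zero.mp (Fintype.linearIndependent_iff.mp hli _ h i)).resolve_right (he i)

end Fermat.Agent.HeckeModule

namespace Fermat.Agent.TwoAdic.Scalar

open IsLocalRing

variable {O : Type} [CommRing O] [IsDomain O]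

/-- Two independent vectors on which a free module of rank two shows the system `θ`. -/
theorem exists_eigen_pair [IsDiscreteValuationRing O] {T : Type} [CommRing T] [Algebra O T]
    (θ : T →ₐ[O] O) (hθ : congIdeal θ ≠ ⊥) {M : Type uM} [AddCommGroup M] [Module T M] [Module O M]
    [IsScalarTower O T M] (b : Module.Basis (Fin 2) T M) :
    ∃ x : Fin 2 → M, LinearIndependent O x ∧ ∀ (t : T) i, t • x i = θ t • x i := by
  obtain ⟨o, ho, ho0⟩ := (Submodule.ne_bot_iff _).mp hθ
  obtain ⟨t₀, ht₀, rfl⟩ := mem_congIdeal.1 ho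
  refine ⟨fun i => t₀ • b i, ?_, fun t i => ?_⟩
  · rw [Fintype.linearIndependent_iff]
    intro g hg i
    have h : ∑ j, (algebraMap O T (g j) * t₀) • b j = 0 := by
      rw [← hg]
      exact Finset.sum_congr rfl fun j _ => by rw [mul_smul, algebraMap_smul]
    have h' := congrArg θ (Fintype.linearIndependent_iff.mp b.linearIndependent _ h i)
    rw [map_mul, map_zero, AlgHom.commutes, Algebra.algebraMap_self, RingHom.id_apply] at h'
    exact (mul_eq_zero.mp h').resolve_right ho0
  · have hk : t - algebraMap O T (θ t) ∈ RingHom.ker θ := by simp [RingHom.mem_ker]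
    have h := ht₀ _ hk
    rw [mul_sub, sub_eq_zero] at h
    rw [smul_smul, mul_comm, h, mul_comm, mul_smul, algebraMap_smul]

/-- **Range condition**: if `x₁, x₂` are independent, and `y` is dependent on them, then `y` is in
the range of a split injection containing them. -/
theorem mem_range_of_dependent {M : Type uM} [AddCommGroup M] [Module O M] {M' : Type uM'}
    [AddCommGroup M'] [Module O M'] [Module.IsTorsionFree O M'] (ι : M →ₗ[O] M')
    (left : M' →ₗ[O] M) (hleft : left ∘ₗ ι = LinearMap.id) {x : Fin 2 → M}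
    (hx : LinearIndependent O x) {y : M'}
    (h : ¬ LinearIndependent O ![y, ι (x 0), ι (x 1)]) : ∃ m, ι m = y := by
  rw [Fintype.not_linearIndependent_iff] at h
  obtain ⟨g, hg, hne⟩ := h
  simp only [Fin.sum_univ_three, Matrix.cons_val_zero, Matrix.cons_val_one, Matrix.head_cons,
    Matrix.cons_val_two, Matrix.tail_cons] at hg
  have hι : Function.Injective ι := Function.LeftInverse.injective (g := left)
    fun z => LinearMap.congr_fun hleft z
  by_cases h0 : g 0 = 0
  · rw [h0, zero_smul, zero_add, ← map_smul, ← map_smul, ← map_add] at hg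
    have h' := hι (hg.trans (map_zero ι).symm)
    have := Fintype.linearIndependent_iff.mp hx ![g 1, g 2] (by
      simpa [Fin.sum_univ_two] using h')
    obtain ⟨i, hi⟩ := hne
    refine absurd ?_ hi
    fin_cases i
    · exact h0
    · simpa using this 0
    · simpa using this 1
  · set z : M := -(g 1 • x 0 + g 2 • x 1)
    have hz : g 0 • y = ι z := by
      rw [map_neg, map_add, map_smul, map_smul]
      exact eq_neg_of_add_eq_zero_left (by rw [← add_assoc]; exact hg)
    have h3 : g 0 • (ι (left y) - y) = 0 := by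
      rw [smul_sub, ← map_smul ι, ← map_smul left, hz,
        show left (ι z) = z from LinearMap.congr_fun hleft z, sub_self]
    exact ⟨left y, sub_eq_zero.mp ((smul_eq_zero.mp h3).resolve_left h0)⟩

end Fermat.Agent.TwoAdic.Scalar
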