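import Fermat.Agent.TwoAdic.Scalar.FinalData
import Fermat.Agent.TwoAdic.Scalar.Range

/-!
The numerical criterion at the squares of the auxiliary primes and at `2`: from `R = T` at level
`N`, with the module of rank two over `T`, to `R' = T''` at level `2 N ∏ e²`.
-/

set_option autoImplicit false

open IsLocalRing

namespace Fermat.Agent.HeckeModule

open HeckeJ0 LevelRaising TwoAdic
open TwoAdic.C0 (HeckeImage)

attribute [local instance] Module.quotientAnnihilator

section Ord

variable {O : Type} [CommRing O] [IsDomain O] [IsDiscreteValuationRing O]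

/-- The order of a product. -/
theorem ord_mul_prod {ι : Type} (F : Finset ι) (f : ι → O) (a : O) :
    Ring.ord O (a * ∏ i ∈ F, f i) = Ring.ord O a + ∑ i ∈ F, Ring.ord O (f i) := by
  classical
  induction F using Finset.induction_on with
  | empty => simp
  | insert i F hi ih =>
    rw [Finset.prod_insert hi, Finset.sum_insert hi, mul_left_comm, Ring.ord_eq_addVal,
      IsDiscreteValuationRing.addVal_mul, ← Ring.ord_eq_addVal, ← Ring.ord_eq_addVal, ih]
    exact add_left_comm _ _ _

end Ord

variable {O : Type} [CommRing O] [IsDomain O] [IsDiscreteValuationRing O] [CharZero O]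
  [IsAdicComplete (maximalIdeal O) O] [CharP (ResidueField O) 2] {N : ℕ} [NeZero N] {W : Finset ℕ}
  {S : Set ℕ} {m : Ideal (AwayPoly O S)} [m.IsPrime] {E : Finset ℕ} {hW : IsALPrimes N W}
  {c : ℕ → O} {hWS : ∀ e ∈ W, e ∈ S}
  {α : Module.End (HeckePoly O) (CohLoc (awayMonoid m) (oneRep O O N))}
  (D : IsSquareData m E hW c hWS α) {L : ℕ} (hL : L = 2 * N * sqPow E) {S' : Set ℕ}
  (hS' : S' = S \ ↑E) (m' : Ideal (AwayPoly O S')) [m'.IsPrime]
  (hm' : m' = relaxIdeal m S' fun _ => 0) (hW' : IsALPrimes L W) (hWS' : ∀ e ∈ W, e ∈ S')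
  (C : Submodule (HeckePoly O) (CohLoc (awayMonoid m) (oneRep O O N)))
  (hC : ∀ x, x ∈ C ↔ ∀ e ∈ W, alOneLoc O hW c (isAway_awayMonoid m) hWS e x = x)
  (C' : Submodule (HeckePoly O) (CohLoc (awayMonoid m') (oneRep O O L)))
  (hC' : ∀ y, y ∈ C' ↔ ∀ e ∈ W, alOneLoc O hW' c (isAway_awayMonoid m') hWS' e y = y)
  (αT : HeckeImage O C)
  (hαT : ∀ x : C, ((αT • x : C) : CohLoc (awayMonoid m) (oneRep O O N)) = α x)

open Classical in
/-- The value of `T_e` under an augmentation, at a number `e`. -/
noncomputable def thetaAt (θ : HeckeImage O C →ₐ[O] O) (e : ℕ) : O :=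
  if h : e.Prime then
    θ (Ideal.Quotient.mk (Module.annihilator (HeckePoly O) C) (MvPolynomial.X (⟨e, h⟩ : Nat.Primes)))
  else 0

omit [CharP (ResidueField O) 2] [IsAdicComplete (maximalIdeal O) O] [CharZero O] [NeZero N]
  [IsDomain O] [IsDiscreteValuationRing O] in
/-- The value of the composite multiplier. -/
theorem theta_sqProd (θ : HeckeImage O C →ₐ[O] O) (F : Finset ℕ) (hF : ∀ e ∈ F, e.Prime) :
    θ (Ideal.Quotient.mk _ (sqProd O F))
      = ∏ e ∈ F, Scalar.scalarFactor e (thetaAt C θ e) := by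
  classical
  induction F using Finset.induction_on with
  | empty => rw [sqProd_empty, map_one, map_one, Finset.prod_empty]
  | insert e F he ih =>
    have : Fact e.Prime := ⟨hF e (Finset.mem_insert_self e F)⟩
    have hC' : ∀ r : O, θ (Ideal.Quotient.mk _ (MvPolynomial.C r : HeckePoly O)) = r := fun r =>
      (congrArg θ (show Ideal.Quotient.mk (Module.annihilator (HeckePoly O) C)
        (MvPolynomial.C r : HeckePoly O) = algebraMap O (HeckeImage O C) r from rfl)).trans
        (θ.commutes r)
    rw [sqProd_insert he, map_mul, map_mul, Finset.prod_insert he,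
      ih fun x hx => hF x (Finset.mem_insert_of_mem hx)]
    refine congrArg (· * _) ?_
    simp only [sqElt, map_mul, map_sub, map_pow, hC', Scalar.scalarFactor, thetaAt,
      dif_pos (Fact.out : e.Prime)]
    rfl

include D hL hS' hm' hC hC' hαT in
/-- **The criterion at the squares and at `2`.** `T''` is any subalgebra of the Hecke image above
which is everything after inverting `π`. -/
theorem bijective_of_squares {R R' T'' : Type} [CommRing R] [Algebra O R]
    [CommRing R'] [IsLocalRing R'] [IsNoetherianRing R'] [IsAdicComplete (maximalIdeal R') R']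
    [Algebra O R'] [IsLocalRing (HeckeImage O C)] (hT : IsFiniteCI O (HeckeImage O C))
    [CommRing T''] [Algebra O T''] [Module.Finite O T''] [Module.Free O T''] [IsReduced T'']
    (φ : R →ₐ[O] HeckeImage O C) (hφ : Function.Bijective φ)
    (φ' : R' →ₐ[O] T'') (hφ' : Function.Surjective φ') (r : R' →ₐ[O] R)
    (hr : Function.Surjective r)
    (j : T'' →ₐ[O] HeckeImage O C')
    (hj : ∀ t, ∃ d : O, d ≠ 0 ∧ ∃ u, j u = d • t)
    (s : HeckeImage O C' →ₐ[O] HeckeImage O C)
    (hs : ∀ l, s (Ideal.Quotient.mk _ (MvPolynomial.X l)) = stepImage m C E αT l)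
    (hcomm : (s.comp j).comp φ' = φ.comp r)
    (θ : HeckeImage O C →ₐ[O] O) (hθ : congIdeal θ ≠ ⊥) (hθα : IsUnit (θ αT))
    (b : Module.Basis (Fin 2) (HeckeImage O C) C)
    (hle : Module.length R' (RingHom.ker ((θ.comp φ).comp r)).Cotangent ≤
      Module.length R (RingHom.ker (θ.comp φ)).Cotangent +
        (Ring.ord O (θ αT ^ 2 - 1) +
          ∑ e ∈ E, Ring.ord O (Scalar.scalarFactor e (thetaAt C θ e)))) :
    Function.Bijective φ' ∧ IsFiniteCI O R' ∧ IsFiniteCI O T'' := by
  classical
  obtain ⟨H⟩ := D.ihara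
  obtain ⟨s₀, ι, ι₀, ι₀', hs₀, hι, ⟨left, hleft⟩, hback, hlin, hlin', hsurj, hcomp⟩ :=
    exists_levelHom D hL hS' m' hm' hW' hWS' C hC C' hC' αT hαT
  obtain rfl : s = s₀ := by
    refine AlgHom.ext fun t => ?_
    obtain ⟨P, rfl⟩ := Ideal.Quotient.mk_surjective t
    exact DFunLike.congr_fun (MvPolynomial.algHom_ext
      (f := s.comp (Ideal.Quotient.mkₐ O _)) (g := s₀.comp (Ideal.Quotient.mkₐ O _))
      fun l => (hs l).trans (hs₀ l).symm) P
  have hιinj : Function.Injective ι := Function.LeftInverse.injective (g := left)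
    fun z => LinearMap.congr_fun hleft z
  let inst : Module T'' C' := Module.compHom C' j.toRingHom
  have hact : ∀ (u : T'') (y : C'), u • y = j u • y := fun _ _ => rfl
  have hL0 : NeZero L := ⟨hL ▸ mul_ne_zero (mul_ne_zero two_ne_zero (NeZero.ne N))
    (sqPow_ne_zero fun e he => (D.primes e he).1)⟩
  have hS'S : S' ⊆ S := hS' ▸ Set.sdiff_subset
  have hE' : ExactHyp (awayMonoid m') (1 : (ZMod L)ˣ →* O) := by
    subst hm'
    exact exactHyp_of_dvd m hS'S H D.elliptic₄ D.elliptic₃
      (hL ▸ (dvd_mul_left N 2).mul_right _) hL.dvd _ rfl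
  obtain ⟨hfin', hfree'⟩ := free_cohChar_of_complete m' (1 : (ZMod L)ˣ →* O)
    (hm' ▸ le_relaxIdeal _ m D.le) hE'
  have : Module.Free O (CohLoc (awayMonoid m') (oneRep O O L)) := hfree'
  have : Module.IsTorsionFree O (CohLoc (awayMonoid m') (oneRep O O L)) := inferInstance
  set cT : HeckeImage O C := Ideal.Quotient.mk _ (sqProd O E)
    * ((αT * αT - 1) * (αT * αT - ((2 : ℕ) : HeckeImage O C)))
  set d : O := (θ αT ^ 2 - 1) * ∏ e ∈ E, Scalar.scalarFactor e (thetaAt C θ e)
  have hcd : Associated (θ cT) d := by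
    have hu : IsUnit (θ αT ^ 2 - ((2 : ℕ) : O)) := by
      refine not_not.mp fun h => ?_
      have h1 := add_mem ((mem_maximalIdeal _).mpr h) (natCast_two_mem (O := O))
      rw [sub_add_cancel] at h1
      exact (mem_maximalIdeal _).mp h1 (hθα.pow 2)
    have e1 : θ cT = d * (θ αT ^ 2 - ((2 : ℕ) : O)) := by
      simp only [cT, d, map_mul, map_sub, map_one, map_natCast,
        theta_sqProd C θ E fun e he => (D.primes e he).1]
      ring
    exact e1 ▸ associated_mul_unit_left d _ hu
  refine Scalar.bijective_of_cotangent_add_le hT φ hφ φ' hφ' r hr (s.comp j) hcomm θ hθ d ?_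
    (b.coord 0) (b 0) (by rw [Module.Basis.coord_apply, Module.Basis.repr_self, Finsupp.single_eq_same])
    ι₀.toAddMonoidHom (fun x y hxy => Subtype.ext (hιinj (by
      have h := congrArg Subtype.val (show ι₀ x = ι₀ y from hxy)
      rwa [hι, hι] at h)))
    (fun u x => (hlin (j u) x).trans (hact u _).symm) ι₀'.toAddMonoidHom (hsurj _)
    (fun u y => (congrArg ι₀' (hact u y)).trans (hlin' (j u) y)) cT hcomp hcd ?_
  · rw [ord_mul_prod]; exact hle
  intro y hy
  -- `y` is eigen for every operator above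
  have h1 : ∀ u : T'', j u • y = θ (s (j u)) • y := fun u => by
    have h := hy (u - algebraMap O T'' (θ (s (j u))))
      (by simp [map_sub])
    rw [hact, map_sub, AlgHom.commutes, sub_smul, sub_eq_zero, algebraMap_smul] at h
    exact h
  have h2 : ∀ t : HeckeImage O C', t • y = θ (s t) • y := fun t => by
    obtain ⟨e, he, u, hu⟩ := hj t
    have h := h1 u
    rw [hu, map_smul, map_smul, smul_assoc, smul_assoc] at h
    have htf : ∀ z : C', e • z = 0 → z = 0 := fun z hz =>
      Subtype.ext ((smul_eq_zero.mp (show e • (z : CohLoc (awayMonoid m') (oneRep O O L)) = 0 from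
        (Submodule.coe_smul_of_tower e z).symm.trans (congrArg Subtype.val hz))).resolve_left he)
    exact sub_eq_zero.mp (htf _ (by rw [smul_sub, h, sub_self]))
  obtain ⟨x, hx, hxe⟩ := Scalar.exists_eigen_pair θ hθ b
  set lam : Nat.Primes → O := fun l => θ (stepImage m C E αT l)
  let v : Fin 3 → CohLoc (awayMonoid m') (oneRep O O L) :=
    ![(y : CohLoc (awayMonoid m') (oneRep O O L)), ι (x 0), ι (x 1)]
  have hv : ∀ i (l : Nat.Primes), (MvPolynomial.X l : HeckePoly O) • v i = lam l • v i := by
    intro i l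
    have hy' : (MvPolynomial.X l : HeckePoly O) • (y : CohLoc (awayMonoid m') (oneRep O O L))
        = lam l • (y : CohLoc (awayMonoid m') (oneRep O O L)) := by
      have h := congrArg Subtype.val (h2 (Ideal.Quotient.mk _ (MvPolynomial.X l)))
      rw [hs, heckeImage_mk_smul] at h
      exact h
    have hxi : ∀ k, (MvPolynomial.X l : HeckePoly O) • ι (x k) = lam l • ι (x k) := fun k => by
      have h := congrArg Subtype.val (hlin (Ideal.Quotient.mk _ (MvPolynomial.X l)) (x k))
      rw [hs, hxe, map_smul, heckeImage_mk_smul] at h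
      rw [← hι]
      exact h.symm
    fin_cases i
    · exact hy'
    · exact hxi 0
    · exact hxi 1
  have hdep : ¬ LinearIndependent O v :=
    not_linearIndependent_cohLoc (ρ := oneRep O O L) oneRep_eq_one hE'.nonEisenstein v hv
  have hxl : LinearIndependent O fun i => (x i : CohLoc (awayMonoid m) (oneRep O O N)) :=
    hx.map' (C.subtype.restrictScalars O) (LinearMap.ker_eq_bot.mpr Subtype.val_injective)
  obtain ⟨z, hz⟩ := Scalar.mem_range_of_dependent ι left hleft hxl hdep
  have hzC : z ∈ C := hback z (hz ▸ y.2)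
  exact ⟨⟨z, hzC⟩, Subtype.ext ((hι ⟨z, hzC⟩).trans hz)⟩

end Fermat.Agent.HeckeModule
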