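import Mathlib.GroupTheory.Subgroup.Center
import Fermat.Agent.HeckeModule.Compose

/-!
Operators on `H¹` given by sums of translates, for trivial coefficient actions: composites, sums and
comparison up to the small group and central elements chosen term by term.
-/

set_option autoImplicit false

universe uO uA

namespace Fermat.Agent.HeckeModule

variable {O : Type uO} [CommRing O] {A : Type uA} [AddCommGroup A] [Module O A]
  {Γ Γ' Γ'' : Type*} [Group Γ] [Group Γ'] [Group Γ''] {G : Type*} [Group G]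
  {i : Γ →* G} {j : Γ' →* G} {k : Γ'' →* G}
  {ρ : Representation O Γ A} {σ : Representation O Γ' A} {τ : Representation O Γ'' A}
  {K : Set Γ} {K' : Set Γ'} {K'' : Set Γ''}

/-- Functions invariant under the centre. -/
def IsCentralInv (F : G → A) : Prop := ∀ z ∈ Subgroup.center G, ∀ M, F (z * M) = F M

/-- The operator is given, on equivariant functions invariant under the centre, by a sum of
translates. -/
def ActsBy (i : Γ →* G) (j : Γ' →* G) (Φ : H1 ρ K →ₗ[O] H1 σ K') {ι : Type*} [Fintype ι]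
    (a : ι → G) : Prop :=
  ∀ (c : cocycles ρ K) (F : G → A), IsEquivariant i ρ c.1 F → IsCentralInv F →
    ∃ d : cocycles σ K', cls σ K' d = Φ (cls ρ K c) ∧
      IsEquivariant j σ d.1 fun M => ∑ x, F (a x * M)

lemma isCentralInv_sum {ι : Type*} [Fintype ι] {F : G → A} (hF : IsCentralInv F) (a : ι → G) :
    IsCentralInv fun M => ∑ x, F (a x * M) := fun z hz M => by
  refine Finset.sum_congr rfl fun x _ => ?_
  rw [← mul_assoc, Subgroup.mem_center_iff.mp hz (a x), mul_assoc, hF z hz]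

namespace ActsBy

theorem id : ActsBy i i (LinearMap.id : H1 ρ K →ₗ[O] H1 ρ K) (fun _ : Unit => (1 : G)) :=
  fun c F hF _ => ⟨c, rfl, by simpa using hF⟩

theorem of_data {ι : Type*} [Fintype ι] (hi : Function.Injective i) (D : Data i j ρ σ K K' ι)
    (hε : ∀ x, D.ε x = LinearMap.id) : ActsBy i j (D.onH1 hi) D.α := fun c F hF _ => by
  refine ⟨D.onCocycles hi c, rfl, ?_⟩
  have h := D.isEquivariant_act hi hF
  have e : D.act F = fun M => ∑ x, F (D.α x * M) := by
    funext M
    simp only [Data.act, hε, LinearMap.id_apply]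
  rwa [e] at h

theorem add {ι κ : Type*} [Fintype ι] [Fintype κ] {Φ Ψ : H1 ρ K →ₗ[O] H1 σ K'} {a : ι → G}
    {b : κ → G} (hΦ : ActsBy i j Φ a) (hΨ : ActsBy i j Ψ b) :
    ActsBy i j (Φ + Ψ) (Sum.elim a b) := by
  intro c F hF hz
  obtain ⟨d, hd, hd'⟩ := hΦ c F hF hz
  obtain ⟨e, he, he'⟩ := hΨ c F hF hz
  refine ⟨d + e, by rw [map_add, hd, he, LinearMap.add_apply], ?_⟩
  have h : ((fun M => ∑ x, F (a x * M)) + fun M => ∑ y, F (b y * M))
      = fun M => ∑ p : ι ⊕ κ, F (Sum.elim a b p * M) := by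
    funext M
    rw [Fintype.sum_sum_type]
    rfl
  exact h ▸ hd'.add he'

theorem natSmul {ι : Type*} [Fintype ι] {Φ : H1 ρ K →ₗ[O] H1 σ K'} {a : ι → G}
    (hΦ : ActsBy i j Φ a) (n : ℕ) :
    ActsBy i j ((n : O) • Φ) fun p : Fin n × ι => a p.2 := by
  intro c F hF hz
  obtain ⟨d, hd, hd'⟩ := hΦ c F hF hz
  refine ⟨(n : O) • d, by rw [map_smul, hd, LinearMap.smul_apply], ?_⟩
  have h : ((n : O) • fun M => ∑ x, F (a x * M))
      = fun M => ∑ p : Fin n × ι, F (a p.2 * M) := by
    funext M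
    simp only [Fintype.sum_prod_type, Finset.sum_const, Finset.card_univ, Fintype.card_fin,
      Pi.smul_apply, Nat.cast_smul_eq_nsmul]
  exact h ▸ hd'.smul (n : O)

/-- Equivariant functions invariant under the centre exist. -/
theorem exists_isCentralInv (hρ : ∀ g, ρ g = 1) (hZ : ∀ g, i g ∈ Subgroup.center G → g = 1 ∨ g ∈ K)
    (c : cocycles ρ K) : ∃ F : G → A, IsEquivariant i ρ c.1 F ∧ IsCentralInv F := by
  let H : Subgroup G := i.range ⊔ Subgroup.center G
  let out : G → G := fun M => Quotient.out (Quotient.mk (QuotientGroup.rightRel H) M)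
  have hout : ∀ M, ∃ g : Γ, ∃ z ∈ Subgroup.center G, M = i g * z * out M := fun M => by
    have h : (QuotientGroup.rightRel H) (out M) M := Quotient.exact (Quotient.out_eq _)
    rw [QuotientGroup.rightRel_apply] at h
    obtain ⟨y, ⟨g, rfl⟩, z, hz, hyz⟩ := Subgroup.mem_sup_of_normal_right.mp h
    exact ⟨g, z, hz, by rw [hyz, inv_mul_cancel_right]⟩
  choose gf zf hzf hgf using hout
  have hc1 : c.1 1 = 0 := by
    have h := c.2.1 1 1
    rw [mul_one, hρ, Module.End.one_apply] at h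
    exact left_eq_add.mp h
  have hkey : ∀ (g g' : Γ) (z z' : G) (M : G), z ∈ Subgroup.center G → z' ∈ Subgroup.center G →
      i g * z * M = i g' * z' * M → c.1 g = c.1 g' := by
    intro g g' z z' M hz hz' h
    have h1 : i (g'⁻¹ * g) = z' * z⁻¹ := by
      rw [map_mul, map_inv, inv_mul_eq_iff_eq_mul, ← mul_assoc, eq_mul_inv_iff_mul_eq]
      exact mul_right_cancel h
    have h2 : c.1 (g'⁻¹ * g) = 0 := by
      rcases hZ _ (h1 ▸ mul_mem hz' (inv_mem hz)) with e | e
      · rw [e, hc1]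
      · exact c.2.2 _ e
    have h3 := c.2.1 g' (g'⁻¹ * g)
    rwa [mul_inv_cancel_left, hρ, Module.End.one_apply, h2, add_zero] at h3
  have hsame : ∀ (y : G), y ∈ H → ∀ M, out (y * M) = out M := fun y hy M => by
    refine congrArg Quotient.out (Quotient.sound ?_)
    show QuotientGroup.rightRel H _ _
    rw [QuotientGroup.rightRel_apply, mul_inv_rev, mul_inv_cancel_left]
    exact H.inv_mem hy
  refine ⟨fun M => c.1 (gf M), fun g M => ?_, fun z hz M => ?_⟩
  · show c.1 (gf (i g * M)) = c.1 g + ρ g (c.1 (gf M))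
    rw [← c.2.1]
    refine hkey _ _ (zf (i g * M)) (zf M) (out M) (hzf _) (hzf _) ?_
    have h1 := hgf (i g * M)
    rw [hsame _ (Subgroup.mem_sup_left ⟨g, rfl⟩)] at h1
    rw [← h1, map_mul, mul_assoc (i g), mul_assoc (i g), ← hgf M]
  · show c.1 (gf (z * M)) = c.1 (gf M)
    refine hkey _ _ (zf (z * M)) (z * zf M) (out M) (hzf _) (mul_mem hz (hzf _)) ?_
    have h1 := hgf (z * M)
    rw [hsame _ (Subgroup.mem_sup_right hz)] at h1
    rw [← h1, ← mul_assoc, Subgroup.mem_center_iff.mp hz (i (gf M)), mul_assoc, mul_assoc z,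
      ← mul_assoc (i (gf M)) (zf M), ← mul_assoc z, mul_assoc z, ← hgf M]

/-- Two operators with translates matching up to the small group and central elements are equal. -/
theorem eq {ι κ : Type*} [Fintype ι] [Fintype κ] {Φ Ψ : H1 ρ K →ₗ[O] H1 σ K'} {a : ι → G}
    {b : κ → G} (hρ : ∀ g, ρ g = 1) (hZ : ∀ g, i g ∈ Subgroup.center G → g = 1 ∨ g ∈ K)
    (hΦ : ActsBy i j Φ a) (hΨ : ActsBy i j Ψ b) (e : ι ≃ κ)
    (hab : ∀ x, ∃ (g : Γ) (z : G), z ∈ Subgroup.center G ∧ a x = i g * (z * b (e x))) :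
    Φ = Ψ := by
  refine LinearMap.ext fun u => ?_
  obtain ⟨c, rfl⟩ := cls_surjective ρ K u
  obtain ⟨F, hF, hz⟩ := exists_isCentralInv hρ hZ c
  obtain ⟨d, hd, hd'⟩ := hΦ c F hF hz
  obtain ⟨d₂, hd₂, hd₂'⟩ := hΨ c F hF hz
  rw [← hd, ← hd₂]
  choose g z hzc hg using hab
  refine cls_eq_of_equivariant hd' hd₂' (∑ x, c.1 (g x)) fun M => ?_
  show ∑ x, F (a x * M) = ∑ y, F (b y * M) + _
  rw [← Equiv.sum_comp e fun y => F (b y * M), ← Finset.sum_add_distrib]
  refine Finset.sum_congr rfl fun x _ => ?_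
  rw [hg, mul_assoc, hF, hρ, Module.End.one_apply, mul_assoc, hz _ (hzc x), add_comm]

end ActsBy

end Fermat.Agent.HeckeModule
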