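import Fermat.Agent.HeckeModule.Ihara

/-!
Ihara's lemma for the three degeneracy maps from level `N` to level `q²N`: the kernel of
`(x, y, z) ↦ D_1 x + D_q y + D_{q²} z` is killed by a power of `X_ℓ² - (ℓ+1)²`.

The first component is invariant under translation by `1/q` on deep elements (translate the other
two terms by `1` and by `q`), so the argument of the two-map lemma applies to it; the remaining two
components then lie in the kernel of the two-map sum.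
-/

set_option autoImplicit false

open CongruenceSubgroup Matrix.SpecialLinearGroup
open scoped MatrixGroups

universe uO uA

namespace Fermat.Agent.HeckeModule

open HeckeJ0 LevelRaising

section Maps

variable {O : Type uO} [CommRing O] {A : Type uA} [AddCommGroup A] [Module O A]
  {N : ℕ} (ρ : Representation O (ZMod N)ˣ A) (q : ℕ) [hq : Fact q.Prime]

/-- The degeneracy map of `z ↦ z` to level `qN`. -/
noncomputable abbrev degenOne : Coh1 ρ →ₗ[O] Coh1 (pullRep ρ (dvd_mul_left N q)) :=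
  degen ρ (N' := q * N) one_ne_zero (by rw [one_mul]; exact dvd_mul_left N q)

/-- The degeneracy map of `z ↦ q z` to level `qN`. -/
noncomputable abbrev degenUp : Coh1 ρ →ₗ[O] Coh1 (pullRep ρ (dvd_mul_left N q)) :=
  degen ρ (N' := q * N) hq.out.ne_zero dvd_rfl

/-- The coefficients at level `q²N`. -/
noncomputable abbrev sqRep : Representation O (ZMod (q * (q * N)))ˣ A :=
  pullRep (pullRep ρ (dvd_mul_left N q)) (dvd_mul_left (q * N) q)

/-- The degeneracy map `D_1` to level `q²N`. -/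
noncomputable def sqOne : Coh1 ρ →ₗ[O] Coh1 (sqRep ρ q) :=
  degenOne (pullRep ρ (dvd_mul_left N q)) q ∘ₗ degenOne ρ q

/-- The degeneracy map `D_q` to level `q²N`. -/
noncomputable def sqMid : Coh1 ρ →ₗ[O] Coh1 (sqRep ρ q) :=
  degenOne (pullRep ρ (dvd_mul_left N q)) q ∘ₗ degenUp ρ q

/-- The degeneracy map `D_{q²}` to level `q²N`. -/
noncomputable def sqTop : Coh1 ρ →ₗ[O] Coh1 (sqRep ρ q) :=
  degenUp (pullRep ρ (dvd_mul_left N q)) q ∘ₗ degenUp ρ q

/-- `(x, y, z) ↦ D_1 x + D_q y + D_{q²} z`. -/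
noncomputable def sqSum : Coh1 ρ × Coh1 ρ × Coh1 ρ →ₗ[O] Coh1 (sqRep ρ q) :=
  (sqOne ρ q).coprod ((sqMid ρ q).coprod (sqTop ρ q))

lemma sqSum_apply (x y z : Coh1 ρ) :
    sqSum ρ q (x, y, z) = sqOne ρ q x + (sqMid ρ q y + sqTop ρ q z) := rfl

variable {ℓ : ℕ} [hℓ : Fact ℓ.Prime] (hℓq : ℓ ≠ q)
include hℓq

lemma degenOne_heckeOp {M : ℕ} (σ : Representation O (ZMod M)ˣ A) (u : Coh1 σ) :
    degenOne σ q (heckeOp σ ℓ u) = heckeOp _ ℓ (degenOne σ q u) :=
  degen_heckeOp σ _ _ hℓ.out.not_dvd_one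
    (fun h => ((hℓ.out.dvd_mul).mp h).resolve_left fun h' =>
      hℓq ((Nat.prime_dvd_prime_iff_eq hℓ.out hq.out).mp h')) u

lemma degenUp_heckeOp {M : ℕ} (σ : Representation O (ZMod M)ˣ A) (u : Coh1 σ) :
    degenUp σ q (heckeOp σ ℓ u) = heckeOp _ ℓ (degenUp σ q u) :=
  degen_heckeOp σ _ _ (fun h' => hℓq ((Nat.prime_dvd_prime_iff_eq hℓ.out hq.out).mp h'))
    (fun h => ((hℓ.out.dvd_mul).mp h).resolve_left fun h' =>
      hℓq ((Nat.prime_dvd_prime_iff_eq hℓ.out hq.out).mp h')) u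

lemma sqOne_heckeOp (u : Coh1 ρ) : sqOne ρ q (heckeOp ρ ℓ u) = heckeOp _ ℓ (sqOne ρ q u) := by
  simp only [sqOne, LinearMap.comp_apply, degenOne_heckeOp q hℓq]

lemma sqMid_heckeOp (u : Coh1 ρ) : sqMid ρ q (heckeOp ρ ℓ u) = heckeOp _ ℓ (sqMid ρ q u) := by
  simp only [sqMid, LinearMap.comp_apply, degenUp_heckeOp q hℓq, degenOne_heckeOp q hℓq]

lemma sqTop_heckeOp (u : Coh1 ρ) : sqTop ρ q (heckeOp ρ ℓ u) = heckeOp _ ℓ (sqTop ρ q u) := by
  simp only [sqTop, LinearMap.comp_apply, degenUp_heckeOp q hℓq]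

lemma sqSum_hecke {x y z : Coh1 ρ} (h : sqSum ρ q (x, y, z) = 0) :
    sqSum ρ q (heckeOp ρ ℓ x, heckeOp ρ ℓ y, heckeOp ρ ℓ z) = 0 := by
  rw [sqSum_apply] at h ⊢
  rw [sqOne_heckeOp ρ q hℓq, sqMid_heckeOp ρ q hℓq, sqTop_heckeOp ρ q hℓq, ← map_add, ← map_add, h,
    map_zero]

end Maps

section Values

variable {O : Type uO} [CommRing O] {A : Type uA} [AddCommGroup A] [Module O A]
  {M q : ℕ} [hq : Fact q.Prime] (ρ : Representation O (ZMod M)ˣ A)

omit hq in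
/-- The value of `res` on a matrix of level `qM`. -/
lemma matFun_degenOne (c : Gamma0 M → A) {X : Mat} (hX : X ∈ Lvl (q * M)) :
    matFun ((degenData ρ (N' := q * M) one_ne_zero
      (by rw [one_mul]; exact dvd_mul_left M q)).raw c) X = matFun c X := by
  let γ : Gamma0 (q * M) := ⟨⟨X, hX.1⟩, (mem_Gamma0_iff_dvd _).mpr hX.2⟩
  have hX' : X ∈ Lvl M := ⟨hX.1, (Int.natCast_dvd_natCast.mpr (dvd_mul_left M q)).trans hX.2⟩
  let g : Gamma0 M := ⟨⟨X, hX'.1⟩, (mem_Gamma0_iff_dvd _).mpr hX'.2⟩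
  have e : degenMat 1 * toGL (q * M) γ = toGL M g * degenMat 1 := by
    refine Units.ext (Matrix.ext fun u v => ?_)
    rw [Units.val_mul, Units.val_mul, val_degenMat one_ne_zero, Matrix.mul_apply,
      Matrix.mul_apply, Fin.sum_univ_two, Fin.sum_univ_two, toGL_eq_of (g := γ) (M := X) rfl,
      toGL_eq_of (g := γ) (M := X) rfl, toGL_eq_of (g := g) (M := X) rfl, toGL_eq_of (g := g) (M := X) rfl]
    fin_cases u <;> fin_cases v <;> simp
  rw [matFun_eq _ γ (M := X) rfl, matFun_eq c g (M := X) rfl]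
  exact degenData_raw_apply _ _ _ _ _ e

/-- The value of the degeneracy map of `z ↦ q z` on a matrix of level `qM`. -/
lemma matFun_degenUp (c : Gamma0 M → A) {a b C d : ℤ} (h : mm a (q * b) C d ∈ Lvl M) :
    matFun ((degenData ρ (N' := q * M) hq.out.ne_zero dvd_rfl).raw c) (mm a b (q * C) d)
      = matFun c (mm a (q * b) C d) := by
  obtain ⟨hdet, hC⟩ := mm_mem_detLevel.mp h
  have hX : mm a b (q * C) d ∈ Lvl (q * M) := mm_mem_detLevel.mpr
    ⟨by linear_combination hdet, by push_cast; exact mul_dvd_mul_left _ hC⟩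
  let γ : Gamma0 (q * M) := ⟨⟨_, hX.1⟩, (mem_Gamma0_iff_dvd _).mpr hX.2⟩
  let g : Gamma0 M := ⟨⟨_, h.1⟩, (mem_Gamma0_iff_dvd _).mpr h.2⟩
  have e : degenMat q * toGL (q * M) γ = toGL M g * degenMat q := by
    refine Units.ext (Matrix.ext fun u v => ?_)
    rw [Units.val_mul, Units.val_mul, val_degenMat hq.out.ne_zero, Matrix.mul_apply,
      Matrix.mul_apply, Fin.sum_univ_two, Fin.sum_univ_two, toGL_eq_of (g := γ) rfl,
      toGL_eq_of (g := γ) rfl, toGL_eq_of (g := g) rfl, toGL_eq_of (g := g) rfl]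
    fin_cases u <;> fin_cases v <;> simp [γ, g] <;> ring
  rw [matFun_eq _ γ (M := mm a b (q * C) d) rfl, matFun_eq c g (M := mm a (q * b) C d) rfl]
  exact degenData_raw_apply _ _ _ _ _ e

end Values

section Relation

variable {B : Type*} [AddCommGroup B] {N q : ℕ} {c₁ c₂ c₃ : Mat → B}

/-- The first homomorphism in a three-term relation is invariant under translation by `1/q`. -/
theorem translate_of_rel₃ (hq : q.Prime) (hqN : ¬ q ∣ N) (h₂ : IsHomOn N c₂) (h₃ : IsHomOn N c₃)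
    (rel : ∀ a b C d : ℤ, mm a (q ^ 2 * b) C d ∈ Lvl N →
      c₁ (mm a b (q ^ 2 * C) d) + c₂ (mm a (q * b) (q * C) d)
        + c₃ (mm a (q ^ 2 * b) C d) = 0)
    (E : ℕ) (X : Mat) (hX : deepMat (q : ℤ) (E + 2) X ∈ Lvl N) :
    c₁ (deepMat (q : ℤ) E (mm q 1 0 q * X * (mm (q : ℤ) 1 0 q).adjugate)) =
      c₁ (deepMat (q : ℤ) (E + 2) X) := by
  have hcop : IsCoprime (q : ℤ) (N : ℤ) := by
    rw [Int.isCoprime_iff_nat_coprime]; simpa using hq.coprime_iff_not_dvd.mpr hqN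
  rw [mm_eta X] at hX ⊢
  generalize X 0 0 = x, X 0 1 = y, X 1 0 = z, X 1 1 = w at hX ⊢
  rw [adjugate_mm, mm_mul, mm_mul, deepMat_one_eq, deepMat_one_eq]
  rw [deepMat_one_eq] at hX
  obtain ⟨hdet, hdvd⟩ := mm_mem_detLevel.mp hX
  have hz : (N : ℤ) ∣ (q : ℤ) ^ E * z := by
    refine (hcop.pow_left (m := 2)).symm.dvd_of_dvd_mul_left ?_
    rwa [← mul_assoc, ← pow_add, add_comm 2 E]
  set a := 1 + (q : ℤ) ^ (E + 2) * x
  set b := (q : ℤ) ^ (E + 2) * y
  set C := (q : ℤ) ^ E * z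
  set d := 1 + (q : ℤ) ^ (E + 2) * w
  have hm2 : mm a ((q : ℤ) * b) ((q : ℤ) * C) d ∈ Lvl N :=
    mm_mem_detLevel.mpr ⟨by linear_combination hdet, hz.mul_left _⟩
  have hm3 : mm a ((q : ℤ) ^ 2 * b) C d ∈ Lvl N :=
    mm_mem_detLevel.mpr ⟨by linear_combination hdet, hz⟩
  set a' := a + (q : ℤ) * C
  set b' := b + ((q : ℤ) ^ (E + 1) * (w - x) - C)
  set d' := d - (q : ℤ) * C
  have hm3' : mm a' ((q : ℤ) ^ 2 * b') C d' ∈ Lvl N :=
    mm_mem_detLevel.mpr ⟨by linear_combination hdet, hz⟩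
  have e2 : uU 1 * mm a ((q : ℤ) * b) ((q : ℤ) * C) d * (uU 1).adjugate =
      mm a' ((q : ℤ) * b') ((q : ℤ) * C) d' := by
    simp only [uU, adjugate_mm, mm_mul, mm_inj, a', b', d', a, d, C]
    refine ⟨?_, ?_, ?_, ?_⟩ <;> ring
  have e3 : uU q * mm a ((q : ℤ) ^ 2 * b) C d * (uU (q : ℤ)).adjugate =
      mm a' ((q : ℤ) ^ 2 * b') C d' := by
    simp only [uU, adjugate_mm, mm_mul, mm_inj, a', b', d', a, d, C]
    refine ⟨?_, ?_, ?_, ?_⟩ <;> ring
  have k2 := h₂.conj hm2 (uU_mem N 1)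
  have k3 := h₃.conj hm3 (uU_mem N (q : ℤ))
  rw [e2] at k2
  rw [e3] at k3
  have r1 := rel a b C d hm3
  have r2 := rel a' b' C d' hm3'
  rw [k2, k3] at r2
  have hkey : c₁ (mm a' b' ((q : ℤ) ^ 2 * C) d') = c₁ (mm a b ((q : ℤ) ^ 2 * C) d) := by
    rw [eq_neg_of_add_eq_zero_left ((add_assoc _ _ _).symm.trans r2),
      eq_neg_of_add_eq_zero_left ((add_assoc _ _ _).symm.trans r1)]
  refine Eq.trans ?_ (hkey.trans ?_)
  · congr 1
    simp only [mm_inj, a', b', d', a, b, d, C]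
    refine ⟨?_, ?_, ?_, ?_⟩ <;> ring
  · congr 1
    simp only [mm_inj, a, b, d, C]
    refine ⟨trivial, trivial, ?_, trivial⟩
    ring

end Relation

section Field

variable {N : ℕ} {k : Type uO} [Field k] {p : ℕ} [CharP k p] [hp : Fact p.Prime] {q ℓ : ℕ}
  [hq : Fact q.Prime] [hℓ : Fact ℓ.Prime] [NeZero N]

omit hp [CharP k p] hℓ [NeZero N] in
/-- The three-term relation of a triple in the kernel. -/
lemma sqSum_eq_zero_apply {c c' c'' : Cocycle (trivRep N k k)}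
    (h : sqSum (trivRep N k k) q (toCoh _ c, toCoh _ c', toCoh _ c'') = 0) {a b C d : ℤ}
    (hmem : mm a (q ^ 2 * b) C d ∈ Lvl N) :
    matFun c.1 (mm a b (q ^ 2 * C) d) + matFun c'.1 (mm a (q * b) (q * C) d)
      + matFun c''.1 (mm a (q ^ 2 * b) C d) = 0 := by
  obtain ⟨hdet, hC⟩ := mm_mem_detLevel.mp hmem
  have e : (q : ℤ) ^ 2 * C = q * (q * C) := by ring
  have e' : (q : ℤ) ^ 2 * b = q * (q * b) := by ring
  have h2 : mm a b ((q : ℤ) ^ 2 * C) d ∈ Lvl (q * (q * N)) := mm_mem_detLevel.mpr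
    ⟨by linear_combination hdet, by
      push_cast; rw [e]; exact mul_dvd_mul_left _ (mul_dvd_mul_left _ hC)⟩
  have h1 : mm a b ((q : ℤ) ^ 2 * C) d ∈ Lvl (q * N) :=
    ⟨h2.1, (Int.natCast_dvd_natCast.mpr (dvd_mul_left _ q)).trans h2.2⟩
  have h1' : mm a ((q : ℤ) * b) ((q : ℤ) * C) d ∈ Lvl (q * N) := mm_mem_detLevel.mpr
    ⟨by linear_combination hdet, by push_cast; exact mul_dvd_mul_left _ hC⟩
  have h0 : mm a ((q : ℤ) * b) ((q : ℤ) * C) d ∈ Lvl N := mm_mem_detLevel.mpr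
    ⟨by linear_combination hdet, hC.mul_left _⟩
  rw [sqSum_apply, sqOne, sqMid, sqTop] at h
  simp only [LinearMap.comp_apply, degenOne, degenUp, degen_toCoh, ← map_add] at h
  let γ : Gamma0 (q * (q * N)) := ⟨⟨_, h2.1⟩, (mem_Gamma0_iff_dvd _).mpr h2.2⟩
  have hz := toCoh_trivial_eq_zero _ (fun _ => rfl) h γ
  have v1 := (matFun_degenOne (pullRep (trivRep N k k) (dvd_mul_left N q))
    ((degenData (trivRep N k k) (N' := q * N) one_ne_zero
      (by rw [one_mul]; exact dvd_mul_left N q)).raw c.1) h2).trans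
      (matFun_degenOne (trivRep N k k) c.1 h1)
  have v2 : matFun ((degenData (pullRep (trivRep N k k) (dvd_mul_left N q)) (N' := q * (q * N))
      one_ne_zero (by rw [one_mul]; exact dvd_mul_left _ q)).raw
      ((degenData (trivRep N k k) (N' := q * N) hq.out.ne_zero dvd_rfl).raw c'.1))
      (mm a b ((q : ℤ) ^ 2 * C) d) = matFun c'.1 (mm a (q * b) (q * C) d) := by
    rw [matFun_degenOne _ _ h2, e]
    exact matFun_degenUp (trivRep N k k) c'.1 (C := (q : ℤ) * C) h0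
  have v3 : matFun ((degenData (pullRep (trivRep N k k) (dvd_mul_left N q)) (N' := q * (q * N))
      hq.out.ne_zero dvd_rfl).raw
      ((degenData (trivRep N k k) (N' := q * N) hq.out.ne_zero dvd_rfl).raw c''.1))
      (mm a b ((q : ℤ) ^ 2 * C) d) = matFun c''.1 (mm a (q ^ 2 * b) C d) := by
    rw [e', e, matFun_degenUp _ _ (C := (q : ℤ) * C) h1']
    exact matFun_degenUp (trivRep N k k) c''.1 (b := (q : ℤ) * b) (e' ▸ hmem)
  rw [matFun_eq _ γ (M := mm a b ((q : ℤ) ^ 2 * C) d) rfl] at v1 v2 v3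
  rw [← v1, ← v2, ← v3, add_assoc]
  exact hz

omit hℓ [NeZero N] in
/-- A pair killed by `D_q + D_{q²}` is killed by the two-map sum. -/
theorem degenSum_eq_zero_of_sqSum {y z : Coh1 (trivRep N k k)} (hqp : q ≠ p)
    (h : sqSum (trivRep N k k) q (0, y, z) = 0) : degenSum N k q (y, z) = 0 := by
  obtain ⟨c, rfl⟩ := toCoh_surjective _ y
  obtain ⟨c', rfl⟩ := toCoh_surjective _ z
  rw [← map_zero (toCoh (trivRep N k k))] at h
  have rel : ∀ a b C d : ℤ, mm a (q ^ 2 * b) C d ∈ Lvl N →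
      matFun c.1 (mm a (q * b) (q * C) d) + matFun c'.1 (mm a (q ^ 2 * b) C d) = 0 := by
    intro a b C d hm
    have h3 := sqSum_eq_zero_apply h hm
    have h0 : matFun ((0 : Cocycle (trivRep N k k)).1) (mm a b ((q : ℤ) ^ 2 * C) d) = 0 := by
      unfold matFun; split <;> rfl
    rwa [h0, zero_add] at h3
  have hq0 : (q : k) ≠ 0 := fun hd => hqp ((Nat.prime_dvd_prime_iff_eq hp.out hq.out).mp
    ((CharP.cast_eq_zero_iff k p q).mp hd)).symm
  have hu : matFun c.1 (uU 1) + (q : k) * matFun c'.1 (uU 1) = 0 := by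
    have h1 := rel 1 1 0 1 (mm_mem_detLevel.mpr ⟨by ring, dvd_zero _⟩)
    simp only [mul_one, mul_zero] at h1
    change matFun c.1 (uU (q : ℤ)) + matFun c'.1 (uU ((q : ℤ) ^ 2)) = 0 at h1
    rw [(isHomOn_matFun c).apply_uU (q : ℤ), (isHomOn_matFun c').apply_uU ((q : ℤ) ^ 2),
      zsmul_eq_mul, zsmul_eq_mul] at h1
    push_cast at h1
    exact (mul_eq_zero.mp (show (q : k) * (matFun c.1 (uU 1) + (q : k) * matFun c'.1 (uU 1)) = 0
      by linear_combination h1)).resolve_left hq0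
  rw [degenSum, LinearMap.coprod_apply, degen_toCoh, degen_toCoh, ← map_add, toCoh_eq_zero_iff]
  refine ⟨0, fun γ => ?_⟩
  rw [map_zero, sub_zero]
  have hγ : ((γ : SL(2, ℤ)) : Mat) ∈ Lvl (q * N) :=
    ⟨(γ : SL(2, ℤ)).det_coe, (mem_Gamma0_iff_dvd _).mp γ.2⟩
  have hγe := mm_eta ((γ : SL(2, ℤ)) : Mat)
  generalize ha : ((γ : SL(2, ℤ)) : Mat) 0 0 = a, hb : ((γ : SL(2, ℤ)) : Mat) 0 1 = b,
    hC' : ((γ : SL(2, ℤ)) : Mat) 1 0 = C', hd : ((γ : SL(2, ℤ)) : Mat) 1 1 = d at hγe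
  rw [hγe] at hγ
  obtain ⟨hdet, C₀, hC₀⟩ := mm_mem_detLevel.mp hγ
  push_cast at hC₀
  obtain ⟨C, rfl⟩ : ∃ C, C' = (q : ℤ) * C := ⟨(N : ℤ) * C₀, by rw [hC₀]; ring⟩
  have hC : (N : ℤ) ∣ C := ⟨C₀, mul_left_cancel₀ (by exact_mod_cast hq.out.ne_zero : (q : ℤ) ≠ 0)
    (by rw [hC₀]; ring)⟩
  have hcop : IsCoprime a (q : ℤ) := ⟨d, -(b * C), by linear_combination hdet⟩
  obtain ⟨s, hs⟩ := exists_dvd_sub_mul hcop (-b)
  obtain ⟨b₁, hb₁⟩ := hs
  set d₁ := (q : ℤ) * C * s + d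
  have hbs : a * s + b = (q : ℤ) * -b₁ := by linear_combination -hb₁
  have hm := rel a (-b₁) C d₁ (mm_mem_detLevel.mpr
    ⟨by linear_combination hdet + (q : ℤ) * C * hbs, hC⟩)
  have g2 : mm a b ((q : ℤ) * C) d ∈ Lvl N :=
    mm_mem_detLevel.mpr ⟨by linear_combination hdet, hC.mul_left _⟩
  have g3 : mm a ((q : ℤ) * b) C d ∈ Lvl N :=
    mm_mem_detLevel.mpr ⟨by linear_combination hdet, hC⟩
  have e2 : mm a b ((q : ℤ) * C) d * uU s = mm a ((q : ℤ) * -b₁) ((q : ℤ) * C) d₁ := by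
    simp only [uU, mm_mul, mm_inj, d₁]
    refine ⟨by ring, ?_, by ring, by ring⟩
    linear_combination hbs
  have e3 : mm a ((q : ℤ) * b) C d * uU ((q : ℤ) * s) = mm a ((q : ℤ) ^ 2 * -b₁) C d₁ := by
    simp only [uU, mm_mul, mm_inj, d₁]
    refine ⟨by ring, ?_, by ring, by ring⟩
    linear_combination (q : ℤ) * hbs
  rw [← e2, ← e3, isHomOn_matFun c _ g2 _ (uU_mem N s),
    isHomOn_matFun c' _ g3 _ (uU_mem N _), (isHomOn_matFun c).apply_uU s,
    (isHomOn_matFun c').apply_uU ((q : ℤ) * s), zsmul_eq_mul, zsmul_eq_mul] at hm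
  push_cast at hm
  have hsum : matFun c.1 (mm a b ((q : ℤ) * C) d) + matFun c'.1 (mm a ((q : ℤ) * b) C d) = 0 := by
    linear_combination hm - (s : k) * hu
  refine Eq.trans ?_ hsum
  refine congrArg₂ (fun u v : k => u + v) ?_ ?_
  · rw [← matFun_degenOne (trivRep N k k) c.1 hγ]
    exact (matFun_eq _ γ hγe).symm
  · rw [← matFun_degenUp (trivRep N k k) c'.1 g3]
    exact (matFun_eq _ γ hγe).symm

variable (hqN : ¬ q ∣ N) (hℓN : N < ℓ) (hℓp : ℓ ≠ p) (hℓq : ℓ ≠ q) (hℓ2 : ℓ ≠ 2)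
include p hp hqN hℓN hℓp hℓq hℓ2

/-- An eigenvector that is the first component of a triple in the kernel vanishes. -/
theorem eq_zero_of_sqSum_eq_zero_of_eigen {x y z : Coh1 (trivRep N k k)}
    (h : sqSum (trivRep N k k) q (x, y, z) = 0) {A : k} (hA : A ^ 2 ≠ ((ℓ : k) + 1) ^ 2)
    (hx : heckeOp _ ℓ x = A • x) : x = 0 := by
  have : NeZero ℓ := ⟨hℓ.out.ne_zero⟩
  have hℓN' : ¬ ℓ ∣ N := fun hd => absurd (Nat.le_of_dvd (NeZero.pos N) hd) (by omega)
  obtain ⟨c, rfl⟩ := toCoh_surjective _ x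
  obtain ⟨c', rfl⟩ := toCoh_surjective _ y
  obtain ⟨c'', rfl⟩ := toCoh_surjective _ z
  have heig : ∀ a b C d t : ℤ, mm a (ℓ * b) (ℓ * C) d ∈ Lvl N → a - d = ℓ * t →
      A * matFun c.1 (mm a (ℓ * b) (ℓ * C) d) = matFun c.1 (mm a (ℓ ^ 2 * b) C d) +
        ∑ i : Fin ℓ, matFun c.1 (mm (a + (i : ℕ) * ℓ * C) (b - (i : ℕ) * t - (i : ℕ) ^ 2 * C)
          (ℓ ^ 2 * C) (d - (i : ℕ) * ℓ * C)) := by
    intro a b C d t hmem hadt
    rw [heckeOp_toCoh, ← map_smul] at hx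
    rw [← matFun_hecke hℓN' c a b C d t hmem hadt,
      show (heckeData (trivRep N k k) ℓ).raw c.1 = A • c.1 from
        congrArg Subtype.val (toCoh_trivial_injective hx)]
    unfold matFun
    split <;> simp
  have H : IharaHyp N p q ℓ (matFun c.1) A :=
    { hp := hp.out, hq := hq.out, hqN := hqN, hℓ := hℓ.out, hℓN := hℓN, hℓp := hℓp, hℓq := hℓq,
      hℓ2 := hℓ2, npos := NeZero.pos N, hom := isHomOn_matFun c,
      translate := translate_of_rel₃ hq.out hqN (isHomOn_matFun c') (isHomOn_matFun c'')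
        fun a b C d hm => sqSum_eq_zero_apply h hm,
      eig := heig, hA := hA }
  rw [show c = 0 from Subtype.ext (funext fun g => by
    rw [← matFun_eq c.1 g (M := ((g : SL(2, ℤ)) : Mat)) rfl]
    exact H.eq_zero ⟨(g : SL(2, ℤ)).det_coe, (mem_Gamma0_iff_dvd _).mp g.2⟩), map_zero]

/-- First components, over an algebraically closed field. -/
theorem sq_ihara_fst_algClosed [IsAlgClosed k] {x y z : Coh1 (trivRep N k k)}
    (h : sqSum (trivRep N k k) q (x, y, z) = 0) :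
    ∃ n : ℕ, ((heckeOp (trivRep N k k) ℓ) ^ 2 - (((ℓ : k) + 1) ^ 2) • 1) ^ n • x = 0 := by
  have := finite_coh1 (trivRep N k k)
  let P : Submodule k (Coh1 (trivRep N k k)) :=
    (LinearMap.ker (sqSum (trivRep N k k) q)).map (LinearMap.fst k _ _)
  have hstab : ∀ v ∈ P, heckeOp _ ℓ v ∈ P := by
    rintro _ ⟨⟨a, b, c⟩, hv, rfl⟩
    exact ⟨(heckeOp _ ℓ a, heckeOp _ ℓ b, heckeOp _ ℓ c),
      sqSum_hecke (trivRep N k k) q hℓq hv, rfl⟩
  let T : Module.End k P := (heckeOp (trivRep N k k) ℓ).restrict hstab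
  have : Module.Finite k P := inferInstance
  let Q : Polynomial k := Polynomial.X ^ 2 - Polynomial.C (((ℓ : k) + 1) ^ 2)
  have hroot : ∀ A : k, (minpoly k T).IsRoot A → A ^ 2 = ((ℓ : k) + 1) ^ 2 := by
    intro A hA
    by_contra hne
    obtain ⟨⟨v, hvP⟩, hv⟩ := (Module.End.hasEigenvalue_of_isRoot hA).exists_hasEigenvector
    have hv' : heckeOp (trivRep N k k) ℓ v = A • v := congrArg Subtype.val hv.apply_eq_smul
    obtain ⟨⟨a, b, c⟩, habc, rfl⟩ := hvP
    exact hv.2 (Subtype.ext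
      (eq_zero_of_sqSum_eq_zero_of_eigen hqN hℓN hℓp hℓq hℓ2 habc hne hv'))
  have hdvd : minpoly k T ∣ Q ^ Multiset.card (minpoly k T).roots := by
    conv_lhs => rw [(IsAlgClosed.splits (minpoly k T)).eq_prod_roots_of_monic
      (minpoly.monic (Algebra.IsIntegral.isIntegral T))]
    rw [← Multiset.prod_replicate, ← Multiset.map_const']
    refine Multiset.prod_dvd_prod_of_dvd _ _ fun A hA => ?_
    rw [Polynomial.dvd_iff_isRoot, Polynomial.IsRoot]
    simp [Q, hroot A (Polynomial.isRoot_of_mem_roots hA)]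
  obtain ⟨F, hF⟩ := hdvd
  set n := Multiset.card (minpoly k T).roots
  refine ⟨n, ?_⟩
  have hzero : (T ^ 2 - (((ℓ : k) + 1) ^ 2) • 1) ^ n = 0 := by
    have := congrArg (Polynomial.aeval T) hF
    rw [map_mul (Polynomial.aeval T)] at this
    erw [minpoly.aeval k T] at this
    rw [zero_mul, map_pow] at this
    rw [← this]
    simp only [Q, map_sub, map_pow, Polynomial.aeval_X, Polynomial.aeval_C,
      Algebra.algebraMap_eq_smul_one, smul_pow, one_pow]
  have hpow : ∀ (m : ℕ) (v : P),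
      ((((T ^ 2 - (((ℓ : k) + 1) ^ 2) • 1) ^ m : Module.End k P) v : P) : Coh1 (trivRep N k k)) =
        (((heckeOp (trivRep N k k) ℓ) ^ 2 - (((ℓ : k) + 1) ^ 2) • 1) ^ m :
          Module.End k (Coh1 (trivRep N k k))) (v : Coh1 (trivRep N k k)) := by
    intro m
    induction m with
    | zero => intro v; rfl
    | succ m ih =>
      intro v
      rw [pow_succ, Module.End.mul_apply, ih, pow_succ _ m, Module.End.mul_apply]
      rfl
  have hx := hpow n ⟨x, ⟨(x, y, z), h, rfl⟩⟩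
  rw [hzero] at hx
  exact hx.symm

omit hqN hℓN hℓp hℓ2 p hp [NeZero N] in
lemma sqSum_pow (n : ℕ) {x y z : Coh1 (trivRep N k k)}
    (h : sqSum (trivRep N k k) q (x, y, z) = 0) :
    sqSum (trivRep N k k) q
      (iharaElt k ℓ ^ n • x, iharaElt k ℓ ^ n • y, iharaElt k ℓ ^ n • z) = 0 := by
  simp only [iharaElt_pow_smul]
  set R := heckeOp (trivRep N k k) ℓ ^ 2 - (((ℓ : k) + 1) ^ 2) • 1
  induction n with
  | zero => exact h
  | succ n ih =>
    have h2 := sqSum_hecke (trivRep N k k) q hℓq (sqSum_hecke (trivRep N k k) q hℓq ih)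
    have h3 : sqSum (trivRep N k k) q ((R ^ (n + 1)) x, (R ^ (n + 1)) y, (R ^ (n + 1)) z)
        = sqSum (trivRep N k k) q
          ((heckeOp _ ℓ (heckeOp _ ℓ ((R ^ n) x)), heckeOp _ ℓ (heckeOp _ ℓ ((R ^ n) y)),
            heckeOp _ ℓ (heckeOp _ ℓ ((R ^ n) z)))
          - (((ℓ : k) + 1) ^ 2) • ((R ^ n) x, (R ^ n) y, (R ^ n) z)) := by
      simp only [pow_succ' R, Module.End.mul_apply]
      rfl
    rw [h3, map_sub, map_smul, h2, ih, smul_zero, sub_zero]

omit hqN hℓN hℓp hℓq hℓ2 p hp [NeZero N] hℓ hq in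
lemma extendScalars_degen {K : Type uO} [Field K] (f : k →+ K) {M : ℕ} {d : ℕ} (hd : d ≠ 0)
    (h : d * M ∣ q * M) (σ : Representation k (ZMod M)ˣ k) (σ' : Representation K (ZMod M)ˣ K)
    (c : Gamma0 M → k) :
    (degenData σ' hd h).raw (fun g => f (c g)) = fun γ => f ((degenData σ hd h).raw c γ) := by
  funext γ
  obtain ⟨g, hg, -⟩ := exists_conjDegen hd h γ
  rw [degenData_raw_apply σ' hd h _ γ hg, degenData_raw_apply σ hd h _ γ hg]

omit hqN hℓN hℓp hℓq hℓ2 p hp [NeZero N] hℓ in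
omit hq in
lemma extendScalars_degen₂ {K : Type uO} [Field K] (f : k →+ K) {d d' : ℕ} (hd : d ≠ 0)
    (hd' : d' ≠ 0) (h : d * N ∣ q * N) (h' : d' * (q * N) ∣ q * (q * N))
    (σ : Representation k (ZMod N)ˣ k) (σ' : Representation K (ZMod N)ˣ K)
    (c : Gamma0 N → k) (γ : Gamma0 (q * (q * N))) :
    (degenData (pullRep σ' (dvd_of_mul_left_dvd h)) hd' h').raw
        ((degenData σ' hd h).raw fun g => f (c g)) γ =
      f ((degenData (pullRep σ (dvd_of_mul_left_dvd h)) hd' h').raw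
        ((degenData σ hd h).raw c) γ) := by
  rw [extendScalars_degen f hd h σ σ',
    extendScalars_degen f hd' h' (pullRep σ (dvd_of_mul_left_dvd h))]

/-- **Ihara's lemma for three degeneracy maps**: triples in the kernel of
`(x, y, z) ↦ D_1 x + D_q y + D_{q²} z` are killed by a power of `X_ℓ² - (ℓ+1)²`. -/
theorem sq_ihara (hqp : q ≠ p) {x y z : Coh1 (trivRep N k k)}
    (h : sqSum (trivRep N k k) q (x, y, z) = 0) :
    ∃ n : ℕ, iharaElt k ℓ ^ n • x = 0 ∧ iharaElt k ℓ ^ n • y = 0 ∧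
      iharaElt k ℓ ^ n • z = 0 := by
  have : NeZero ℓ := ⟨hℓ.out.ne_zero⟩
  let K := AlgebraicClosure k
  have : CharP K p := charP_of_injective_algebraMap (algebraMap k K).injective p
  let f : k →+ K := (algebraMap k K).toAddMonoidHom
  choose pre hpre using toCoh_surjective (trivRep N k k)
  let Φ : Coh1 (trivRep N k k) → Coh1 (trivRep N K K) := fun u =>
    toCoh _ (extendScalars f (pre u))
  have hΦ : ∀ c, Φ (toCoh _ c) = toCoh _ (extendScalars f c) := fun c => by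
    show toCoh _ (extendScalars f (pre (toCoh _ c))) = _
    rw [toCoh_trivial_injective (hpre (toCoh _ c))]
  have hΦinj : ∀ u, Φ u = 0 → u = 0 := fun u hu => by
    obtain ⟨c, rfl⟩ := toCoh_surjective _ u
    rw [hΦ] at hu
    rw [show c = 0 from Subtype.ext (funext fun g => (algebraMap k K).injective (by
      rw [Submodule.coe_zero, Pi.zero_apply, map_zero]
      exact toCoh_trivial_eq_zero _ (fun _ => rfl) hu g)), map_zero]
  have hΦT : ∀ u, Φ (heckeOp _ ℓ u) = heckeOp _ ℓ (Φ u) := fun u => by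
    obtain ⟨c, rfl⟩ := toCoh_surjective _ u
    rw [heckeOp_toCoh, hΦ, hΦ, heckeOp_toCoh, extendScalars_hecke]
  have hΦlin : ∀ (r : k) u v, Φ (u - r • v) = Φ u - algebraMap k K r • Φ v := fun r u v => by
    obtain ⟨c, rfl⟩ := toCoh_surjective _ u
    obtain ⟨d, rfl⟩ := toCoh_surjective _ v
    rw [← map_smul, ← map_sub, hΦ, hΦ, hΦ, ← map_smul, ← map_sub]
    refine congrArg _ (Subtype.ext (funext fun g => ?_))
    show algebraMap k K (c.1 g - r * d.1 g) = algebraMap k K (c.1 g) - algebraMap k K r * _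
    rw [map_sub, map_mul]
    rfl
  obtain ⟨c, rfl⟩ := toCoh_surjective _ x
  obtain ⟨c', rfl⟩ := toCoh_surjective _ y
  obtain ⟨c'', rfl⟩ := toCoh_surjective _ z
  have hK : sqSum (trivRep N K K) q (toCoh _ (extendScalars f c), toCoh _ (extendScalars f c'),
      toCoh _ (extendScalars f c'')) = 0 := by
    rw [sqSum_apply, sqOne, sqMid, sqTop] at h ⊢
    simp only [LinearMap.comp_apply, degenOne, degenUp, degen_toCoh, ← map_add] at h ⊢
    rw [toCoh_eq_zero_iff]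
    refine ⟨0, fun γ => ?_⟩
    rw [map_zero, sub_zero]
    have h0 := congrArg f (toCoh_trivial_eq_zero _ (fun _ => rfl) h γ)
    rw [map_zero] at h0
    refine Eq.trans ?_ h0
    simp only [Submodule.coe_add, Pi.add_apply, map_add]
    refine congrArg₂ (· + ·) ?_ (congrArg₂ (· + ·) ?_ ?_)
    all_goals exact extendScalars_degen₂ f _ _ _ _ (trivRep N k k) (trivRep N K K) _ γ
  obtain ⟨n, hn⟩ := sq_ihara_fst_algClosed hqN hℓN hℓp hℓq hℓ2 hK
  have key : ∀ (m : ℕ) u, Φ (iharaElt k ℓ ^ m • u) =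
      ((heckeOp (trivRep N K K) ℓ ^ 2 - (((ℓ : K) + 1) ^ 2) • 1) ^ m :
        Module.End K (Coh1 (trivRep N K K))) (Φ u) := by
    intro m
    induction m with
    | zero => intro u; rw [pow_zero, one_smul]; rfl
    | succ m ih =>
      intro u
      rw [pow_succ, mul_smul, ih, pow_succ _ m, Module.End.mul_apply]
      refine congrArg _ ?_
      rw [← pow_one (iharaElt k ℓ), iharaElt_pow_smul, pow_one]
      simp only [LinearMap.sub_apply, LinearMap.smul_apply, Module.End.one_apply, pow_two,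
        Module.End.mul_apply, hΦlin, hΦT]
      simp
  rw [← hΦ] at hn
  have hx := hΦinj _ ((key n _).trans hn)
  have h' := sqSum_pow hℓq n h
  rw [hx] at h'
  obtain ⟨m, hm2, hm3⟩ := ihara hqN hℓN hℓp hℓq hℓ2 (degenSum_eq_zero_of_sqSum hqp h')
  refine ⟨m + n, ?_, ?_, ?_⟩
  · rw [pow_add, mul_smul, hx, smul_zero]
  · rw [pow_add, mul_smul, hm2]
  · rw [pow_add, mul_smul, hm3]

end Field

end Fermat.Agent.HeckeModule
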