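import Fermat.Agent.TwoAdic.Scalar.Raise

/-!
Ihara's lemma and its dual for the raising and lowering maps between levels `N` and `q²N`, over a
field of characteristic `p ≠ q`.
-/

set_option autoImplicit false

open CongruenceSubgroup Matrix.SpecialLinearGroup
open scoped MatrixGroups

universe uO

namespace Fermat.Agent.HeckeModule

open HeckeJ0 LevelRaising

variable {N : ℕ} [NeZero N] {k : Type uO} [Field k] {p : ℕ} [CharP k p] [hp : Fact p.Prime]
  {q ℓ : ℕ} [hq : Fact q.Prime] [hℓ : Fact ℓ.Prime] (hqN : ¬ q ∣ N) (hℓN : N < ℓ) (hℓp : ℓ ≠ p)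
  (hℓq : ℓ ≠ q) (hℓ2 : ℓ ≠ 2) (hqp : q ≠ p)
include hqN hℓN hℓp hℓq hℓ2 hqp

/-- Classes killed by the raising map are killed by a power of `X_ℓ² - (ℓ+1)²`. -/
theorem exists_pow_smul_of_sqRaise {x : Coh1 (trivRep N k k)}
    (h : sqRaise (q := q) (trivRep N k k) x = 0) : ∃ n : ℕ, iharaElt k ℓ ^ n • x = 0 := by
  have h' : sqSum (trivRep N k k) q
      ((q : k) • x, -heckeOp (trivRep N k k) q x, x) = 0 := by
    rw [sqSum_apply, map_smul, map_neg, ← h, sqRaise_apply]
    abel
  obtain ⟨n, -, -, hn⟩ := sq_ihara (p := p) hqN hℓN hℓp hℓq hℓ2 hqp h'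
  exact ⟨n, hn⟩

variable {r : ℕ} [hr : Fact r.Prime]

omit hℓN hℓp hℓq hℓ2 hqp [CharP k p] hp hℓ hr in
/-- The lowering map on intersection classes. -/
theorem sqLower_interClass (v : Vec) :
    sqLower (trivRep N k k) hqN (interClass (N := q * (q * N)) k v) =
      interClass k v - heckeOp (trivRep N k k) q (interClass k (diagVec q v))
        + (q : k) • interClass k (diagVec q (diagVec q v)) := by
  have a : stepTrace (dvd_mul_right q N) (pullRep (trivRep N k k) (dvd_mul_left N q))
      (interClass (N := q * (q * N)) k v) = interClass (N := q * N) k v :=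
    stepTrace_interClass k (dvd_mul_right q N) v
  have b : stepTraceTwist (dvd_mul_right q N) (pullRep (trivRep N k k) (dvd_mul_left N q))
      (interClass (N := q * (q * N)) k v) = interClass (N := q * N) k (diagVec q v) :=
    stepTraceTwist_interClass k (dvd_mul_right q N) v
  have c : ∀ w : Vec, trace (trivRep N k k) hqN (interClass (N := q * N) k w) = interClass k w :=
    fun w => traceOne_interClass (q := q) k hqN w
  have d : ∀ w : Vec, traceTwist (trivRep N k k) hqN (interClass (N := q * N) k w) =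
      interClass k (diagVec q w) := fun w => traceDeg_interClass (q := q) k hqN w
  refine (sqLower_apply (trivRep N k k) hqN _).trans ?_
  rw [a, b]
  exact congrArg₂ (· + ·) (congrArg₂ (· - ·) (c v) (congrArg _ (d v)))
    (congrArg _ (d (diagVec q v)))

/-- **Dual Ihara lemma for the lowering map**: every class, multiplied by powers of the
non-Eisenstein elements at `ℓ` and `r`, is a lowered class. -/
theorem exists_sqLower_eq (hN : Liftable k N) (hr1 : (r : ZMod N) = 1) :
    ∃ n : ℕ, ∀ x : Coh1 (trivRep N k k), ∃ z, sqLower (q := q) (trivRep N k k) hqN z =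
      (iharaElt k ℓ ^ n * eisen k r) • x := by
  have hℓN' : ¬ ℓ ∣ N := fun hd => absurd (Nat.le_of_dvd (NeZero.pos N) hd) (by omega)
  have := finite_coh1 (trivRep N k k)
  let T : Module.End k (Coh1 (trivRep N k k)) := heckeOp _ ℓ ^ 2 - (((ℓ : k) + 1) ^ 2) • 1
  let K : Submodule k (Coh1 (trivRep N k k)) :=
    LinearMap.ker (sqSum (trivRep N k k) q ∘ₗ
      ((LinearMap.id).prod ((-heckeOp (trivRep N k k) q).prod ((q : k) • LinearMap.id))))
  obtain ⟨m, v, hv⟩ := Module.Finite.exists_fin (R := k) (M := K)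
  choose nf hnf using fun i => sq_ihara (p := p) (ℓ := ℓ) hqN hℓN hℓp hℓq hℓ2 hqp
    (show sqSum (trivRep N k k) q ((v i : Coh1 (trivRep N k k)),
      -heckeOp (trivRep N k k) q (v i : Coh1 (trivRep N k k)),
      (q : k) • (v i : Coh1 (trivRep N k k))) = 0 from (v i).2)
  let n := Finset.univ.sup nf
  have hKill : ∀ u : K, iharaElt k ℓ ^ n • (u : Coh1 (trivRep N k k)) = 0 := by
    intro u
    have hu : u ∈ Submodule.span k (Set.range v) := hv ▸ Submodule.mem_top
    induction hu using Submodule.span_induction with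
    | mem x hx =>
      obtain ⟨i, rfl⟩ := hx
      have hle : nf i ≤ n := Finset.le_sup (Finset.mem_univ i)
      rw [show iharaElt k ℓ ^ n = iharaElt k ℓ ^ (n - nf i) * iharaElt k ℓ ^ nf i by
        rw [← pow_add, Nat.sub_add_cancel hle], mul_smul, (hnf i).1, smul_zero]
    | zero => simp
    | add x y _ _ hx hy => simp [hx, hy]
    | smul a x _ hx => simp [smul_comm _ a, hx]
  refine ⟨n, fun x => ?_⟩
  suffices hmem : (iharaElt k ℓ ^ n * eisen k r) • x ∈
      LinearMap.range (sqLower (q := q) (trivRep N k k) hqN) by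
    exact LinearMap.mem_range.mp hmem
  rw [← Subspace.dualAnnihilator_dualCoannihilator_eq
      (W := LinearMap.range (sqLower (q := q) (trivRep N k k) hqN)),
    Submodule.mem_dualCoannihilator]
  intro φ hφ
  set φT := φ ∘ₗ heckeOp (trivRep N k k) q with hφT
  have hrel : ∀ v : Vec, dualSymbol k φ v - dualSymbol k φT (diagVec q v)
      + (q : k) * dualSymbol k φ (diagVec q (diagVec q v)) = 0 := fun v => by
    have h := (Submodule.mem_dualAnnihilator φ).mp hφ _ ⟨interClass (N := q * (q * N)) k v, rfl⟩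
    erw [sqLower_interClass hqN, map_add, map_sub, map_smul] at h
    exact h
  have hmem : dualClass k φ ∈ K := by
    show sqSum (trivRep N k k) q (dualClass k φ, -heckeOp (trivRep N k k) q (dualClass k φ),
      (q : k) • dualClass k φ) = 0
    rw [← dualClass_comp_heckeOp k hqN φ, ← hφT, sqSum_apply, ← map_neg (dualClass k),
      ← map_smul (dualClass k)]
    show sqOne _ q (toCoh _ (dualCocycle k φ)) + (sqMid _ q (toCoh _ (dualCocycle k (-φT)))
      + sqTop _ q (toCoh _ (dualCocycle k ((q : k) • φ)))) = 0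
    simp only [sqOne, sqMid, sqTop, LinearMap.comp_apply, degenOne, degenUp, degen_toCoh, ← map_add]
    rw [toCoh_eq_zero_iff]
    refine ⟨0, fun γ => ?_⟩
    rw [map_zero, sub_zero]
    obtain ⟨g, hg, -, g00, -, g10⟩ := exists_conjDegen (N := q * N) (N' := q * (q * N))
      one_ne_zero (by rw [one_mul]; exact dvd_mul_left _ q) γ
    obtain ⟨g', hg', -, g'00, -, g'10⟩ :=
      exists_conjDegen (N := q * N) hq.out.ne_zero (dvd_rfl (a := q * (q * N))) γ
    obtain ⟨h1, hh1, -, h100, -, h110⟩ := exists_conjDegen (N := N) (N' := q * N) one_ne_zero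
      (by rw [one_mul]; exact dvd_mul_left N q) g
    obtain ⟨h2, hh2, -, h200, -, h210⟩ :=
      exists_conjDegen (N := N) hq.out.ne_zero (dvd_rfl (a := q * N)) g
    obtain ⟨h3, hh3, -, h300, -, h310⟩ :=
      exists_conjDegen (N := N) hq.out.ne_zero (dvd_rfl (a := q * N)) g'
    have ev : ∀ (ψ : Coh1 (trivRep N k k) →ₗ[k] k) (h : Gamma0 N),
        (dualCocycle k ψ).1 h = dualSymbol k ψ (act ((h : SL(2, ℤ)) : Mat) vE) := fun _ _ => rfl
    have hq0 : (q : ℤ) ≠ 0 := by exact_mod_cast hq.out.ne_zero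
    rw [Nat.cast_one, one_mul] at g10 h110
    have a2 : diagVec q (act ((γ : SL(2, ℤ)) : Mat) vE)
        = (q : ℤ) • act ((h2 : SL(2, ℤ)) : Mat) vE := by
      simp only [act_vE, diagVec, Prod.smul_mk, smul_eq_mul]
      rw [h200, g00, ← g10, ← h210]
    have a3 : diagVec q (diagVec q (act ((γ : SL(2, ℤ)) : Mat) vE))
        = ((q : ℤ) * q) • act ((h3 : SL(2, ℤ)) : Mat) vE := by
      simp only [act_vE, diagVec, Prod.smul_mk, smul_eq_mul]
      rw [h300, g'00, ← g'10, ← h310, mul_assoc, mul_assoc]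
    have a1 : act ((γ : SL(2, ℤ)) : Mat) vE = act ((h1 : SL(2, ℤ)) : Mat) vE := by
      simp only [act_vE]
      rw [h100, g00, h110, g10]
    have h := hrel (act ((γ : SL(2, ℤ)) : Mat) vE)
    rw [a3, a2, (isSym_dualSymbol k φT).homog _ hq0,
      (isSym_dualSymbol k φ).homog _ (mul_ne_zero hq0 hq0), a1] at h
    rw [Submodule.coe_add, Submodule.coe_add, Pi.add_apply, Pi.add_apply]
    have e1 := (degenData_raw_apply (pullRep (trivRep N k k) (dvd_mul_left N q)) (N' := q * (q * N))
      one_ne_zero (by rw [one_mul]; exact dvd_mul_left _ q)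
      ((degenData (trivRep N k k) (N' := q * N) one_ne_zero
        (by rw [one_mul]; exact dvd_mul_left N q)).raw (dualCocycle k φ).1) γ hg).trans
      (degenData_raw_apply (trivRep N k k) one_ne_zero (by rw [one_mul]; exact dvd_mul_left N q)
        (dualCocycle k φ).1 g hh1)
    have e2 := (degenData_raw_apply (pullRep (trivRep N k k) (dvd_mul_left N q)) (N' := q * (q * N))
      one_ne_zero (by rw [one_mul]; exact dvd_mul_left _ q)
      ((degenData (trivRep N k k) (N' := q * N) hq.out.ne_zero dvd_rfl).raw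
        (dualCocycle k (-φT)).1) γ hg).trans
      (degenData_raw_apply (trivRep N k k) hq.out.ne_zero dvd_rfl (dualCocycle k (-φT)).1 g hh2)
    have e3 := (degenData_raw_apply (pullRep (trivRep N k k) (dvd_mul_left N q)) (N' := q * (q * N))
      hq.out.ne_zero dvd_rfl
      ((degenData (trivRep N k k) (N' := q * N) hq.out.ne_zero dvd_rfl).raw
        (dualCocycle k ((q : k) • φ)).1) γ hg').trans
      (degenData_raw_apply (trivRep N k k) hq.out.ne_zero dvd_rfl
        (dualCocycle k ((q : k) • φ)).1 g' hh3)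
    refine (congrArg₂ (· + ·) e1 (congrArg₂ (· + ·) e2 e3)).trans ?_
    rw [ev, ev, ev]
    simp only [dualSymbol, LinearMap.neg_apply, LinearMap.smul_apply, smul_eq_mul] at h ⊢
    linear_combination h
  have hpow : dualClass k (φ ∘ₗ T ^ n) = 0 := by
    have hk1 := hKill ⟨_, hmem⟩
    rw [dualClass_comp_pow k hℓN']
    rw [iharaElt_pow_smul] at hk1
    exact hk1
  rw [mul_smul, iharaElt_pow_smul, eisen_smul]
  exact LinearMap.congr_fun (comp_eisen_eq_zero k hN (r := r) hr1 hpow) x

end Fermat.Agent.HeckeModule
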