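import Fermat.Agent.HeckeModule.LevelFree
import Fermat.Agent.TwoAdic.Scalar.SquareIhara
import Fermat.Agent.TwoAdic.Scalar.LocRaise

/-!
Over a complete local ring the localised raising map between levels `N` and `q²N` is split
injective and the lowering map is surjective.
-/

set_option autoImplicit false

open CongruenceSubgroup IsLocalRing

namespace Fermat.Agent.HeckeModule

open TwoAdic

section Natural

variable {O : Type} [CommRing O] {A : Type} [AddCommGroup A] [Module O A]
  {B : Type} [AddCommGroup B] [Module O B] {N q : ℕ} [hq : Fact q.Prime]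
  {ρA : Representation O (ZMod N)ˣ A} {ρB : Representation O (ZMod N)ˣ B} (f : A →ₗ[O] B)
  (hf : IsIntertwining ρA ρB f) (hf' : IsIntertwining (sqRep ρA q) (sqRep ρB q) f)

omit hq in
/-- The intertwining property at level `qN`. -/
lemma isIntertwining_pull (hf : IsIntertwining ρA ρB f) :
    IsIntertwining (pullRep ρA (dvd_mul_left N q)) (pullRep ρB (dvd_mul_left N q)) f :=
  fun _ _ => hf _ _

/-- The raising map commutes with maps of coefficients. -/
theorem cohMapO_sqRaise (u : Coh1 ρA) :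
    cohMapO f hf' (sqRaise (q := q) ρA u) = sqRaise (q := q) ρB (cohMapO f hf u) := by
  have : NeZero q := ⟨hq.out.ne_zero⟩
  have hg := isIntertwining_pull (q := q) f hf
  have a1 : ∀ u, cohMapO f hg (degenOne ρA q u) = degenOne ρB q (cohMapO f hf u) := fun u =>
    cohMapO_onH1 f hf hg (degenData ρA one_ne_zero _) (degenData ρB one_ne_zero _) (fun _ => rfl)
      (fun _ _ => rfl) u
  have a2 : ∀ u, cohMapO f hg (degenUp ρA q u) = degenUp ρB q (cohMapO f hf u) := fun u =>
    cohMapO_onH1 f hf hg (degenData ρA hq.out.ne_zero _) (degenData ρB hq.out.ne_zero _)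
      (fun _ => rfl) (fun _ _ => rfl) u
  have b1 : ∀ u, cohMapO f hf' (degenOne (pullRep ρA (dvd_mul_left N q)) q u)
      = degenOne (pullRep ρB (dvd_mul_left N q)) q (cohMapO f hg u) := fun u =>
    cohMapO_onH1 f hg hf' (degenData _ one_ne_zero _) (degenData _ one_ne_zero _) (fun _ => rfl)
      (fun _ _ => rfl) u
  have b2 : ∀ u, cohMapO f hf' (degenUp (pullRep ρA (dvd_mul_left N q)) q u)
      = degenUp (pullRep ρB (dvd_mul_left N q)) q (cohMapO f hg u) := fun u =>
    cohMapO_onH1 f hg hf' (degenData _ hq.out.ne_zero _) (degenData _ hq.out.ne_zero _)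
      (fun _ => rfl) (fun _ _ => rfl) u
  simp only [sqRaise_apply, sqOne, sqMid, sqTop, LinearMap.comp_apply, map_add, map_sub, map_smul,
    b1, b2, a1, a2, cohMapO_heckeOp f hf]

variable [NeZero N] (hqN : ¬ q ∣ N)

/-- The lowering map commutes with maps of coefficients. -/
theorem cohMapO_sqLower (y : Coh1 (sqRep ρA q)) :
    cohMapO f hf (sqLower ρA hqN y) = sqLower ρB hqN (cohMapO f hf' y) := by
  have : NeZero q := ⟨hq.out.ne_zero⟩
  have hg := isIntertwining_pull (q := q) f hf
  have a1 : ∀ u, cohMapO f hf (trace ρA hqN u) = trace ρB hqN (cohMapO f hg u) := fun u =>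
    cohMapO_onH1 f hg hf (traceData ρA hqN) (traceData ρB hqN) (fun _ => rfl) (fun _ _ => rfl) u
  have a2 : ∀ u, cohMapO f hf (traceTwist ρA hqN u) = traceTwist ρB hqN (cohMapO f hg u) :=
    fun u => cohMapO_onH1 f hg hf (traceTwistData ρA hqN) (traceTwistData ρB hqN) (fun _ => rfl)
      (fun _ _ => rfl) u
  have b1 : ∀ u, cohMapO f hg (stepTrace (dvd_mul_right q N) (pullRep ρA (dvd_mul_left N q)) u)
      = stepTrace (dvd_mul_right q N) (pullRep ρB (dvd_mul_left N q)) (cohMapO f hf' u) := fun u =>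
    cohMapO_onH1 f hf' hg (stepData (dvd_mul_right q N) (pullRep ρA _))
      (stepData (dvd_mul_right q N) (pullRep ρB _)) (fun _ => rfl) (fun _ _ => rfl) u
  have b2 : ∀ u,
      cohMapO f hg (stepTraceTwist (dvd_mul_right q N) (pullRep ρA (dvd_mul_left N q)) u)
      = stepTraceTwist (dvd_mul_right q N) (pullRep ρB (dvd_mul_left N q)) (cohMapO f hf' u) :=
    fun u => cohMapO_onH1 f hf' hg (stepDegData (dvd_mul_right q N) (pullRep ρA _))
      (stepDegData (dvd_mul_right q N) (pullRep ρB _)) (fun _ => rfl) (fun _ _ => rfl) u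
  simp only [sqLower_apply, map_add, map_sub, map_smul, b1, b2, a1, a2, cohMapO_heckeOp f hf]

variable {S : Set ℕ} (hS : q ∈ S)
  (m : Ideal (AwayPoly O S)) [m.IsPrime]

omit [NeZero N] in
/-- The localised raising map commutes with maps of coefficients. -/
theorem locMap_sqRaiseLoc (x : CohLoc (awayMonoid m) ρA) :
    locMap (awayMonoid (sqIdeal m q)) f hf' (sqRaiseLoc hS m ρA x)
      = sqRaiseLoc hS m ρB (locMap (awayMonoid m) f hf x) := by
  induction x using LocalizedModule.induction_on with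
  | _ u s =>
    rw [sqRaiseLoc_mk, locMap_mk, locMap_mk, sqRaiseLoc_mk]
    exact congrArg (LocalizedModule.mk · _) (cohMapO_sqRaise f hf hf' u)

/-- The localised lowering map commutes with maps of coefficients. -/
theorem locMap_sqLowerLoc (hρA : ∀ u, ρA u = 1) (hρB : ∀ u, ρB u = 1)
    (y : CohLoc (awayMonoid (sqIdeal m q)) (sqRep ρA q)) :
    locMap (awayMonoid m) f hf (sqLowerLoc hS m hρA hqN y)
      = sqLowerLoc hS m hρB hqN (locMap (awayMonoid (sqIdeal m q)) f hf' y) := by
  induction y using LocalizedModule.induction_on with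
  | _ v t =>
    obtain ⟨a, ha, hat⟩ := t.2
    refine (sqHom_bijective (ρ := ρB) m a ha).1 ?_
    rw [polyEnd_apply, polyEnd_apply, ← map_smul,
      sqLowerLoc_mk hS m hρA hqN v t (show awayIncl O (S \ {q}) a = (t : HeckePoly O) from hat),
      locMap_mk, locMap_mk,
      sqLowerLoc_mk hS m hρB hqN _ t (show awayIncl O (S \ {q}) a = (t : HeckePoly O) from hat),
      ]
    exact congrArg (LocalizedModule.mk · 1) (cohMapO_sqLower f hf hf' hqN v)

end Natural

section Residual

variable {O : Type} [CommRing O] {k : Type} [Field k] [Algebra O k]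
  {p : ℕ} [CharP k p] [hp : Fact p.Prime] {N q : ℕ} [NeZero N] [hq : Fact q.Prime] {S : Set ℕ}
  (hS : q ∈ S) (m : Ideal (AwayPoly O S)) [m.IsPrime]
  {χ : (ZMod N)ˣ →* O} (hχ : ∀ u, algebraMap O k (χ u) = 1) (hqN : ¬ q ∣ N) (hqp : q ≠ p)
  (H : IharaPrimes (awayMonoid m) N q p)

omit [NeZero N] in
include hχ in
lemma scalarRep_triv (u : (ZMod N)ˣ) : scalarRep χ k u = 1 :=
  LinearMap.ext fun a => scalarRep_eq_triv hχ u a

include hS hχ hqN in
/-- The raising map on classes is equivariant. -/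
lemma awayIncl_smul_sqRaise (a : AwayPoly O (S \ {q})) (u : Coh1 (scalarRep χ k)) :
    awayIncl O (S \ {q}) a • sqRaise (q := q) (scalarRep χ k) u
      = sqRaise (q := q) (scalarRep χ k) (sqHom O S q a • u) := by
  induction a using MvPolynomial.induction_on generalizing u with
  | C r => rw [← MvPolynomial.algebraMap_eq, AlgHom.commutes, AlgHom.commutes, algebraMap_smul,
      algebraMap_smul, map_smul]
  | add p p' hp hp' => rw [map_add, map_add, add_smul, add_smul, map_add, hp, hp']
  | mul_X p l hp =>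
    rw [map_mul, map_mul, mul_smul, mul_smul, ← hp]
    congr 1
    have : Fact ((l : Nat.Primes) : ℕ).Prime := ⟨(l : Nat.Primes).2⟩
    rw [awayIncl_X]
    rcases sqHom_X (O := O) (S := S) l with ⟨hl, h0, -⟩ | ⟨hl, hX⟩
    · rw [show (l : Nat.Primes) = ⟨q, hq.out⟩ from Subtype.ext hl, X_smul,
        heckeOp_eq_uOp (ρ := sqRep (scalarRep χ k) q) (fun u => scalarRep_triv hχ _)
          (dvd_mul_right q (q * N)), sqU_sqRaise (scalarRep_triv hχ) hqN, h0, zero_smul, map_zero]
    · rw [hX]
      exact (X_smul _ _ _).trans ((sqRaise_heckeOp_ne _ (fun h => hl (by rw [h]; exact hS)) u).symm.trans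
        (congrArg _ (X_smul _ _ u).symm))

omit [NeZero N] in
include hχ in
lemma sameCoh_sqRaise (u : Coh1 (scalarRep χ k)) :
    sameCoh (ρ := sqRep (trivRep N k k) q) (ρ' := sqRep (scalarRep χ k) q)
        (fun _ a => scalarRep_eq_triv hχ _ a) (sqRaise (q := q) (scalarRep χ k) u)
      = sqRaise (q := q) (trivRep N k k) (sameCoh (scalarRep_eq_triv hχ) u) := by
  have hsm : ∀ (r : O) (a : k), r • a = algebraMap O k r • a := fun r a => Algebra.smul_def r a
  have hh := scalarRep_eq_triv (k := k) hχ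
  have hh' : ∀ (w : (ZMod (q * N))ˣ) (a : k), pullRep (scalarRep χ k) (dvd_mul_left N q) w a
      = pullRep (trivRep N k k) (dvd_mul_left N q) w a := fun _ a => hh _ a
  set hh2 : ∀ (w : (ZMod (q * (q * N)))ˣ) (a : k), sqRep (scalarRep χ k) q w a
      = sqRep (trivRep N k k) q w a := fun _ a => hh _ a
  have c1 : ∀ u, sameCoh hh' (degenOne (scalarRep χ k) q u)
      = degenOne (trivRep N k k) q (sameCoh hh u) := fun u => sameCoh_degen hh one_ne_zero _ u
  have c2 : ∀ u, sameCoh hh' (degenUp (scalarRep χ k) q u)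
      = degenUp (trivRep N k k) q (sameCoh hh u) := fun u => sameCoh_degen hh hq.out.ne_zero _ u
  have d1 : ∀ u, sameCoh hh2 (degenOne (pullRep (scalarRep χ k) (dvd_mul_left N q)) q u)
      = degenOne (pullRep (trivRep N k k) (dvd_mul_left N q)) q (sameCoh hh' u) := fun u =>
    sameCoh_degen hh' one_ne_zero _ u
  have d2 : ∀ u, sameCoh hh2 (degenUp (pullRep (scalarRep χ k) (dvd_mul_left N q)) q u)
      = degenUp (pullRep (trivRep N k k) (dvd_mul_left N q)) q (sameCoh hh' u) := fun u =>
    sameCoh_degen hh' hq.out.ne_zero _ u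
  simp only [sqRaise_apply, sqOne, sqMid, sqTop, LinearMap.comp_apply, map_add, map_sub,
    sameCoh_smul hh2 hsm, map_natCast, d1, d2, c1, c2, sameCoh_heckeOp hh]

include hχ in
lemma sameCoh_sqLower (y : Coh1 (sqRep (scalarRep χ k) q)) :
    sameCoh (scalarRep_eq_triv hχ) (sqLower (scalarRep χ k) hqN y)
      = sqLower (trivRep N k k) hqN (sameCoh (ρ := sqRep (trivRep N k k) q)
        (ρ' := sqRep (scalarRep χ k) q) (fun _ a => scalarRep_eq_triv hχ _ a) y) := by
  have hsm : ∀ (r : O) (a : k), r • a = algebraMap O k r • a := fun r a => Algebra.smul_def r a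
  have hh := scalarRep_eq_triv (k := k) hχ
  have hh' : ∀ (w : (ZMod (q * N))ˣ) (a : k), pullRep (scalarRep χ k) (dvd_mul_left N q) w a
      = pullRep (trivRep N k k) (dvd_mul_left N q) w a := fun _ a => hh _ a
  have b1 : ∀ u, sameCoh hh' (stepTrace (dvd_mul_right q N)
      (pullRep (scalarRep χ k) (dvd_mul_left N q)) u) = stepTrace (dvd_mul_right q N)
        (pullRep (trivRep N k k) (dvd_mul_left N q)) (sameCoh (ρ := sqRep (trivRep N k k) q)
          (ρ' := sqRep (scalarRep χ k) q) (fun _ a => scalarRep_eq_triv hχ _ a) u) := fun u =>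
    sameH1_onH1 _ _ toGL_injective (stepData (dvd_mul_right q N) (pullRep (scalarRep χ k) _))
      (stepData (dvd_mul_right q N) (pullRep (trivRep N k k) _)) (fun _ => rfl) (fun _ _ => rfl) u
  have b2 : ∀ u, sameCoh hh' (stepTraceTwist (dvd_mul_right q N)
      (pullRep (scalarRep χ k) (dvd_mul_left N q)) u) = stepTraceTwist (dvd_mul_right q N)
        (pullRep (trivRep N k k) (dvd_mul_left N q)) (sameCoh (ρ := sqRep (trivRep N k k) q)
          (ρ' := sqRep (scalarRep χ k) q) (fun _ a => scalarRep_eq_triv hχ _ a) u) := fun u =>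
    sameH1_onH1 _ _ toGL_injective (stepDegData (dvd_mul_right q N) (pullRep (scalarRep χ k) _))
      (stepDegData (dvd_mul_right q N) (pullRep (trivRep N k k) _)) (fun _ => rfl) (fun _ _ => rfl) u
  simp only [sqLower_apply, map_add, map_sub, sameCoh_smul hh hsm, map_natCast,
    sameCoh_heckeOp hh, sameCoh_trace hh, sameCoh_traceTwist hh]
  erw [b1, b2]

include hχ hqN hqp H in
/-- **Ihara**: the localised raising map is injective over a field of characteristic `p ≠ q`. -/
theorem eq_zero_of_sqRaiseLoc {x : CohLoc (awayMonoid m) (scalarRep χ k)}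
    (h : sqRaiseLoc hS m (scalarRep χ k) x = (0 : CohLoc (awayMonoid (sqIdeal m q)) _)) :
    x = 0 := by
  induction x using LocalizedModule.induction_on with
  | _ u s =>
  have := H.primeℓ
  rw [sqRaiseLoc_mk, IsLocalizedModule.mk_eq_mk', IsLocalizedModule.mk'_eq_zero'] at h
  obtain ⟨⟨_, a, ha, rfl⟩, hau⟩ := h
  have h0 : sqRaise (q := q) (scalarRep χ k) (sqHom O S q a • u) = 0 :=
    (awayIncl_smul_sqRaise hS hχ hqN a u).symm.trans hau
  obtain ⟨n, hn⟩ := exists_pow_smul_of_sqRaise (p := p) (ℓ := H.ℓ) hqN H.lt H.ne_p H.ne_q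
    H.ne_two hqp (x := sameCoh (scalarRep_eq_triv hχ) (sqHom O S q a • u))
    (by rw [← sameCoh_sqRaise hχ, h0, map_zero])
  have hn' : (iharaElt O H.ℓ ^ n * sqHom O S q a) • u = 0 := (sameCoh (scalarRep_eq_triv hχ)).injective
    (by rw [mul_smul, sameCoh_poly_smul (scalarRep_eq_triv hχ) (f := algebraMap O k)
      (fun r a => Algebra.smul_def r a), map_pow, map_iharaElt, hn, map_zero])
  rw [IsLocalizedModule.mk_eq_mk', IsLocalizedModule.mk'_eq_zero']
  exact ⟨⟨_, (awayMonoid m).mul_mem ((awayMonoid m).pow_mem H.ihara_mem n)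
    (mem_awayMonoid ha)⟩, hn'⟩

include hχ hqp H in
/-- **Dual Ihara**: the localised lowering map is surjective over a field. -/
theorem exists_sqLowerLoc_eq (hN : Liftable k N) (x : CohLoc (awayMonoid m) (scalarRep χ k)) :
    ∃ z : CohLoc (awayMonoid (sqIdeal m q)) (sqRep (scalarRep χ k) q),
      sqLowerLoc hS m (scalarRep_triv hχ) hqN z = x := by
  induction x using LocalizedModule.induction_on with
  | _ u s =>
  have := H.primeℓ
  have := H.primer
  have hh := scalarRep_eq_triv (k := k) hχ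
  obtain ⟨n, hn⟩ := exists_sqLower_eq (p := p) (ℓ := H.ℓ) (r := H.r) hqN H.lt H.ne_p H.ne_q
    H.ne_two hqp hN H.r_eq
  obtain ⟨z, hz⟩ := hn (sameCoh hh u)
  obtain ⟨e, he0⟩ : ∃ e : HeckePoly O, e = iharaElt O H.ℓ ^ n * eisen O H.r := ⟨_, rfl⟩
  have he : e ∈ awayMonoid m :=
    he0 ▸ (awayMonoid m).mul_mem ((awayMonoid m).pow_mem H.ihara_mem n) H.eisen_mem
  have hes : e * s ∈ awayMonoid m := (awayMonoid m).mul_mem he s.2
  obtain ⟨b, hb, hbe⟩ := hes
  have hbe' : awayIncl O S b = e * s := hbe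
  have hmap : MvPolynomial.map (algebraMap O k) e = iharaElt k H.ℓ ^ n * eisen k H.r := by
    rw [he0, map_mul, map_pow, map_iharaElt, map_eisen]
  set hh2 : ∀ (w : (ZMod (q * (q * N)))ˣ) (a : k), sqRep (scalarRep χ k) q w a
      = sqRep (trivRep N k k) q w a := fun _ a => hh _ a
  have hlow : sqLower (scalarRep χ k) hqN ((sameCoh hh2).symm z) = e • u := (sameCoh hh).injective
    (by
      rw [sameCoh_sqLower hχ hqN, AddEquiv.apply_symm_apply, hz,
        sameCoh_poly_smul hh (f := algebraMap O k) (fun r a => Algebra.smul_def r a), hmap])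
  have hbm : restrictAway O Set.sdiff_subset b ∉ sqIdeal m q := by
    rw [Ideal.mem_comap, relaxHom_restrictAway]; exact hb
  have hsq : sqHom O S q (restrictAway O Set.sdiff_subset b) = e * s := by
    rw [AlgHom.comp_apply, relaxHom_restrictAway, hbe']
  refine ⟨LocalizedModule.mk ((sameCoh hh2).symm z) ⟨_, mem_awayMonoid hbm⟩, ?_⟩
  refine (bijective_smul_of_mem ((awayMonoid m).mul_mem he s.2)).1 ?_
  show (e * s) • _ = (e * s) • LocalizedModule.mk u s
  conv_lhs => rw [← hsq]
  rw [sqLowerLoc_mk hS m _ hqN _ _ rfl, hlow, mul_smul, LocalizedModule.smul'_mk,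
    ← Submonoid.smul_def, LocalizedModule.mk_cancel, LocalizedModule.smul'_mk]

end Residual

section Complete

variable {O : Type} [CommRing O] [IsNoetherianRing O] [IsLocalRing O]
  [IsAdicComplete (maximalIdeal O) O] {p : ℕ} [CharP (ResidueField O) p] [Fact p.Prime]
  {N q : ℕ} [NeZero N] [hq : Fact q.Prime] {S : Set ℕ} {m : Ideal (AwayPoly O S)} [m.IsPrime]
  (hm : (maximalIdeal O).map (algebraMap O (AwayPoly O S)) ≤ m)
  (hS : q ∈ S) {χ : (ZMod N)ˣ →* O}
  (hE : ExactHyp (awayMonoid m) χ)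
  (hE' : ExactHyp (awayMonoid (sqIdeal m q)) (upChar q (upChar q χ)))
  (H : IharaPrimes (awayMonoid m) N q p) (hqN : ¬ q ∣ N) (hqp : q ≠ p)
  (hχ : ∀ u, χ u - 1 ∈ maximalIdeal O)

include hm hE hE' H hqN hqp hχ in
/-- The localised raising map is a split injection. -/
theorem exists_leftInverse_sqRaiseLoc :
    ∃ left : CohLoc (awayMonoid (sqIdeal m q)) (sqRep (scalarRep χ O) q) →ₗ[O]
        CohLoc (awayMonoid m) (scalarRep χ O),
      left ∘ₗ sqRaiseLoc hS m (scalarRep χ O) = LinearMap.id := by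
  have : NeZero (q * (q * N)) := ⟨by simp [hq.out.ne_zero, NeZero.ne N]⟩
  have hm' := le_relaxIdeal (S' := S \ {q}) (fun _ => (0 : O)) m hm
  obtain ⟨hfin, hfree⟩ := free_cohChar_of_complete m χ hm hE
  obtain ⟨hfin', hfree'⟩ := free_cohChar_of_complete (sqIdeal m q) (upChar q (upChar q χ)) hm' hE'
  have : Module.Free O (CohLoc (awayMonoid m) (scalarRep χ O)) := hfree
  have : Module.Finite O (CohLoc (awayMonoid m) (scalarRep χ O)) := hfin
  have : Module.Free O
      (CohLoc (awayMonoid (sqIdeal m q)) (sqRep (scalarRep χ O) q)) := hfree'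
  refine exists_leftInverse_of_mod _ fun x hx => ?_
  let f : O →ₗ[O] ResidueField O := (maximalIdeal O).mkQ
  have hf1 := isIntertwining_scalar χ f
  have hf2 : IsIntertwining (sqRep (scalarRep χ O) q) (sqRep (scalarRep χ (ResidueField O)) q) f :=
    fun _ _ => hf1 _ _
  have h0 : locMap (awayMonoid (sqIdeal m q)) f hf2 (sqRaiseLoc hS m (scalarRep χ O) x) = 0 :=
    (ker_charMap_mkQ hE' (maximalIdeal O) _).mpr hx
  rw [locMap_sqRaiseLoc f hf1 hf2] at h0
  exact (ker_charMap_mkQ hE (maximalIdeal O) x).mp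
    (eq_zero_of_sqRaiseLoc hS m (residue_char_eq_one hχ) hqN hqp H h0)

include hm hE hE' H hqp hχ in
/-- The localised lowering map is surjective. -/
theorem surjective_sqLowerLoc (hN : Liftable (ResidueField O) N)
    (hρ : ∀ u, scalarRep χ O u = 1) :
    Function.Surjective (sqLowerLoc hS m hρ hqN) := by
  obtain ⟨hfin, -⟩ := free_cohChar_of_complete m χ hm hE
  have : Module.Finite O (CohLoc (awayMonoid m) (scalarRep χ O)) := hfin
  refine surjective_of_mod _ fun x => ?_
  let f : O →ₗ[O] ResidueField O := (maximalIdeal O).mkQ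
  have hf1 := isIntertwining_scalar χ f
  have hf2 : IsIntertwining (sqRep (scalarRep χ O) q) (sqRep (scalarRep χ (ResidueField O)) q) f :=
    fun _ _ => hf1 _ _
  obtain ⟨z, hz⟩ := exists_sqLowerLoc_eq hS m (residue_char_eq_one hχ) hqN hqp H hN
    (locMap (awayMonoid m) f hf1 x)
  obtain ⟨z', rfl⟩ : ∃ z', locMap (awayMonoid (sqIdeal m q)) f hf2 z' = z :=
    charMap_surjective hE' f (maximalIdeal O).mkQ_surjective z
  refine ⟨z', (ker_charMap_mkQ hE (maximalIdeal O) _).mp ?_⟩
  rw [← locMap_sqLowerLoc f hf1 hf2 hqN hS m hρ (scalarRep_triv (residue_char_eq_one hχ))] at hz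
  exact (map_sub (locMap (awayMonoid m) f hf1) _ _).trans (sub_eq_zero.mpr hz)

end Complete

end Fermat.Agent.HeckeModule
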