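import Fermat.Agent.TwoAdic.Scalar.LocRoot
import Fermat.Agent.TwoAdic.Scalar.RootExists

/-!
The step at a root when `q` is not omitted: the prime contains `X_q - 1`.  The raising map is
`2 D_q - D_1 T_q` followed by the localisation (on whose target it equals `D_q - D_1 α`), the
lowering map is `trace - α · twisted trace`.
-/

set_option autoImplicit false

open IsLocalRing

namespace Fermat.Agent.HeckeModule

open TwoAdic

section Sub

variable {O : Type} [CommRing O] {E : Type} [AddCommGroup E] [Module O E]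
  [Module (HeckePoly O) E] [IsScalarTower O (HeckePoly O) E] {S : Set ℕ} (q : ℕ)
  (β : Module.End (HeckePoly O) E)

open Classical in
/-- `X_q` goes to the variable, the others to themselves. -/
noncomputable def inPoly (O : Type) [CommRing O] (S : Set ℕ) (q : ℕ) :
    AwayPoly O S →ₐ[O] Polynomial (HeckePoly O) :=
  MvPolynomial.aeval fun l : AwayIndex S =>
    if ((l : Nat.Primes) : ℕ) = q then Polynomial.X
    else Polynomial.C (MvPolynomial.X (l : Nat.Primes))

/-- The action with `X_q` acting as `β`. -/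
noncomputable def inEnd (S : Set ℕ) : AwayPoly O S →ₐ[O] Module.End O E where
  toFun a := (Polynomial.aeval β (inPoly O S q a)).restrictScalars O
  map_one' := by rw [map_one, map_one]; rfl
  map_mul' a b := by rw [map_mul, map_mul]; rfl
  map_zero' := by rw [map_zero, map_zero]; rfl
  map_add' a b := by rw [map_add, map_add]; rfl
  commutes' r := by
    rw [AlgHom.commutes, IsScalarTower.algebraMap_apply O (HeckePoly O) (Polynomial (HeckePoly O)),
      AlgHom.commutes]
    exact LinearMap.ext fun x => algebraMap_smul (HeckePoly O) r x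

lemma inEnd_X_self {l : AwayIndex S} (h : ((l : Nat.Primes) : ℕ) = q) (x : E) :
    inEnd q β S (MvPolynomial.X l) x = β x := by
  show Polynomial.aeval β (inPoly O S q (MvPolynomial.X l)) x = β x
  rw [inPoly, MvPolynomial.aeval_X, if_pos h, Polynomial.aeval_X]

lemma inEnd_X_ne {l : AwayIndex S} (h : ((l : Nat.Primes) : ℕ) ≠ q) (x : E) :
    inEnd q β S (MvPolynomial.X l) x = (MvPolynomial.X (l : Nat.Primes) : HeckePoly O) • x := by
  show Polynomial.aeval β (inPoly O S q (MvPolynomial.X l)) x = _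
  rw [inPoly, MvPolynomial.aeval_X, if_neg h, Polynomial.aeval_C]
  rfl

lemma inEnd_comm (a : AwayPoly O S) (P : HeckePoly O) (x : E) :
    inEnd q β S a (P • x) = P • inEnd q β S a x :=
  (Polynomial.aeval β (inPoly O S q a)).map_smul P x

variable [IsLocalRing O] [Fact q.Prime]
  (hβ : ∀ x, β x - (MvPolynomial.X (sqPrime q) : HeckePoly O) • x
    ∈ maximalIdeal O • (⊤ : Submodule O E))
include hβ

/-- The substituted action agrees with the natural one modulo the maximal ideal. -/
theorem inEnd_sub_mem (a : AwayPoly O S) (x : E) :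
    inEnd q β S a x - awayIncl O S a • x ∈ maximalIdeal O • (⊤ : Submodule O E) := by
  induction a using MvPolynomial.induction_on generalizing x with
  | C r =>
    rw [← MvPolynomial.algebraMap_eq, AlgHom.commutes, AlgHom.commutes, Module.algebraMap_end_apply,
      algebraMap_smul, sub_self]
    exact zero_mem _
  | add p p' hp hp' =>
    rw [map_add, map_add, LinearMap.add_apply, add_smul, add_sub_add_comm]
    exact add_mem (hp x) (hp' x)
  | mul_X p l hp =>
    rw [map_mul, map_mul, Module.End.mul_apply, mul_smul, awayIncl_X]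
    have h1 : inEnd q β S (MvPolynomial.X l) x - (MvPolynomial.X (l : Nat.Primes) : HeckePoly O) • x
        ∈ maximalIdeal O • (⊤ : Submodule O E) := by
      by_cases h : ((l : Nat.Primes) : ℕ) = q
      · rw [inEnd_X_self q β h, show (l : Nat.Primes) = sqPrime q from Subtype.ext h]
        exact hβ x
      · rw [inEnd_X_ne q β h, sub_self]
        exact zero_mem _
    have h2 := smul_mem_maxSmul E (f := (inEnd q β S p).toAddMonoidHom)
      (fun r y => (inEnd q β S p).map_smul r y) h1
    rw [LinearMap.toAddMonoidHom_coe, map_sub] at h2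
    have h3 := add_mem h2 (hp ((MvPolynomial.X (l : Nat.Primes) : HeckePoly O) • x))
    rwa [sub_add_sub_cancel] at h3

/-- Elements acting bijectively still do so after substitution. -/
theorem bijective_inEnd [Module.Finite O E] {a : AwayPoly O S}
    (ha : Function.Bijective fun x : E => awayIncl O S a • x) :
    Function.Bijective (inEnd q β S a) := by
  have h := bijective_add_of_nilMod (a := (Algebra.lsmul O O E (awayIncl O S a) : Module.End O E))
    (b := inEnd q β S a - Algebra.lsmul O O E (awayIncl O S a)) (n := 1) ha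
    (fun x => by
      show awayIncl O S a • (inEnd q β S a x - awayIncl O S a • x)
        = inEnd q β S a (awayIncl O S a • x) - awayIncl O S a • awayIncl O S a • x
      rw [smul_sub, inEnd_comm])
    (fun x => by rw [pow_one]; exact inEnd_sub_mem q β hβ a x)
  rwa [add_sub_cancel] at h

end Sub

section Step

variable {O : Type} [CommRing O] [IsLocalRing O] {A : Type} [AddCommGroup A] [Module O A]
  {N q : ℕ} [hq : Fact q.Prime] {S : Set ℕ} (hqS : q ∉ S) (m : Ideal (AwayPoly O S)) [m.IsPrime]
  {ρ : Representation O (ZMod N)ˣ A}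

/-- The variable at `q`. -/
def inIndex (hqS : q ∉ S) : AwayIndex S := ⟨sqPrime q, hqS⟩

variable (hone : MvPolynomial.X (inIndex hqS) - MvPolynomial.C 1 ∈ m)

omit [IsLocalRing O] in
include hone in
lemma X_inIndex_notMem : MvPolynomial.X (inIndex hqS) ∉ m := fun h => Ideal.IsPrime.ne_top ‹_›
  (m.eq_top_iff_one.mpr (by
    have h1 := m.sub_mem h hone
    rwa [sub_sub_cancel, map_one] at h1))

omit [IsLocalRing O] in
include hqS hone in
lemma bijective_X_smul {M : ℕ} {σ : Representation O (ZMod M)ˣ A} :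
    Function.Bijective fun x : CohLoc (awayMonoid m) σ =>
      (MvPolynomial.X (sqPrime q) : HeckePoly O) • x := by
  have h := bijective_smul_of_mem (ρ := σ) (mem_awayMonoid (X_inIndex_notMem hqS m hone))
  rwa [awayIncl_X] at h

/-- Division by `X_q`. -/
noncomputable def divX {M : ℕ} (σ : Representation O (ZMod M)ˣ A) :
    CohLoc (awayMonoid m) σ ≃ₗ[HeckePoly O] CohLoc (awayMonoid m) σ :=
  (LinearEquiv.ofBijective (LinearMap.lsmul (HeckePoly O) (CohLoc (awayMonoid m) σ)
    (MvPolynomial.X (sqPrime q) : HeckePoly O)) (bijective_X_smul hqS m hone)).symm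

omit [IsLocalRing O] in
lemma X_smul_divX {M : ℕ} (σ : Representation O (ZMod M)ˣ A) (y : CohLoc (awayMonoid m) σ) :
    (MvPolynomial.X (sqPrime q) : HeckePoly O) • divX hqS m hone σ y = y :=
  (LinearEquiv.ofBijective (LinearMap.lsmul (HeckePoly O) (CohLoc (awayMonoid m) σ)
    (MvPolynomial.X (sqPrime q) : HeckePoly O)) (bijective_X_smul hqS m hone)).apply_symm_apply y

variable (ρ) in
/-- `X_q + q X_q⁻¹` at level `qN`: the operator matched with `T_q`. -/
noncomputable def upRoot :
    Module.End (HeckePoly O) (CohLoc (awayMonoid m) (pullRep ρ (dvd_mul_left N q))) :=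
  LinearMap.lsmul (HeckePoly O) _ (MvPolynomial.X (sqPrime q) : HeckePoly O)
    + (MvPolynomial.C (q : O) : HeckePoly O) • (divX hqS m hone _).toLinearMap

omit [IsLocalRing O] in
lemma upRoot_apply (y : CohLoc (awayMonoid m) (pullRep ρ (dvd_mul_left N q))) :
    upRoot hqS m ρ hone y = (MvPolynomial.X (sqPrime q) : HeckePoly O) • y
      + (q : O) • divX hqS m hone _ y :=
  congrArg ((MvPolynomial.X (sqPrime q) : HeckePoly O) • y + ·)
    (algebraMap_smul (HeckePoly O) (q : O) _)

variable (ρ) in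
/-- `2 D_q - D_1 T_q`. -/
noncomputable def inRaiseFun : Coh1 ρ →ₗ[O] CohLoc (awayMonoid m) (pullRep ρ (dvd_mul_left N q)) :=
  (LocalizedModule.mkLinearMap (awayMonoid m)
      (Coh1 (pullRep ρ (dvd_mul_left N q)))).restrictScalars O ∘ₗ
    ((2 : O) • degenUp ρ q - degenOne ρ q ∘ₗ heckeOp ρ q)

omit [IsLocalRing O] in
lemma inRaiseFun_apply (u : Coh1 ρ) : inRaiseFun m ρ u = LocalizedModule.mk
    ((2 : O) • degenUp ρ q u - degenOne ρ q (heckeOp ρ q u)) 1 := rfl

omit [IsLocalRing O] in
lemma inRaiseFun_X_ne {l : Nat.Primes} (hl : (l : ℕ) ≠ q) (u : Coh1 ρ) :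
    inRaiseFun (q := q) m ρ ((MvPolynomial.X l : HeckePoly O) • u)
      = (MvPolynomial.X l : HeckePoly O) • inRaiseFun (q := q) m ρ u := by
  have : Fact (l : ℕ).Prime := ⟨l.2⟩
  have hc : heckeOp ρ q (heckeOp ρ (l : ℕ) u) = heckeOp ρ (l : ℕ) (heckeOp ρ q u) :=
    LinearMap.congr_fun (heckeOp_comm (ℓ := q) ρ (l : ℕ)) u
  have h1 : ∀ v : Coh1 (pullRep ρ (dvd_mul_left N q)),
      (MvPolynomial.X l : HeckePoly O) • v = heckeOp _ (l : ℕ) v := fun v => X_smul _ _ v
  have h2 : (MvPolynomial.X l : HeckePoly O) • u = heckeOp ρ (l : ℕ) u := X_smul ρ _ u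
  rw [inRaiseFun_apply, inRaiseFun_apply, LocalizedModule.smul'_mk, h1, h2, map_sub, map_smul, hc,
    degenUp_heckeOp q hl ρ, degenOne_heckeOp q hl ρ]

variable (hρ : ∀ u, ρ u = 1) [NeZero N] (hqN : ¬ q ∣ N)

omit [IsLocalRing O] in
include hρ hqN in
lemma inRaiseFun_X_self (u : Coh1 ρ) :
    inRaiseFun (q := q) m ρ ((MvPolynomial.X (sqPrime q) : HeckePoly O) • u)
      = upRoot hqS m ρ hone (inRaiseFun (q := q) m ρ u) := by
  have hX : ∀ v : Coh1 (pullRep ρ (dvd_mul_left N q)),
      (MvPolynomial.X (sqPrime q) : HeckePoly O) • LocalizedModule.mk v (1 : awayMonoid m)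
        = LocalizedModule.mk (uOp (pullRep ρ (dvd_mul_left N q)) (dvd_mul_right q N) v) 1 :=
    fun v => by
      rw [LocalizedModule.smul'_mk, sqPrime, X_smul,
        heckeOp_eq_uOp (ρ := pullRep ρ (dvd_mul_left N q)) (fun u => hρ _) (dvd_mul_right q N)]
  let L := (LocalizedModule.mkLinearMap (awayMonoid m)
    (Coh1 (pullRep ρ (dvd_mul_left N q)))).restrictScalars O
  refine (bijective_X_smul hqS m hone).1 ?_
  show (MvPolynomial.X (sqPrime q) : HeckePoly O) • _ = (MvPolynomial.X (sqPrime q) : HeckePoly O) • _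
  rw [upRoot_apply, smul_add, smul_comm _ (q : O), X_smul_divX, sqPrime, X_smul, ← sqPrime,
    inRaiseFun_apply, inRaiseFun_apply, hX, hX, hX]
  have hD : ∀ x, uOp (pullRep ρ (dvd_mul_left N q)) (dvd_mul_right q N) (degenUp ρ q x)
      = (q : O) • degenOne ρ q x := fun x => uOp_degenUp hρ x
  have h1 : ∀ x, uOp (pullRep ρ (dvd_mul_left N q)) (dvd_mul_right q N) (degenOne ρ q x)
      = degenOne ρ q (heckeOp ρ q x) - degenUp ρ q x := fun x =>
    eq_sub_of_add_eq (uOp_degenOne_add hqN hρ x)
  show L _ = L _ + (q : O) • L _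
  rw [← map_smul L, ← map_add L]
  refine congrArg L ?_
  simp only [map_sub, map_smul, hD, h1, smul_sub]
  module

variable (α : Module.End (HeckePoly O) (CohLoc (awayMonoid m) ρ))
  (hb : ∀ a, a ∉ m → Function.Bijective (inEnd q α S a))
  (hb' : ∀ a, a ∉ m → Function.Bijective (inEnd q (upRoot hqS m ρ hone) S a))

omit [IsLocalRing O] in
include hρ hqN in
lemma inRaise_aux (l : AwayIndex S) (u : Coh1 ρ) :
    inRaiseFun (q := q) m ρ ((MvPolynomial.X (l : Nat.Primes) : HeckePoly O) • u)
      = inEnd q (upRoot hqS m ρ hone) S (MvPolynomial.X l) (inRaiseFun (q := q) m ρ u) := by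
  by_cases h : ((l : Nat.Primes) : ℕ) = q
  · rw [inEnd_X_self _ _ h, show (l : Nat.Primes) = sqPrime q from Subtype.ext h]
    exact inRaiseFun_X_self hqS m hone hρ hqN u
  · rw [inEnd_X_ne _ _ h]
    exact inRaiseFun_X_ne m h u

/-- The raising map. -/
noncomputable def inRaise :
    CohLoc (awayMonoid m) ρ →ₗ[O] CohLoc (awayMonoid m) (pullRep ρ (dvd_mul_left N q)) :=
  locLiftEnd (inRaiseFun m ρ) (inEnd q (upRoot hqS m ρ hone) S)
    (inRaise_aux hqS m hone hρ hqN) m hb'

omit [IsLocalRing O] in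
lemma inRaise_mk (u : Coh1 ρ) :
    inRaise hqS m hone hρ hqN hb' (LocalizedModule.mk u 1) = LocalizedModule.mk
      ((2 : O) • degenUp ρ q u - degenOne ρ q (heckeOp ρ q u)) 1 := by
  have h := apply_locLiftEnd_mk (hf := inRaise_aux hqS m hone hρ hqN) (hb := hb') u
    (1 : awayMonoid m) (a := 1) (map_one _)
  rw [map_one, Module.End.one_apply] at h
  exact h

omit [IsLocalRing O] in
/-- `X_ℓ` commutes with raising for `ℓ ≠ q`. -/
theorem X_smul_inRaise {l : Nat.Primes} (hl : (l : ℕ) ≠ q) (x : CohLoc (awayMonoid m) ρ) :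
    (MvPolynomial.X l : HeckePoly O) • inRaise hqS m hone hρ hqN hb' x
      = inRaise hqS m hone hρ hqN hb' ((MvPolynomial.X l : HeckePoly O) • x) := by
  induction x using LocalizedModule.induction_on with
  | _ u s =>
    obtain ⟨a, ha, has⟩ := s.2
    have has' : awayIncl O S a = (s : HeckePoly O) := has
    refine (hb' a ha).1 ?_
    rw [inEnd_comm, LocalizedModule.smul'_mk]
    unfold inRaise
    rw [apply_locLiftEnd_mk (hb := hb') (hf := inRaise_aux hqS m hone hρ hqN) _ s has',
      apply_locLiftEnd_mk (hb := hb') (hf := inRaise_aux hqS m hone hρ hqN) _ s has',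
      inRaiseFun_X_ne m hl]

variable [IsNoetherianRing O] [IsAdicComplete (maximalIdeal O) O]
  [Module.Finite O (CohLoc (awayMonoid m) (pullRep ρ (dvd_mul_left N q)))]
  (hq0 : (q : O) ∈ maximalIdeal O) (hαb : Function.Bijective α)
  (hα : ∀ x, α (α x) = (MvPolynomial.X (sqPrime q) : HeckePoly O) • α x - (q : O) • x)

omit [IsAdicComplete (maximalIdeal O) O] in
include hq0 hαb hα in
/-- `U_q` on the raised classes is the root. -/
theorem X_smul_inRaise_self (x : CohLoc (awayMonoid m) ρ) :
    (MvPolynomial.X (sqPrime q) : HeckePoly O) • inRaise hqS m hone hρ hqN hb' x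
      = inRaise hqS m hone hρ hqN hb' (α x) := by
  refine (comm_of_root hq0 (inRaise hqS m hone hρ hqN hb')
    (T := Algebra.lsmul O O _ (MvPolynomial.X (sqPrime q) : HeckePoly O))
    (T' := (upRoot hqS m ρ hone).restrictScalars O)
    (α := α.restrictScalars O)
    (α' := Algebra.lsmul O O _ (MvPolynomial.X (sqPrime q) : HeckePoly O))
    (fun y => ?_) hαb (bijective_X_smul hqS m hone) hα
    (fun y => (upRoot hqS m ρ hone).map_smul _ y) (fun y => ?_) x).symm
  · have h := locLiftEnd_smul (hf := inRaise_aux hqS m hone hρ hqN) (hb := hb')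
      (MvPolynomial.X (inIndex hqS) : AwayPoly O S) y
    rw [awayIncl_X] at h
    exact h.trans (inEnd_X_self q _ rfl _)
  · show (MvPolynomial.X (sqPrime q) : HeckePoly O) • (MvPolynomial.X (sqPrime q) : HeckePoly O) • y
      = upRoot hqS m ρ hone ((MvPolynomial.X (sqPrime q) : HeckePoly O) • y) - (q : O) • y
    rw [upRoot_apply, add_sub_assoc, ← smul_sub, map_smul (divX hqS m hone _), X_smul_divX,
      sub_self, smul_zero, add_zero]

omit [IsLocalRing O] [IsNoetherianRing O] [IsAdicComplete (maximalIdeal O) O]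
  [Module.Finite O (CohLoc (awayMonoid m) (pullRep ρ (dvd_mul_left N q)))] in
include hρ hα in
lemma rootTransfer_X_self (w : Coh1 (pullRep ρ (dvd_mul_left N q))) :
    rootTransfer m α hqN ((MvPolynomial.X (sqPrime q) : HeckePoly O) • w)
      = α (rootTransfer m α hqN w) := by
  rw [rootTransfer_apply, rootTransfer_apply, sqPrime, X_smul, heckeOp_eq_uOp
      (ρ := pullRep ρ (dvd_mul_left N q)) (fun u => hρ _) (dvd_mul_right q N), trace_uOp hqN hρ,
    eq_sub_of_add_eq (traceTwist_uOp hqN hρ w)]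
  have emk : ∀ u v : Coh1 ρ, LocalizedModule.mk (u - v) (1 : awayMonoid m)
      = LocalizedModule.mk u 1 - LocalizedModule.mk v 1 := fun u v =>
    map_sub (LocalizedModule.mkLinearMap (awayMonoid m) (Coh1 ρ)) u v
  have esmul : ∀ (r : O) (u : Coh1 ρ), LocalizedModule.mk (r • u) (1 : awayMonoid m)
      = r • LocalizedModule.mk u 1 := fun r u =>
    map_smul ((LocalizedModule.mkLinearMap (awayMonoid m) (Coh1 ρ)).restrictScalars O) r u
  rw [emk, esmul, ← X_smul ρ q, ← LocalizedModule.smul'_mk, map_sub, map_sub, map_smul α, hα]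
  rw [sqPrime]
  abel

omit [IsLocalRing O] [IsNoetherianRing O] [IsAdicComplete (maximalIdeal O) O] [NeZero N]
  [Module.Finite O (CohLoc (awayMonoid m) (pullRep ρ (dvd_mul_left N q)))] in
lemma rootTransfer_X_ne {l : Nat.Primes} (hl : (l : ℕ) ≠ q)
    (w : Coh1 (pullRep ρ (dvd_mul_left N q))) :
    rootTransfer m α hqN ((MvPolynomial.X l : HeckePoly O) • w)
      = (MvPolynomial.X l : HeckePoly O) • rootTransfer m α hqN w := by
  have : Fact (l : ℕ).Prime := ⟨l.2⟩
  have h1 : ∀ v : Coh1 (pullRep ρ (dvd_mul_left N q)),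
      (MvPolynomial.X l : HeckePoly O) • v = heckeOp _ (l : ℕ) v := fun v => X_smul _ _ v
  have h2 : ∀ v : Coh1 ρ,
      (MvPolynomial.X l : HeckePoly O) • v = heckeOp _ (l : ℕ) v := fun v => X_smul _ _ v
  rw [rootTransfer_apply, rootTransfer_apply, smul_sub, ← map_smul α, LocalizedModule.smul'_mk,
    LocalizedModule.smul'_mk, h1, trace_heckeOp_ne hqN ρ hl, traceTwist_heckeOp_ne hqN ρ hl, h2, h2]

omit [IsLocalRing O] [IsNoetherianRing O] [IsAdicComplete (maximalIdeal O) O]
  [Module.Finite O (CohLoc (awayMonoid m) (pullRep ρ (dvd_mul_left N q)))] in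
include hρ hα in
lemma inLower_aux (l : AwayIndex S) (w : Coh1 (pullRep ρ (dvd_mul_left N q))) :
    rootTransfer m α hqN ((MvPolynomial.X (l : Nat.Primes) : HeckePoly O) • w)
      = inEnd q α S (MvPolynomial.X l) (rootTransfer m α hqN w) := by
  by_cases h : ((l : Nat.Primes) : ℕ) = q
  · rw [inEnd_X_self _ _ h, show (l : Nat.Primes) = sqPrime q from Subtype.ext h]
    exact rootTransfer_X_self m hρ hqN α hα w
  · rw [inEnd_X_ne _ _ h]
    exact rootTransfer_X_ne m hqN α h w

/-- The lowering map. -/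
noncomputable def inLower :
    CohLoc (awayMonoid m) (pullRep ρ (dvd_mul_left N q)) →ₗ[O] CohLoc (awayMonoid m) ρ :=
  locLiftEnd (rootTransfer m α hqN) (inEnd q α S) (inLower_aux m hρ hqN α hα) m hb

omit [IsLocalRing O] [IsNoetherianRing O] [IsAdicComplete (maximalIdeal O) O]
  [Module.Finite O (CohLoc (awayMonoid m) (pullRep ρ (dvd_mul_left N q)))] in
lemma inLower_mk (w : Coh1 (pullRep ρ (dvd_mul_left N q))) :
    inLower m hρ hqN α hb hα (LocalizedModule.mk w 1) = rootTransfer m α hqN w := by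
  have h := apply_locLiftEnd_mk (hf := inLower_aux m hρ hqN α hα) (hb := hb) w
    (1 : awayMonoid m) (a := 1) (map_one _)
  rw [map_one, Module.End.one_apply] at h
  exact h

omit [IsLocalRing O] [IsNoetherianRing O] [IsAdicComplete (maximalIdeal O) O]
  [Module.Finite O (CohLoc (awayMonoid m) (pullRep ρ (dvd_mul_left N q)))] in
/-- `X_ℓ` commutes with lowering for `ℓ ≠ q`. -/
theorem inLower_X_smul {l : Nat.Primes} (hl : (l : ℕ) ≠ q)
    (y : CohLoc (awayMonoid m) (pullRep ρ (dvd_mul_left N q))) :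
    inLower m hρ hqN α hb hα ((MvPolynomial.X l : HeckePoly O) • y)
      = (MvPolynomial.X l : HeckePoly O) • inLower m hρ hqN α hb hα y := by
  induction y using LocalizedModule.induction_on with
  | _ w s =>
    obtain ⟨a, ha, has⟩ := s.2
    have has' : awayIncl O S a = (s : HeckePoly O) := has
    refine (hb a ha).1 ?_
    rw [inEnd_comm, LocalizedModule.smul'_mk]
    unfold inLower
    rw [apply_locLiftEnd_mk (hb := hb) (hf := inLower_aux m hρ hqN α hα) _ s has',
      apply_locLiftEnd_mk (hb := hb) (hf := inLower_aux m hρ hqN α hα) _ s has',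
      rootTransfer_X_ne m hqN α hl]

omit [IsLocalRing O] [IsNoetherianRing O] [IsAdicComplete (maximalIdeal O) O]
  [Module.Finite O (CohLoc (awayMonoid m) (pullRep ρ (dvd_mul_left N q)))] in
include hqS in
/-- Lowering turns `U_q` into the root. -/
theorem inLower_X_smul_self (y : CohLoc (awayMonoid m) (pullRep ρ (dvd_mul_left N q))) :
    inLower m hρ hqN α hb hα ((MvPolynomial.X (sqPrime q) : HeckePoly O) • y)
      = α (inLower m hρ hqN α hb hα y) := by
  have h := locLiftEnd_smul (hf := inLower_aux m hρ hqN α hα) (hb := hb)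
    (MvPolynomial.X (inIndex hqS) : AwayPoly O S) y
  rw [awayIncl_X] at h
  exact h.trans (inEnd_X_self q _ rfl _)

omit [Module.Finite O (CohLoc (awayMonoid m) (pullRep ρ (dvd_mul_left N q)))] in
/-- `α ∘ (lowering after raising) = (α² - 1) (α² - q)`. -/
theorem inLower_inRaise [Module.Finite O A] (hm : (maximalIdeal O).map
    (algebraMap O (AwayPoly O S)) ≤ m) (x : CohLoc (awayMonoid m) ρ) :
    α (inLower m hρ hqN α hb hα (inRaise hqS m hone hρ hqN hb' x))
      = α (α (α (α x) - (q : O) • x)) - (α (α x) - (q : O) • x) := by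
  obtain ⟨u, rfl⟩ := toLoc_surjective ρ m hm x
  show α (inLower m hρ hqN α hb hα (inRaise hqS m hone hρ hqN hb' (LocalizedModule.mk u 1))) = _
  rw [inRaise_mk, inLower_mk, rootTransfer_apply]
  let L := (LocalizedModule.mkLinearMap (awayMonoid m) (Coh1 ρ)).restrictScalars O
  have e1 : trace ρ hqN ((2 : O) • degenUp ρ q u - degenOne ρ q (heckeOp ρ q u))
      = (1 - (q : O)) • heckeOp ρ q u := by
    rw [map_sub, map_smul, trace_degenUp hρ hqN, trace_degen_one hqN ρ]
    module
  have e2 : traceTwist ρ hqN ((2 : O) • degenUp ρ q u - degenOne ρ q (heckeOp ρ q u))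
      = (2 * ((q : O) + 1)) • u - heckeOp ρ q (heckeOp ρ q u) := by
    rw [map_sub, map_smul, traceTwist_degen hqN ρ, traceTwist_degen_one hqN ρ, smul_smul]
  have hT : ∀ v, L (heckeOp ρ q v) = (MvPolynomial.X (sqPrime q) : HeckePoly O) • L v := fun v => by
    rw [← X_smul ρ q v]
    exact (LocalizedModule.mkLinearMap (awayMonoid m) (Coh1 ρ)).map_smul _ v
  rw [e1, e2]
  show α (L _ - α (L _)) = α (α (α (α (L u)) - (q : O) • L u)) - (α (α (L u)) - (q : O) • L u)
  have hTα : ∀ z, (MvPolynomial.X (sqPrime q) : HeckePoly O) • α z = α (α z) + (q : O) • z :=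
    fun z => by rw [hα z, sub_add_cancel]
  have hO : ∀ (r : O) z, α (r • z) = r • α z := fun r z => α.map_smul_of_tower r z
  have hXr : ∀ (r : O) (z : CohLoc (awayMonoid m) ρ), (MvPolynomial.X (sqPrime q) : HeckePoly O)
      • r • z = r • (MvPolynomial.X (sqPrime q) : HeckePoly O) • z := fun r z => smul_comm _ _ _
  simp only [map_sub, map_smul L, hT, map_add, LinearMap.map_smul, hTα, hO, smul_add, hXr]
  module

end Step

end Fermat.Agent.HeckeModule
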