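import Fermat.Agent.TwoAdic.Scalar.LocRootIn
import Fermat.Agent.TwoAdic.Scalar.LocSign
import Fermat.Agent.TwoAdic.Scalar.LocRaiseFree

/-!
Over a complete local ring with residue characteristic `2` and `q` in the maximal ideal, the step
at a root with `X_q - 1` in the prime: raising is split injective and lowering is surjective, and
both commute with the Atkin–Lehner involutions.
-/

set_option autoImplicit false

open CongruenceSubgroup IsLocalRing

namespace Fermat.Agent.HeckeModule

open TwoAdic

section Residual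

variable {O : Type} [CommRing O] {k : Type} [Field k] [Algebra O k] {p : ℕ} [CharP k p]
  [hp : Fact p.Prime] {N q : ℕ} [NeZero N] [hq : Fact q.Prime] {S : Set ℕ}
  (m : Ideal (AwayPoly O S)) [m.IsPrime] {χ : (ZMod N)ˣ →* O}
  (hχ : ∀ u, algebraMap O k (χ u) = 1) (hqN : ¬ q ∣ N) (hq0 : algebraMap O k (q : O) = 0)

include hχ hq0 in
/-- Modulo `q` the image of `D_q` is stable under all Hecke polynomials. -/
theorem exists_smul_degenUp (P : HeckePoly O) (v : Coh1 (scalarRep χ k)) :
    ∃ w, P • degenUp (scalarRep χ k) q v = degenUp (scalarRep χ k) q w := by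
  have : NeZero (q * N) := ⟨mul_ne_zero hq.out.ne_zero (NeZero.ne N)⟩
  induction P using MvPolynomial.induction_on generalizing v with
  | C r => exact ⟨r • v, by rw [← MvPolynomial.algebraMap_eq, algebraMap_smul, map_smul]⟩
  | add a b ha hb =>
    obtain ⟨w, hw⟩ := ha v
    obtain ⟨w', hw'⟩ := hb v
    exact ⟨w + w', by rw [add_smul, hw, hw', map_add]⟩
  | mul_X a l ha =>
    have : Fact (l : ℕ).Prime := ⟨l.2⟩
    rw [mul_smul]
    have hX : ∀ x : Coh1 (pullRep (scalarRep χ k) (dvd_mul_left N q)),
        (MvPolynomial.X l : HeckePoly O) • x = heckeOp _ (l : ℕ) x := fun x => X_smul _ _ x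
    by_cases hl : (l : ℕ) = q
    · refine ⟨0, ?_⟩
      have h0 : (MvPolynomial.X l : HeckePoly O) • degenUp (scalarRep χ k) q v = 0 := by
        rw [show l = sqPrime q from Subtype.ext hl, sqPrime, X_smul,
          heckeOp_eq_uOp (ρ := pullRep (scalarRep χ k) (dvd_mul_left N q))
            (fun u => scalarRep_triv hχ _) (dvd_mul_right q N)]
        refine (uOp_degenUp (scalarRep_triv hχ) v).trans ?_
        obtain ⟨z, hz⟩ := toCoh_surjective _ (degenOne (scalarRep χ k) q v)
        rw [← hz, ← map_smul, show (q : O) • z = 0 from Subtype.ext (funext fun γ => by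
          show (q : O) • z.1 γ = 0
          rw [Algebra.smul_def, hq0, zero_mul]), map_zero]
      rw [h0, smul_zero, map_zero]
    · rw [hX, ← degenUp_heckeOp q hl (scalarRep χ k)]
      exact ha _

include hχ hqN hq0 in
/-- Modulo `q` the Hecke polynomials commute with `D_1` up to the image of `D_q`. -/
theorem exists_smul_degenOne (P : HeckePoly O) (v : Coh1 (scalarRep χ k)) :
    ∃ w, P • degenOne (scalarRep χ k) q v
      = degenOne (scalarRep χ k) q (P • v) + degenUp (scalarRep χ k) q w := by
  induction P using MvPolynomial.induction_on generalizing v with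
  | C r => exact ⟨0, by rw [← MvPolynomial.algebraMap_eq, algebraMap_smul, algebraMap_smul,
      map_smul, map_zero, add_zero]⟩
  | add a b ha hb =>
    obtain ⟨w, hw⟩ := ha v
    obtain ⟨w', hw'⟩ := hb v
    exact ⟨w + w', by rw [add_smul, hw, hw', add_smul, map_add, map_add, add_add_add_comm]⟩
  | mul_X a l ha =>
    have : Fact (l : ℕ).Prime := ⟨l.2⟩
    rw [mul_smul, mul_smul]
    have hX : ∀ x : Coh1 (pullRep (scalarRep χ k) (dvd_mul_left N q)),
        (MvPolynomial.X l : HeckePoly O) • x = heckeOp _ (l : ℕ) x := fun x => X_smul _ _ x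
    have hX' : (MvPolynomial.X l : HeckePoly O) • v = heckeOp (scalarRep χ k) (l : ℕ) v :=
      X_smul _ _ v
    by_cases hl : (l : ℕ) = q
    · obtain ⟨w, hw⟩ := ha (heckeOp (scalarRep χ k) q v)
      obtain ⟨w', hw'⟩ := exists_smul_degenUp (q := q) hχ hq0 a v
      refine ⟨w - w', ?_⟩
      have h0 : (MvPolynomial.X l : HeckePoly O) • degenOne (scalarRep χ k) q v
          = degenOne (scalarRep χ k) q (heckeOp (scalarRep χ k) q v)
            - degenUp (scalarRep χ k) q v := by
        rw [show l = sqPrime q from Subtype.ext hl, sqPrime, X_smul,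
          heckeOp_eq_uOp (ρ := pullRep (scalarRep χ k) (dvd_mul_left N q))
            (fun u => scalarRep_triv hχ _) (dvd_mul_right q N)]
        exact eq_sub_of_add_eq (uOp_degenOne_add hqN (scalarRep_triv hχ) v)
      have h1 : (MvPolynomial.X l : HeckePoly O) • v = heckeOp (scalarRep χ k) q v := by
        rw [show l = sqPrime q from Subtype.ext hl, sqPrime, X_smul]
      rw [h0, smul_sub, hw, hw', h1, map_sub, add_sub_assoc]
    · rw [hX, hX', ← degenOne_heckeOp q hl (scalarRep χ k)]
      exact ha _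

variable (H : IharaPrimes (awayMonoid m) N q p) (hqS : q ∉ S)
  (hone : MvPolynomial.X (inIndex hqS) - MvPolynomial.C 1 ∈ m)

include hχ hqN hq0 H hone in
/-- **Ihara**: `u ↦ D_1 T_q u` is injective on the localisation modulo `q`. -/
theorem eq_zero_of_mk_degenOne_hecke (u : Coh1 (scalarRep χ k))
    (h : LocalizedModule.mk (degenOne (scalarRep χ k) q (heckeOp (scalarRep χ k) q u))
      (1 : awayMonoid m) = 0) :
    LocalizedModule.mk u (1 : awayMonoid m) = 0 := by
  have := H.primeℓ
  rw [IsLocalizedModule.mk_eq_mk', IsLocalizedModule.mk'_eq_zero'] at h ⊢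
  obtain ⟨⟨a, ha⟩, hau⟩ := h
  obtain ⟨w, hw⟩ := exists_smul_degenOne (q := q) hχ hqN hq0 a (heckeOp (scalarRep χ k) q u)
  have h0 : degenOne (scalarRep χ k) q (a • heckeOp (scalarRep χ k) q u)
      + degenUp (scalarRep χ k) q w = 0 := hw.symm.trans hau
  have hh := scalarRep_eq_triv (N := N) (χ := χ) hχ
  have hk : degenSum N k q (sameCoh hh (a • heckeOp (scalarRep χ k) q u), sameCoh hh w) = 0 := by
    rw [degenSum, LinearMap.coprod_apply, ← sameCoh_degen hh, ← sameCoh_degen hh, ← map_add]
    exact (congrArg _ h0).trans (map_zero _)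
  obtain ⟨n, h1, -⟩ := ihara (p := p) (ℓ := H.ℓ) hqN H.lt H.ne_p H.ne_q H.ne_two hk
  have hX : (MvPolynomial.X (sqPrime q) : HeckePoly O) ∈ awayMonoid m := by
    have := mem_awayMonoid (X_inIndex_notMem hqS m hone)
    rwa [awayIncl_X] at this
  refine ⟨⟨iharaElt O H.ℓ ^ n * a * MvPolynomial.X (sqPrime q), (awayMonoid m).mul_mem
    ((awayMonoid m).mul_mem ((awayMonoid m).pow_mem H.ihara_mem n) ha) hX⟩, ?_⟩
  refine (sameCoh hh).injective ?_
  show sameCoh hh ((iharaElt O H.ℓ ^ n * a * MvPolynomial.X (sqPrime q)) • u) = sameCoh hh 0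
  rw [map_zero, mul_smul, mul_smul, sqPrime, X_smul,
    sameCoh_poly_smul hh (f := algebraMap O k) (fun r a => Algebra.smul_def r a), map_pow,
    map_iharaElt, h1]

end Residual

section Complete

variable {O : Type} [CommRing O] [IsNoetherianRing O] [IsLocalRing O]
  [IsAdicComplete (maximalIdeal O) O] [CharP (ResidueField O) 2] {N q : ℕ} [NeZero N]
  [hq : Fact q.Prime] {S : Set ℕ} (hqS : q ∉ S) (m : Ideal (AwayPoly O S)) [m.IsPrime]
  (hm : (maximalIdeal O).map (algebraMap O (AwayPoly O S)) ≤ m)
  (hone : MvPolynomial.X (inIndex hqS) - MvPolynomial.C 1 ∈ m) {χ : (ZMod N)ˣ →* O}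
  (hE : ExactHyp (awayMonoid m) χ) (hE' : ExactHyp (awayMonoid m) (upChar q χ))
  (H : IharaPrimes (awayMonoid m) N q 2) (hqN : ¬ q ∣ N) (hq0 : (q : O) ∈ maximalIdeal O)
  (hχ : ∀ u, χ u - 1 ∈ maximalIdeal O) (hρ : ∀ u, scalarRep χ O u = 1)

include hm hE hE' H hq0 hχ in
/-- The raising map is a split injection. -/
theorem exists_leftInverse_inRaise
    (hb' : ∀ a, a ∉ m → Function.Bijective
      (inEnd q (upRoot hqS m (scalarRep χ O) hone) S a)) :
    ∃ left : CohLoc (awayMonoid m) (pullRep (scalarRep χ O) (dvd_mul_left N q)) →ₗ[O]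
        CohLoc (awayMonoid m) (scalarRep χ O),
      left ∘ₗ inRaise hqS m hone hρ hqN hb' = LinearMap.id := by
  have : Fact (Nat.Prime 2) := ⟨Nat.prime_two⟩
  have : NeZero (q * N) := ⟨mul_ne_zero hq.out.ne_zero (NeZero.ne N)⟩
  obtain ⟨hfin, hfree⟩ := free_cohChar_of_complete m χ hm hE
  obtain ⟨hfin', hfree'⟩ := free_cohChar_of_complete m (upChar q χ) hm hE'
  have : Module.Free O (CohLoc (awayMonoid m) (scalarRep χ O)) := hfree
  have : Module.Finite O (CohLoc (awayMonoid m) (scalarRep χ O)) := hfin
  have : Module.Free O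
      (CohLoc (awayMonoid m) (pullRep (scalarRep χ O) (dvd_mul_left N q))) := hfree'
  refine exists_leftInverse_of_mod _ fun x hx => ?_
  obtain ⟨u, rfl⟩ := toLoc_surjective (scalarRep χ O) m hm x
  change inRaise hqS m hone hρ hqN hb' (LocalizedModule.mk u 1) ∈ _ at hx
  rw [inRaise_mk] at hx
  let f : O →ₗ[O] ResidueField O := (maximalIdeal O).mkQ
  have hf1 := isIntertwining_scalar χ f
  have hf2 : IsIntertwining (pullRep (scalarRep χ O) (dvd_mul_left N q))
      (pullRep (scalarRep χ (ResidueField O)) (dvd_mul_left N q)) f := fun _ _ => hf1 _ _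
  have h0 := (ker_charMap_mkQ hE' (maximalIdeal O) _).mpr hx
  change locMap (awayMonoid m) f hf2 (LocalizedModule.mk _ 1) = 0 at h0
  rw [locMap_mk] at h0
  have hk0 : algebraMap O (ResidueField O) (q : O) = 0 := (residue_eq_zero_iff _).mpr hq0
  have h2 : algebraMap O (ResidueField O) (2 : O) = 0 := by
    rw [map_ofNat]; exact CharTwo.two_eq_zero
  have a1 : cohMap f hf2 (degenOne (scalarRep χ O) q (heckeOp (scalarRep χ O) q u))
      = degenOne (scalarRep χ (ResidueField O)) q
          (heckeOp (scalarRep χ (ResidueField O)) q (cohMapO f hf1 u)) :=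
    (cohMapO_onH1 f hf1 hf2 (degenData (scalarRep χ O) one_ne_zero _)
      (degenData (scalarRep χ (ResidueField O)) one_ne_zero _) (fun _ => rfl) (fun _ _ => rfl)
      _).trans (congrArg _ (cohMapO_heckeOp f hf1 u))
  have h1 : cohMapO f hf2 ((2 : O) • degenUp (scalarRep χ O) q u
      - degenOne (scalarRep χ O) q (heckeOp (scalarRep χ O) q u))
      = -degenOne (scalarRep χ (ResidueField O)) q
          (heckeOp (scalarRep χ (ResidueField O)) q (cohMapO f hf1 u)) := by
    rw [map_sub, map_smul]
    have hz : (2 : O) • cohMapO f hf2 (degenUp (scalarRep χ O) q u) = 0 := by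
      obtain ⟨z, hz⟩ := toCoh_surjective _ (cohMapO f hf2 (degenUp (scalarRep χ O) q u))
      rw [← hz, ← map_smul, show (2 : O) • z = 0 from Subtype.ext (funext fun γ => by
        show (2 : O) • z.1 γ = 0
        rw [Algebra.smul_def, h2, zero_mul]), map_zero]
    rw [hz, zero_sub]
    exact congrArg Neg.neg a1
  refine (ker_charMap_mkQ hE (maximalIdeal O) _).mp ?_
  show locMap (awayMonoid m) f hf1 (LocalizedModule.mk u 1) = 0
  rw [locMap_mk]
  refine eq_zero_of_mk_degenOne_hecke (p := 2) m (residue_char_eq_one hχ) hqN hk0 H hqS hone _ ?_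
  have h3 : LocalizedModule.mk (cohMapO f hf2 ((2 : O) • degenUp (scalarRep χ O) q u
      - degenOne (scalarRep χ O) q (heckeOp (scalarRep χ O) q u))) (1 : awayMonoid m) = 0 := h0
  rw [h1] at h3
  have h4 := congrArg Neg.neg h3
  rw [neg_zero] at h4
  refine Eq.trans ?_ h4
  exact ((congrArg Neg.neg (map_neg (LocalizedModule.mkLinearMap (awayMonoid m)
    (Coh1 (pullRep (scalarRep χ (ResidueField O)) (dvd_mul_left N q)))) _)).trans (neg_neg _)).symm

include hm hE H hχ in
/-- The lowering map is surjective. -/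
theorem surjective_inLower (hN : Liftable (ResidueField O) N) (hN' : Liftable O (q * N))
    (α : Module.End (HeckePoly O) (CohLoc (awayMonoid m) (scalarRep χ O)))
    (hb : ∀ a, a ∉ m → Function.Bijective (inEnd q α S a))
    (hα : ∀ x, α (α x) = (MvPolynomial.X (sqPrime q) : HeckePoly O) • α x - (q : O) • x) :
    Function.Surjective (inLower m hρ hqN α hb hα) := by
  have : Fact (Nat.Prime 2) := ⟨Nat.prime_two⟩
  have := H.primeℓ
  have := H.primer
  obtain ⟨hfin, -⟩ := free_cohChar_of_complete m χ hm hE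
  have : Module.Finite O (CohLoc (awayMonoid m) (scalarRep χ O)) := hfin
  refine surjective_of_mod _ fun x => ?_
  have hh := scalarRep_eq_triv (N := N) (χ := χ) (k := ResidueField O) (residue_char_eq_one hχ)
  have hh' : ∀ (w : (ZMod (q * N))ˣ) (a : ResidueField O),
      pullRep (scalarRep χ (ResidueField O)) (dvd_mul_left N q) w a
        = pullRep (trivRep N (ResidueField O) (ResidueField O)) (dvd_mul_left N q) w a :=
    fun _ a => hh _ a
  obtain ⟨n, hn⟩ := exists_trace_eq (p := 2) (ℓ := H.ℓ) (r := H.r) hqN H.lt H.ne_p H.ne_q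
    H.ne_two hN H.r_eq
  set e : HeckePoly O := iharaElt O H.ℓ ^ n * eisen O H.r
  have he : e ∈ awayMonoid m :=
    (awayMonoid m).mul_mem ((awayMonoid m).pow_mem H.ihara_mem n) H.eisen_mem
  obtain ⟨x', hx'⟩ := (bijective_smul_of_mem (ρ := scalarRep χ O) he).2 x
  obtain ⟨u, rfl⟩ := toLoc_surjective (scalarRep χ O) m hm x'
  change e • LocalizedModule.mk u 1 = x at hx'
  subst hx'
  let f : O →ₗ[O] ResidueField O := (maximalIdeal O).mkQ
  have hf1 := isIntertwining_scalar χ f
  have hf2 : IsIntertwining (pullRep (scalarRep χ O) (dvd_mul_left N q))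
      (pullRep (scalarRep χ (ResidueField O)) (dvd_mul_left N q)) f := fun _ _ => hf1 _ _
  obtain ⟨z, hz1, hz2⟩ := hn (sameCoh hh (cohMapO f hf1 u)) 0
  have hmap : MvPolynomial.map (algebraMap O (ResidueField O)) e
      = iharaElt (ResidueField O) H.ℓ ^ n * eisen (ResidueField O) H.r := by
    rw [map_mul, map_pow, map_iharaElt, map_eisen]
  have hsm : ∀ (r : O) (a : ResidueField O), r • a = algebraMap O (ResidueField O) r • a :=
    fun r a => Algebra.smul_def r a
  obtain ⟨w, hw⟩ : ∃ w, cohMapO f hf2 w = (sameCoh hh').symm z :=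
    cohMap_surjective f hf2 (maximalIdeal O).mkQ_surjective (hρ _) hN' _
  have h1 : cohMapO f hf1 (trace (scalarRep χ O) hqN w) = e • cohMapO f hf1 u := by
    refine (cohMapO_onH1 f hf2 hf1 (traceData (scalarRep χ O) hqN)
      (traceData (scalarRep χ (ResidueField O)) hqN) (fun _ => rfl) (fun _ _ => rfl) w).trans ?_
    show trace (scalarRep χ (ResidueField O)) hqN (cohMapO f hf2 w) = _
    rw [hw]
    refine (sameCoh hh).injective ?_
    rw [sameCoh_trace hh, sameCoh_poly_smul hh hsm e, hmap]
    exact (congrArg _ ((sameCoh hh').apply_symm_apply z)).trans hz1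
  have h2 : cohMapO f hf1 (traceTwist (scalarRep χ O) hqN w) = 0 := by
    refine (cohMapO_onH1 f hf2 hf1 (traceTwistData (scalarRep χ O) hqN)
      (traceTwistData (scalarRep χ (ResidueField O)) hqN) (fun _ => rfl) (fun _ _ => rfl) w).trans ?_
    show traceTwist (scalarRep χ (ResidueField O)) hqN (cohMapO f hf2 w) = _
    rw [hw]
    refine (sameCoh hh).injective ?_
    rw [sameCoh_traceTwist hh, map_zero]
    exact (congrArg _ ((sameCoh hh').apply_symm_apply z)).trans (hz2.trans (smul_zero _))
  refine ⟨LocalizedModule.mk w 1, ?_⟩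
  rw [inLower_mk, rootTransfer_apply]
  have m1 : LocalizedModule.mk (trace (scalarRep χ O) hqN w) (1 : awayMonoid m)
      - e • LocalizedModule.mk u (1 : awayMonoid m)
        ∈ maximalIdeal O • (⊤ : Submodule O (CohLoc (awayMonoid m) (scalarRep χ O))) :=
    (ker_charMap_mkQ hE (maximalIdeal O) _).mp (by
      show locMap (awayMonoid m) f hf1 _ = 0
      rw [map_sub, sub_eq_zero, map_smul, locMap_mk, locMap_mk, LocalizedModule.smul'_mk]
      exact congrArg (LocalizedModule.mk · 1) h1)
  have m2 : LocalizedModule.mk (traceTwist (scalarRep χ O) hqN w) (1 : awayMonoid m)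
      ∈ maximalIdeal O • (⊤ : Submodule O (CohLoc (awayMonoid m) (scalarRep χ O))) :=
    (ker_charMap_mkQ hE (maximalIdeal O) _).mp (by
      show locMap (awayMonoid m) f hf1 _ = 0
      rw [locMap_mk]
      exact (congrArg (LocalizedModule.mk · 1) h2).trans (LocalizedModule.zero_mk _))
  rw [sub_right_comm]
  exact sub_mem m1 (map_mem_smul_top (α.restrictScalars O) _ m2)

end Complete

section Sign

variable {O : Type} [CommRing O] [IsLocalRing O] {A : Type} [AddCommGroup A] [Module O A]
  {N q : ℕ} [hq : Fact q.Prime] [NeZero N] {W : Finset ℕ} {S : Set ℕ} (hqS : q ∉ S)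
  (m : Ideal (AwayPoly O S)) [m.IsPrime]
  (hone : MvPolynomial.X (inIndex hqS) - MvPolynomial.C 1 ∈ m)
  (hW : IsALPrimes N W) (hW' : IsALPrimes (q * N) W) (c : ℕ → O) (hWS : ∀ e ∈ W, e ∈ S)
  {e : ℕ} (he : e ∈ W) (hqN : ¬ q ∣ N)

omit [IsLocalRing O] in
include hWS he in
omit [NeZero N] in
/-- `X_q + q X_q⁻¹` commutes with the involutions. -/
theorem alOneLoc_upRoot (y : CohLoc (awayMonoid m) (pullRep (oneRep O A N) (dvd_mul_left N q))) :
    alOneLoc A hW' c (isAway_awayMonoid m) hWS e (upRoot hqS m (oneRep O A N) hone y)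
      = upRoot hqS m (oneRep O A N) hone (alOneLoc A hW' c (isAway_awayMonoid m) hWS e y) := by
  have heq : q ≠ e := fun h => hqS (h ▸ hWS e he)
  have hX : ∀ z : CohLoc (awayMonoid m) (pullRep (oneRep O A N) (dvd_mul_left N q)),
      alOneLoc A hW' c (isAway_awayMonoid m) hWS e
          ((MvPolynomial.X (sqPrime q) : HeckePoly O) • z)
        = (MvPolynomial.X (sqPrime q) : HeckePoly O)
          • alOneLoc A hW' c (isAway_awayMonoid m) hWS e z := fun z =>
    alOneLoc_X_smul hW' c _ hWS he heq z
  have hd : alOneLoc A hW' c (isAway_awayMonoid m) hWS e (divX hqS m hone _ y)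
      = divX hqS m hone _ (alOneLoc A hW' c (isAway_awayMonoid m) hWS e y) := by
    refine (bijective_X_smul hqS m hone).1 ?_
    show (MvPolynomial.X (sqPrime q) : HeckePoly O) • alOneLoc A hW' c (isAway_awayMonoid m) hWS e (divX hqS m hone _ y)
      = (MvPolynomial.X (sqPrime q) : HeckePoly O) • divX hqS m hone _ (alOneLoc A hW' c (isAway_awayMonoid m) hWS e y)
    exact (hX _).symm.trans ((congrArg (fun t => alOneLoc A hW' c (isAway_awayMonoid m) hWS e t)
      (X_smul_divX hqS m hone _ y)).trans (X_smul_divX hqS m hone _ _).symm)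
  rw [upRoot_apply, upRoot_apply]
  refine (map_add (alOneLoc A hW' c (isAway_awayMonoid m) hWS e) _ _).trans ?_
  refine congrArg₂ (· + ·) (hX y) ((map_smul (alOneLoc A hW' c (isAway_awayMonoid m) hWS e) _ _).trans ?_)
  exact congrArg ((q : O) • ·) hd

omit [IsLocalRing O] in
include hW hWS he hqN in
/-- The raising map commutes with the involutions. -/
theorem alOneLoc_inRaise (hb' : ∀ a, a ∉ m → Function.Bijective
      (inEnd q (upRoot hqS m (oneRep O A N) hone) S a))
    (hup : ∀ y, alOneLoc A hW' c (isAway_awayMonoid m) hWS e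
        (upRoot hqS m (oneRep O A N) hone y)
      = upRoot hqS m (oneRep O A N) hone (alOneLoc A hW' c (isAway_awayMonoid m) hWS e y))
    (x : CohLoc (awayMonoid m) (oneRep O A N)) :
    alOneLoc A hW' c (isAway_awayMonoid m) hWS e
        (inRaise hqS m hone (ρ := oneRep O A N) (fun u => oneRep_eq_one u) hqN hb' x)
      = inRaise hqS m hone (ρ := oneRep O A N) (fun u => oneRep_eq_one u) hqN hb'
          (alOneLoc A hW c (isAway_awayMonoid m) hWS e x) := by
  obtain ⟨d1, d2, -, -⟩ := alOne_root_maps (A := A) hW hW' he hqN (c e)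
  have heq : q ≠ e := fun h => hqS (h ▸ hWS e he)
  have hX : ∀ (a : AwayPoly O S) z, alOneLoc A hW' c (isAway_awayMonoid m) hWS e
      (inEnd q (upRoot hqS m (oneRep O A N) hone) S a z)
      = inEnd q (upRoot hqS m (oneRep O A N) hone) S a
          (alOneLoc A hW' c (isAway_awayMonoid m) hWS e z) := by
    intro a
    induction a using MvPolynomial.induction_on with
    | C r =>
      intro z
      rw [← MvPolynomial.algebraMap_eq, AlgHom.commutes]
      exact map_smul (alOneLoc A hW' c (isAway_awayMonoid m) hWS e) r z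
    | add a b ha hb =>
      intro z
      simp only [map_add, LinearMap.add_apply]
      exact (map_add (alOneLoc A hW' c (isAway_awayMonoid m) hWS e) _ _).trans
        (congrArg₂ (· + ·) (ha z) (hb z))
    | mul_X a l ha =>
      intro z
      rw [map_mul, Module.End.mul_apply, Module.End.mul_apply]
      refine (ha _).trans (congrArg _ ?_)
      by_cases hl : ((l : Nat.Primes) : ℕ) = q
      · rw [inEnd_X_self _ _ hl, inEnd_X_self _ _ hl]
        exact hup z
      · rw [inEnd_X_ne _ _ hl, inEnd_X_ne _ _ hl]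
        exact alOneLoc_X_smul hW' c _ hWS he (fun h => l.2 (h ▸ hWS e he)) z
  induction x using LocalizedModule.induction_on with
  | _ u s =>
    obtain ⟨a, ha, has⟩ := s.2
    have has' : awayIncl O S a = (s : HeckePoly O) := has
    refine (hb' a ha).1 ?_
    have hmk : ∀ v : Coh1 (oneRep O A N),
        inEnd q (upRoot hqS m (oneRep O A N) hone) S a
            (inRaise hqS m hone (ρ := oneRep O A N) (fun u => oneRep_eq_one u) hqN hb'
              (LocalizedModule.mk v s))
          = inRaiseFun (q := q) m (oneRep O A N) v := fun v => by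
      unfold inRaise
      exact apply_locLiftEnd_mk (hb := hb')
        (hf := inRaise_aux hqS m hone (ρ := oneRep O A N) (fun u => oneRep_eq_one u) hqN) v s has'
    refine (hX a _).symm.trans ?_
    rw [alOneLoc_mk hW c _ hWS he, hmk, hmk, inRaiseFun_apply, inRaiseFun_apply]
    refine (alOneLoc_mk hW' c _ hWS he _ 1).trans (congrArg (LocalizedModule.mk · 1) ?_)
    refine (map_sub (alOne A hW' he (c e)) _ _).trans (congrArg₂ (· - ·)
      ((map_smul (alOne A hW' he (c e)) _ _).trans (congrArg _ (d2 u))) ?_)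
    exact (d1 _).trans (congrArg (degenOne (oneRep O A N) q) (alOne_heckeOp_ne hW he (c e) heq u))

omit [IsLocalRing O] in
include hW' hWS he in
/-- The lowering map commutes with the involutions. -/
theorem alOneLoc_inLower (α : Module.End (HeckePoly O) (CohLoc (awayMonoid m) (oneRep O A N)))
    (hαW : ∀ x, alOneLoc A hW c (isAway_awayMonoid m) hWS e (α x)
      = α (alOneLoc A hW c (isAway_awayMonoid m) hWS e x))
    (hα : ∀ x, α (α x) = (MvPolynomial.X (sqPrime q) : HeckePoly O) • α x - (q : O) • x)
    (hb : ∀ a, a ∉ m → Function.Bijective (inEnd q α S a))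
    (y : CohLoc (awayMonoid m) (pullRep (oneRep O A N) (dvd_mul_left N q))) :
    alOneLoc A hW c (isAway_awayMonoid m) hWS e
        (inLower m (ρ := oneRep O A N) (fun u => oneRep_eq_one u) hqN α hb hα y)
      = inLower m (ρ := oneRep O A N) (fun u => oneRep_eq_one u) hqN α hb hα
          (alOneLoc A hW' c (isAway_awayMonoid m) hWS e y) := by
  obtain ⟨-, -, h3, h4⟩ := alOne_root_maps (A := A) hW hW' he hqN (c e)
  set w := alOneLoc A hW c (isAway_awayMonoid m) hWS e with hw
  have hX : ∀ (a : AwayPoly O S) z, w (inEnd q α S a z) = inEnd q α S a (w z) := by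
    intro a
    induction a using MvPolynomial.induction_on with
    | C r => intro z; rw [← MvPolynomial.algebraMap_eq, AlgHom.commutes,
        Module.algebraMap_end_apply, Module.algebraMap_end_apply, map_smul]
    | add p p' hp hp' => intro z; simp only [map_add, LinearMap.add_apply, hp, hp']
    | mul_X p l hp =>
      intro z
      rw [map_mul, Module.End.mul_apply, Module.End.mul_apply, hp]
      congr 1
      by_cases hl : ((l : Nat.Primes) : ℕ) = q
      · rw [inEnd_X_self _ _ hl, inEnd_X_self _ _ hl, hw]; exact hαW z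
      · rw [inEnd_X_ne _ _ hl, inEnd_X_ne _ _ hl, hw]
        exact alOneLoc_X_smul hW c _ hWS he (fun h => l.2 (h ▸ hWS e he)) z
  induction y using LocalizedModule.induction_on with
  | _ v s =>
    obtain ⟨a, ha, has⟩ := s.2
    have has' : awayIncl O S a = (s : HeckePoly O) := has
    refine (hb a ha).1 ?_
    have hmk : ∀ (v : Coh1 (pullRep (oneRep O A N) (dvd_mul_left N q))),
        inEnd q α S a (inLower m (ρ := oneRep O A N) (fun u => oneRep_eq_one u) hqN α hb hα
          (LocalizedModule.mk v s)) = rootTransfer m α hqN v := fun v => by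
      unfold inLower
      exact apply_locLiftEnd_mk (hb := hb)
        (hf := inLower_aux m (ρ := oneRep O A N) (fun u => oneRep_eq_one u) hqN α hα) v s has'
    rw [← hX, hmk, rootTransfer_apply, map_sub, hw, hαW, alOneLoc_mk hW c _ hWS he,
      alOneLoc_mk hW c _ hWS he]
    refine Eq.trans ?_ (congrArg (inEnd q α S a)
      (congrArg (inLower m (ρ := oneRep O A N) (fun u => oneRep_eq_one u) hqN α hb hα)
        (alOneLoc_mk hW' c _ hWS he v s).symm))
    refine Eq.trans ?_ ((hmk _).trans (rootTransfer_apply m α hqN _)).symm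
    exact congrArg₂ (· - ·) (congrArg (LocalizedModule.mk · 1) (h3 v))
      (congrArg (fun z => α (LocalizedModule.mk z 1)) (h4 v))

end Sign

end Fermat.Agent.HeckeModule
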