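import Fermat.Agent.TwoAdic.Scalar.Tower
import Fermat.Agent.TwoAdic.Modules.Liftable

/-!
The signed parts of the tower: common fixed points consist of norms at the lower level, so every
signed class below is the image of a signed class above.
-/

set_option autoImplicit false

open IsLocalRing

universe uι

namespace Fermat.Agent.TwoAdic

/-- A surjection commuting with involutions is surjective on common fixed points, if those of the
target consist of norms. -/
theorem exists_fixed_preimage {R : Type} [CommRing R] {M M' : Type} [AddCommGroup M] [Module R M]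
    [AddCommGroup M'] [Module R M'] {ι : Type uι} [DecidableEq ι] (w : ι → Module.End R M)
    (w' : ι → Module.End R M') (f : M' →ₗ[R] M) (hf : Function.Surjective f) {W : Finset ι}
    (hfw : ∀ e ∈ W, ∀ y, w e (f y) = f (w' e y))
    (hw' : ∀ e ∈ W, ∀ y, w' e (w' e y) = y)
    (hcomm' : ∀ e ∈ W, ∀ e' ∈ W, ∀ y, w' e (w' e' y) = w' e' (w' e y))
    (hnorm : ∀ V ⊆ W, ∀ e ∈ V, ∀ x ∈ fixedPart w V, ∃ z ∈ fixedPart w (V.erase e), x = z + w e z)
    (V : Finset ι) (hV : V ⊆ W) : ∀ x ∈ fixedPart w V, ∃ y ∈ fixedPart w' V, f y = x := by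
  induction V using Finset.induction_on with
  | empty =>
    intro x _
    obtain ⟨y, hy⟩ := hf x
    exact ⟨y, (mem_fixedPart w').mpr fun e he => absurd he (Finset.notMem_empty e), hy⟩
  | insert a V ha ih =>
    intro x hx
    obtain ⟨z, hz, hxz⟩ := hnorm _ hV a (Finset.mem_insert_self a V) x hx
    rw [Finset.erase_insert ha] at hz
    obtain ⟨y, hy, hyz⟩ := ih ((Finset.subset_insert a V).trans hV) z hz
    have haW : a ∈ W := hV (Finset.mem_insert_self a V)
    refine ⟨y + w' a y, (mem_fixedPart w').mpr fun e he => ?_, ?_⟩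
    · rw [map_add]
      rcases Finset.mem_insert.mp he with rfl | he'
      · rw [hw' e haW, add_comm]
      · rw [← hcomm' a haW e (hV he), (mem_fixedPart w').mp hy e he']
    · rw [map_add, hyz, ← hfw a haW, hyz, ← hxz]

end Fermat.Agent.TwoAdic

namespace Fermat.Agent.HeckeModule

open TwoAdic

section Basic

variable {O : Type} [CommRing O] {N : ℕ} {W : Finset ℕ} {S : Set ℕ} {P : Submonoid (HeckePoly O)}
  (hW : IsALPrimes N W) (c : ℕ → O) (hP : IsAway S P) (hWS : ∀ e ∈ W, e ∈ S)
  (hsq : ∀ e ∈ W, c e * c e = 1)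

/-- The involution for the trivial character is the general one. -/
theorem alOneLoc_eq_alLoc (e : ℕ) :
    alOneLoc O hW c hP hWS e
      = alLoc O hW (fun e _ => Nat.coprime_one_right e) (one_dvd N) (1 : (ZMod 1)ˣ →* O) c hP hWS
          e := rfl

include hsq in
/-- The involutions square to one. -/
theorem alOneLoc_alOneLoc {e : ℕ} (he : e ∈ W) (x : CohLoc P (oneRep O O N)) :
    alOneLoc O hW c hP hWS e (alOneLoc O hW c hP hWS e x) = x := by
  rw [alOneLoc_eq_alLoc]
  exact alLoc_alLoc hW (fun e _ => Nat.coprime_one_right e) (one_dvd N) (1 : (ZMod 1)ˣ →* O) c hP hWS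
    (fun e he => by rw [hsq e he, MonoidHom.one_apply]) he x

/-- The involutions commute. -/
theorem alOneLoc_comm {e : ℕ} (he : e ∈ W) {e' : ℕ} (he' : e' ∈ W) (x : CohLoc P (oneRep O O N)) :
    alOneLoc O hW c hP hWS e (alOneLoc O hW c hP hWS e' x)
      = alOneLoc O hW c hP hWS e' (alOneLoc O hW c hP hWS e x) := by
  rw [alOneLoc_eq_alLoc, alOneLoc_eq_alLoc]
  exact alLoc_comm hW (fun e _ => Nat.coprime_one_right e) (one_dvd N) (1 : (ZMod 1)ˣ →* O) c hP hWS
    he he' x

end Basic

section Norm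

variable {O : Type} [CommRing O] [IsNoetherianRing O] [IsLocalRing O]
  [IsAdicComplete (maximalIdeal O) O] [CharP (ResidueField O) 2] {N : ℕ} [NeZero N] {W : Finset ℕ}
  {S : Set ℕ} (m : Ideal (AwayPoly O S)) [m.IsPrime]
  (hm : (maximalIdeal O).map (algebraMap O (AwayPoly O S)) ≤ m)
  (hW : IsALPrimes N W) (c : ℕ → O) (hWS : ∀ e ∈ W, e ∈ S) (hsq : ∀ e ∈ W, c e * c e = 1)

include hm hsq in
/-- Signed classes are norms. -/
theorem exists_norm_signed (hE : ExactHyp (awayMonoid m) (1 : (ZMod N)ˣ →* O))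
    (hlift : ∀ (V : Finset ℕ) (hV : V ⊆ W), TwoLiftable (PAL N V (hW.mono hV))) :
    ∀ V ⊆ W, ∀ e ∈ V, ∀ x ∈ fixedPart (alOneLoc O hW c (isAway_awayMonoid m) hWS) V,
      ∃ z ∈ fixedPart (alOneLoc O hW c (isAway_awayMonoid m) hWS) (V.erase e),
        x = z + alOneLoc O hW c (isAway_awayMonoid m) hWS e z := by
  have H : ALHyp hW (fun e _ => Nat.coprime_one_right e) (one_dvd N) (1 : (ZMod 1)ˣ →* O) c
      (m := m) :=
    { le := hm
      exact := hE
      two := natCast_two_mem
      char_one := fun u => by simp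
      sq := fun e he => by rw [hsq e he, MonoidHom.one_apply]
      lift := hlift }
  obtain ⟨hfin, hfree⟩ := free_cohChar_of_complete m _ H.le H.exact
  intro V hV e he x hx
  exact (fixedPart_spec _ (fun e he => alLoc_alLoc _ _ _ _ _ _ _ H.sq he)
    (fun e he e' he' => alLoc_comm _ _ _ _ _ _ _ he he') H.two (H.residuallyExact hWS) V hV).2.2
    e he x hx (V.erase e) (Finset.erase_subset e V) (Finset.notMem_erase e V)

end Norm

end Fermat.Agent.HeckeModule
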