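import Fermat.Agent.TwoAdic.Scalar.TowerBase
import Fermat.Agent.TwoAdic.Scalar.LocRootInFree
import Fermat.Agent.TwoAdic.Modules.TWSetup

/-!
All the steps at once: maps between the localised `H¹` of level `N` and of level `2 N ∏ e²`, at a
unit root `α` at `2` and killed by `U_e`, intertwining every Hecke operator and every involution.
-/

set_option autoImplicit false

open IsLocalRing

namespace Fermat.Agent.HeckeModule

open HeckeJ0 LevelRaising TwoAdic

variable {O : Type} [CommRing O] {N : ℕ} {W : Finset ℕ} {S : Set ℕ}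

/-- The operator at level `N` matched with `X_l` at the upper level. -/
noncomputable def stepOp {P : Submonoid (HeckePoly O)} (F : Finset ℕ)
    (α : Module.End (HeckePoly O) (CohLoc P (oneRep O O N))) (l : Nat.Primes) :
    Module.End O (CohLoc P (oneRep O O N)) :=
  if (l : ℕ) = 2 then α.restrictScalars O
  else if (l : ℕ) ∈ F then 0
  else Algebra.lsmul O O (CohLoc P (oneRep O O N)) (MvPolynomial.X l : HeckePoly O)

section Op

variable {P : Submonoid (HeckePoly O)} (F : Finset ℕ)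
  (α : Module.End (HeckePoly O) (CohLoc P (oneRep O O N))) {l : Nat.Primes}

lemma stepOp_two (h : (l : ℕ) = 2) (x : CohLoc P (oneRep O O N)) : stepOp F α l x = α x := by
  rw [stepOp, if_pos h]; rfl

lemma stepOp_mem (h : (l : ℕ) ≠ 2) (hl : (l : ℕ) ∈ F) (x : CohLoc P (oneRep O O N)) :
    stepOp F α l x = 0 := by
  rw [stepOp, if_neg h, if_pos hl]; rfl

lemma stepOp_notMem (h : (l : ℕ) ≠ 2) (hl : (l : ℕ) ∉ F) (x : CohLoc P (oneRep O O N)) :
    stepOp F α l x = (MvPolynomial.X l : HeckePoly O) • x := by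
  rw [stepOp, if_neg h, if_neg hl]; rfl

lemma stepOp_insert {e : ℕ} (h : (l : ℕ) ≠ e) (x : CohLoc P (oneRep O O N)) :
    stepOp (insert e F) α l x = stepOp F α l x := by
  by_cases h2 : (l : ℕ) = 2
  · rw [stepOp_two _ _ h2, stepOp_two _ _ h2]
  · by_cases hl : (l : ℕ) ∈ F
    · rw [stepOp_mem _ _ h2 hl, stepOp_mem _ _ h2 (Finset.mem_insert_of_mem hl)]
    · rw [stepOp_notMem _ _ h2 hl, stepOp_notMem _ _ h2 (by simp [h, hl])]

end Op

/-- The properties of the composite raising map `ι` and lowering map `ι'`. -/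
structure IsTower (m : Ideal (AwayPoly O S)) [m.IsPrime] (hW : IsALPrimes N W) (c : ℕ → O)
    (hWS : ∀ e ∈ W, e ∈ S)
    (α : Module.End (HeckePoly O) (CohLoc (awayMonoid m) (oneRep O O N))) (F : Finset ℕ) {L : ℕ}
    {S' : Set ℕ} (m' : Ideal (AwayPoly O S')) [m'.IsPrime] (hW' : IsALPrimes L W)
    (hWS' : ∀ e ∈ W, e ∈ S')
    (ι : CohLoc (awayMonoid m) (oneRep O O N) →ₗ[O] CohLoc (awayMonoid m') (oneRep O O L))
    (ι' : CohLoc (awayMonoid m') (oneRep O O L) →ₗ[O] CohLoc (awayMonoid m) (oneRep O O N)) :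
    Prop where
  /-- raising intertwines the Hecke operators -/
  smul_raise : ∀ (l : Nat.Primes) x,
    (MvPolynomial.X l : HeckePoly O) • ι x = ι (stepOp F α l x)
  /-- lowering intertwines the Hecke operators -/
  lower_smul : ∀ (l : Nat.Primes) y,
    ι' ((MvPolynomial.X l : HeckePoly O) • y) = stepOp F α l (ι' y)
  /-- raising is a split injection -/
  split : ∃ left : CohLoc (awayMonoid m') (oneRep O O L) →ₗ[O]
      CohLoc (awayMonoid m) (oneRep O O N), left ∘ₗ ι = LinearMap.id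
  /-- lowering is surjective -/
  surj : Function.Surjective ι'
  /-- lowering after raising -/
  comp : ∀ x, α (ι' (ι x)) = sqProd O F • (α (α (α (α x) - ((2 : ℕ) : O) • x))
    - (α (α x) - ((2 : ℕ) : O) • x))
  /-- raising commutes with the involutions -/
  w_raise : ∀ e ∈ W, ∀ x, alOneLoc O hW' c (isAway_awayMonoid m') hWS' e (ι x)
    = ι (alOneLoc O hW c (isAway_awayMonoid m) hWS e x)
  /-- lowering commutes with the involutions -/
  w_lower : ∀ e ∈ W, ∀ y, alOneLoc O hW c (isAway_awayMonoid m) hWS e (ι' y)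
    = ι' (alOneLoc O hW' c (isAway_awayMonoid m') hWS' e y)

variable [IsNoetherianRing O] [IsLocalRing O] [IsAdicComplete (maximalIdeal O) O]
  [CharP (ResidueField O) 2]

omit [IsNoetherianRing O] [IsAdicComplete (maximalIdeal O) O] in
lemma natCast_two_mem : ((2 : ℕ) : O) ∈ maximalIdeal O := by
  rw [← residue_eq_zero_iff, map_natCast]
  exact CharP.cast_eq_zero _ 2

variable [NeZero N] (m : Ideal (AwayPoly O S)) [m.IsPrime]
  (hm : (maximalIdeal O).map (algebraMap O (AwayPoly O S)) ≤ m)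
  (hW : IsALPrimes N W) (c : ℕ → O) (hWS : ∀ e ∈ W, e ∈ S)
  (α : Module.End (HeckePoly O) (CohLoc (awayMonoid m) (oneRep O O N)))
  {E : Finset ℕ}

omit [IsNoetherianRing O] [IsLocalRing O] [IsAdicComplete (maximalIdeal O) O]
  [CharP (ResidueField O) 2] [NeZero N] in
/-- Ihara primes and ellipticity give all the exactness conditions at every intermediate level. -/
theorem exactHyp_of_dvd {S' : Set ℕ} (hS' : S' ⊆ S) {t : ℕ → O}
    (H : IharaPrimes (awayMonoid m) (2 * N * sqPow E) 2 2)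
    (h₄ : ∀ x : ZMod N, x ^ 2 + 1 ≠ 0) (h₃ : ∀ x : ZMod N, x ^ 2 + x + 1 ≠ 0) {L : ℕ}
    (hNL : N ∣ L) (hL : L ∣ 2 * N * sqPow E) (χ : (ZMod L)ˣ →* O) (hχ : χ (-1) = 1) :
    ExactHyp (awayMonoid (relaxIdeal m S' t)) χ where
  nonEisenstein := ⟨H.r, H.primer.out, by
    have h := congrArg (ZMod.castHom hL (ZMod L)) H.r_eq
    rwa [map_natCast, map_one] at h, awayMonoid_le_relax hS' t m H.eisen_mem⟩
  liftable := liftable_of_dvd hNL h₄ h₃
  even := hχ

include hm in
/-- **The composite of all steps.** -/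
theorem exists_tower (h2N : ¬ 2 ∣ N) (hE : ∀ e ∈ E, e.Prime ∧ e ≠ 2 ∧ ¬ e ∣ N)
    (h2S : 2 ∉ S) (hSE : ∀ e ∈ E, e ∈ S)
    (H : IharaPrimes (awayMonoid m) (2 * N * sqPow E) 2 2)
    (h₄ : ∀ x : ZMod N, x ^ 2 + 1 ≠ 0) (h₃ : ∀ x : ZMod N, x ^ 2 + x + 1 ≠ 0)
    (hone : MvPolynomial.X (@inIndex 2 ⟨Nat.prime_two⟩ S h2S) - MvPolynomial.C 1 ∈ m)
    (hαb : Function.Bijective α)
    (hα : ∀ x, α (α x) = (MvPolynomial.X (@sqPrime 2 ⟨Nat.prime_two⟩) : HeckePoly O) • α x
      - ((2 : ℕ) : O) • x)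
    (F : Finset ℕ) (hF : F ⊆ E) (L : ℕ) (hL : L = 2 * N * sqPow F) (S' : Set ℕ)
    (hS' : S' = S \ ↑F) (m' : Ideal (AwayPoly O S')) [m'.IsPrime]
    (hm' : m' = relaxIdeal m S' fun _ => 0) (hW' : IsALPrimes L W) (hWS' : ∀ e ∈ W, e ∈ S') :
    ∃ ι ι', IsTower m hW c hWS α F m' hW' hWS' ι ι' := by
  classical
  have : Fact (Nat.Prime 2) := ⟨Nat.prime_two⟩
  have hW2 : ∀ e ∈ W, e ≠ 2 := fun e he h => h2N (h ▸ (hW e he).2.1)
  induction F using Finset.induction_on generalizing L S' with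
  | empty =>
    rw [sqPow_empty, mul_one] at hL
    subst hL
    rw [Finset.coe_empty, Set.sdiff_empty] at hS'
    subst hS'
    obtain rfl : m' = m := hm'.trans (Ideal.ext fun a => by
      rw [Ideal.mem_comap, relaxHom_self_apply])
    have hN0 : N ∣ 2 * N * sqPow E := (dvd_mul_left N 2).mul_right _
    have hEx : ExactHyp (awayMonoid m') (1 : (ZMod N)ˣ →* O) :=
      { nonEisenstein := ⟨H.r, H.primer.out, by
          have h := congrArg (ZMod.castHom hN0 (ZMod N)) H.r_eq
          rwa [map_natCast, map_one] at h, H.eisen_mem⟩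
        liftable := liftable_of_dvd dvd_rfl h₄ h₃
        even := rfl }
    have hEx' : ExactHyp (awayMonoid m') (upChar 2 (1 : (ZMod N)ˣ →* O)) :=
      { nonEisenstein := ⟨H.r, H.primer.out, by
          have h := congrArg (ZMod.castHom (dvd_mul_right (2 * N) (sqPow E)) (ZMod (2 * N))) H.r_eq
          rwa [map_natCast, map_one] at h, H.eisen_mem⟩
        liftable := liftable_of_dvd (dvd_mul_left N 2) h₄ h₃
        even := rfl }
    have : NeZero (2 * N) := ⟨mul_ne_zero two_ne_zero (NeZero.ne N)⟩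
    obtain ⟨hfin, -⟩ := free_cohChar_of_complete m' (1 : (ZMod N)ˣ →* O) hm hEx
    have : Module.Finite O (CohLoc (awayMonoid m') (oneRep O O N)) := hfin
    obtain ⟨hfin₂, -⟩ := free_cohChar_of_complete m' (upChar 2 (1 : (ZMod N)ˣ →* O)) hm hEx'
    have : Module.Finite O
        (CohLoc (awayMonoid m') (pullRep (oneRep O O N) (dvd_mul_left N 2))) := hfin₂
    let H2 : IharaPrimes (awayMonoid m') N 2 2 :=
      { ℓ := H.ℓ, r := H.r, primeℓ := H.primeℓ, primer := H.primer
        lt := lt_of_le_of_lt (Nat.le_of_dvd (Nat.pos_of_ne_zero (mul_ne_zero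
          (mul_ne_zero two_ne_zero (NeZero.ne N)) (sqPow_ne_zero fun e he => (hE e he).1))) hN0) H.lt
        ne_p := H.ne_p, ne_q := H.ne_q, ne_two := H.ne_two
        r_eq := by
          have h := congrArg (ZMod.castHom hN0 (ZMod N)) H.r_eq
          rwa [map_natCast, map_one] at h
        ihara_mem := H.ihara_mem, eisen_mem := H.eisen_mem }
    have hb : ∀ a, a ∉ m' → Function.Bijective (inEnd 2 α S' a) := fun a ha =>
      bijective_inEnd 2 α (root_sub_X_mem natCast_two_mem α hαb hα)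
        (bijective_smul_of_mem (mem_awayMonoid ha))
    have hb' : ∀ a, a ∉ m' → Function.Bijective
        (inEnd 2 (upRoot h2S m' (oneRep O O N) hone) S' a) := fun a ha =>
      bijective_inEnd 2 _ (fun y => by
        rw [upRoot_apply, add_sub_cancel_left]
        exact Submodule.smul_mem_smul natCast_two_mem Submodule.mem_top)
        (bijective_smul_of_mem (mem_awayMonoid ha))
    have hχ0 : ∀ u, (1 : (ZMod N)ˣ →* O) u - 1 ∈ maximalIdeal O := fun u => by simp
    have hαW : ∀ e ∈ W, ∀ x, alOneLoc O hW c (isAway_awayMonoid m') hWS e (α x)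
        = α (alOneLoc O hW c (isAway_awayMonoid m') hWS e x) := fun e he x =>
      comm_of_root natCast_two_mem (alOneLoc O hW c (isAway_awayMonoid m') hWS e)
        (T := Algebra.lsmul O O _ (MvPolynomial.X (sqPrime 2) : HeckePoly O))
        (T' := Algebra.lsmul O O _ (MvPolynomial.X (sqPrime 2) : HeckePoly O))
        (α := α.restrictScalars O) (α' := α.restrictScalars O)
        (fun y => alOneLoc_X_smul hW c _ hWS he (Ne.symm (hW2 e he)) y) hαb hαb hα
        (fun y => (α.map_smul _ y).symm) hα x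
    refine ⟨inRaise h2S m' hone (ρ := oneRep O O N) (fun u => oneRep_eq_one u) h2N hb',
      inLower m' (ρ := oneRep O O N) (fun u => oneRep_eq_one u) h2N α hb hα,
      ⟨fun l x => ?_, fun l y => ?_, ?_, ?_, fun x => ?_, fun e he x => ?_, fun e he y => ?_⟩⟩
    · by_cases hl : (l : ℕ) = 2
      · rw [stepOp_two _ _ hl, show l = sqPrime 2 from Subtype.ext hl]
        exact X_smul_inRaise_self h2S m' hone (ρ := oneRep O O N) (fun u => oneRep_eq_one u) h2N α
          hb' natCast_two_mem hαb hα x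
      · rw [stepOp_notMem _ _ hl (Finset.notMem_empty _)]
        exact X_smul_inRaise h2S m' hone (ρ := oneRep O O N) (fun u => oneRep_eq_one u) h2N hb' hl x
    · by_cases hl : (l : ℕ) = 2
      · rw [stepOp_two _ _ hl, show l = sqPrime 2 from Subtype.ext hl]
        exact inLower_X_smul_self h2S m' (ρ := oneRep O O N) (fun u => oneRep_eq_one u) h2N α hb hα y
      · rw [stepOp_notMem _ _ hl (Finset.notMem_empty _)]
        exact inLower_X_smul m' (ρ := oneRep O O N) (fun u => oneRep_eq_one u) h2N α hb hα hl y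
    · exact exists_leftInverse_inRaise h2S m' hm hone hEx hEx' H2 h2N natCast_two_mem hχ0
        oneRep_eq_one hb'
    · exact surjective_inLower m' hm hEx H2 h2N hχ0 oneRep_eq_one
        (liftable_of_dvd dvd_rfl h₄ h₃) (liftable_of_dvd (dvd_mul_left N 2) h₄ h₃) α hb hα
    · rw [sqProd_empty, one_smul]
      exact inLower_inRaise h2S m' hone (ρ := oneRep O O N) (fun u => oneRep_eq_one u) h2N α hb hb'
        hα hm x
    · exact alOneLoc_inRaise h2S m' hone hW hW' c hWS he h2N hb'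
        (fun y => alOneLoc_upRoot h2S m' hone hW' c hWS he y) x
    · exact alOneLoc_inLower m' hW hW' c hWS he h2N α (hαW e he) hα hb y
  | insert e F heF ih =>
    have heE : e ∈ E := hF (Finset.mem_insert_self e F)
    obtain ⟨hep, he2, heN⟩ := hE e heE
    have : Fact e.Prime := ⟨hep⟩
    have hFE : F ⊆ E := (Finset.subset_insert e F).trans hF
    set L₁ := 2 * N * sqPow F with hL₁
    set S₁ : Set ℕ := S \ ↑F with hS₁
    obtain rfl : L = e * (e * L₁) := by rw [hL, sqPow_insert heF, hL₁]; ring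
    obtain rfl : S' = S₁ \ {e} := by
      rw [hS', hS₁]; ext x; simp only [Finset.coe_insert, Set.mem_sdiff, Set.mem_insert_iff,
        Finset.mem_coe, Set.mem_singleton_iff]; tauto
    have hS1 : S₁ ⊆ S := Set.sdiff_subset
    have heS : e ∈ S₁ :=
      ⟨hSE e heE, by simp [heF]⟩
    obtain rfl : m' = sqIdeal (relaxIdeal m S₁ fun _ => 0) e := by
      rw [hm']
      refine Ideal.ext fun a => ?_
      rw [Ideal.mem_comap, Ideal.mem_comap, Ideal.mem_comap, ← relaxHom_trans hS1 fun _ => (0 : O)]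
    have hW₁ : IsALPrimes L₁ W := by
      rw [hL₁, mul_assoc, mul_comm N, ← mul_assoc]
      refine isALPrimes_mul_of_coprime hW fun f hf h => ?_
      have hfp := (hW f hf).1
      rcases hfp.dvd_mul.mp h with h | h
      · exact hW2 f hf ((Nat.prime_dvd_prime_iff_eq hfp Nat.prime_two).mp h)
      · exact (hE f (hFE (mem_of_dvd_sqPow (fun x hx => (hE x (hFE hx)).1) hfp h))).2.2
          (hW f hf).2.1
    have hWS₁ : ∀ f ∈ W, f ∈ S₁ := fun f hf => (hWS' f hf).1
    obtain ⟨ι₁, ι₁', T⟩ := ih hFE L₁ hL₁ S₁ hS₁ (relaxIdeal m S₁ fun _ => 0) rfl hW₁ hWS₁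
    have heL : ¬ e ∣ L₁ := fun h => by
      rcases hep.dvd_mul.mp h with h | h
      · rcases hep.dvd_mul.mp h with h | h
        · exact he2 ((Nat.prime_dvd_prime_iff_eq hep Nat.prime_two).mp h)
        · exact heN h
      · exact heF (mem_of_dvd_sqPow (fun x hx => (hE x (hFE hx)).1) hep h)
    have : NeZero L₁ := ⟨mul_ne_zero (mul_ne_zero two_ne_zero (NeZero.ne N))
      (sqPow_ne_zero fun x hx => (hE x (hFE hx)).1)⟩
    have hNL : N ∣ L₁ := (dvd_mul_left N 2).mul_right _
    have hLE : e * (e * L₁) ∣ 2 * N * sqPow E := by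
      rw [show e * (e * L₁) = 2 * N * sqPow (insert e F) by rw [sqPow_insert heF, hL₁]; ring]
      exact Nat.mul_dvd_mul_left _ (dvd_sqPow_mono hF)
    have hLE' : L₁ ∣ 2 * N * sqPow E :=
      ((dvd_mul_left L₁ e).trans (dvd_mul_left _ e)).trans hLE
    have hm1 : (maximalIdeal O).map (algebraMap O (AwayPoly O S₁))
        ≤ relaxIdeal m S₁ fun _ => 0 := le_relaxIdeal _ m hm
    have hEx : ExactHyp (awayMonoid (relaxIdeal m S₁ fun _ => 0)) (1 : (ZMod L₁)ˣ →* O) :=
      exactHyp_of_dvd m hS1 H h₄ h₃ hNL hLE' _ rfl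
    have hEx' : ExactHyp (awayMonoid (sqIdeal (relaxIdeal m S₁ fun _ => 0) e))
        (upChar e (upChar e (1 : (ZMod L₁)ˣ →* O))) :=
      { nonEisenstein := ⟨H.r, H.primer.out, by
          have h := congrArg (ZMod.castHom hLE (ZMod (e * (e * L₁)))) H.r_eq
          rwa [map_natCast, map_one] at h,
          awayMonoid_le_relax Set.sdiff_subset _ _ (awayMonoid_le_relax hS1 _ m H.eisen_mem)⟩
        liftable := liftable_of_dvd ((hNL.mul_left e).mul_left e) h₄ h₃
        even := rfl }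
    have hpos : 0 < 2 * N * sqPow E := Nat.pos_of_ne_zero (mul_ne_zero
      (mul_ne_zero two_ne_zero (NeZero.ne N)) (sqPow_ne_zero fun x hx => (hE x hx).1))
    let He : IharaPrimes (awayMonoid (relaxIdeal m S₁ fun _ => 0)) L₁ e 2 :=
      { ℓ := H.ℓ, r := H.r, primeℓ := H.primeℓ, primer := H.primer
        lt := lt_of_le_of_lt (Nat.le_of_dvd hpos hLE') H.lt
        ne_p := H.ne_p
        ne_q := ne_of_gt (lt_of_le_of_lt (Nat.le_of_dvd hpos ((dvd_mul_right e (e * L₁)).trans hLE))
          H.lt)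
        ne_two := H.ne_two
        r_eq := by
          have h := congrArg (ZMod.castHom hLE' (ZMod L₁)) H.r_eq
          rwa [map_natCast, map_one] at h
        ihara_mem := awayMonoid_le_relax hS1 _ m H.ihara_mem
        eisen_mem := awayMonoid_le_relax hS1 _ m H.eisen_mem }
    have hχ1 : ∀ u, (1 : (ZMod L₁)ˣ →* O) u - 1 ∈ maximalIdeal O := fun u => by simp
    set R := sqRaiseLoc (q := e) heS (relaxIdeal m S₁ fun _ => 0) (oneRep O O L₁) with hR
    set R' := sqLowerLoc heS (relaxIdeal m S₁ fun _ => 0) (ρ := oneRep O O L₁) oneRep_eq_one heL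
      with hR'
    refine ⟨R ∘ₗ ι₁, ι₁' ∘ₗ R', ⟨fun l x => ?_, fun l y => ?_, ?_, ?_, fun x => ?_,
      fun f hf x => ?_, fun f hf y => ?_⟩⟩
    · by_cases hl : (l : ℕ) = e
      · rw [stepOp_mem _ _ (hl ▸ he2) (by simp [hl]), map_zero,
          show l = sqPrime e from Subtype.ext hl]
        exact X_smul_sqRaiseLoc_self _ heS oneRep_eq_one heL (ι₁ x)
      · rw [stepOp_insert _ _ hl, LinearMap.comp_apply, LinearMap.comp_apply, ← T.smul_raise]
        exact X_smul_sqRaiseLoc _ heS hl (ι₁ x)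
    · by_cases hl : (l : ℕ) = e
      · rw [stepOp_mem _ _ (hl ▸ he2) (by simp [hl]), show l = sqPrime e from Subtype.ext hl]
        exact (congrArg ι₁' (sqLowerLoc_X_smul_self _ heS oneRep_eq_one heL y)).trans (map_zero ι₁')
      · rw [stepOp_insert _ _ hl, LinearMap.comp_apply, LinearMap.comp_apply, ← T.lower_smul]
        exact congrArg ι₁' (sqLowerLoc_X_smul _ heS oneRep_eq_one heL hl y)
    · obtain ⟨left₁, hleft₁⟩ := T.split
      obtain ⟨left, hleft⟩ := exists_leftInverse_sqRaiseLoc hm1 heS hEx hEx' He heL he2 hχ1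
      refine ⟨left₁ ∘ₗ left, LinearMap.ext fun x => ?_⟩
      exact (congrArg left₁ (LinearMap.congr_fun hleft (ι₁ x))).trans
        (LinearMap.congr_fun hleft₁ x)
    · exact T.surj.comp (surjective_sqLowerLoc hm1 heS hEx hEx' He heL he2 hχ1
        (liftable_of_dvd hNL h₄ h₃) oneRep_eq_one)
    · have hcomp : R' (R (ι₁ x)) = sqElt O e • ι₁ x :=
        sqLowerLoc_sqRaiseLoc heS _ oneRep_eq_one heL (ι₁ x)
      have h1 : ι₁' (sqElt O e • ι₁ x) = sqElt O e • ι₁' (ι₁ x) :=
        map_sqElt_smul ι₁' (fun y => by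
          rw [T.lower_smul, stepOp_notMem _ _ (l := sqPrime e) he2 heF]) (ι₁ x)
      refine (congrArg α ((congrArg ι₁' hcomp).trans h1)).trans ?_
      rw [map_smul α, T.comp, sqProd_insert heF, mul_smul]
    · exact (alOneLoc_sqRaiseLoc _ hW₁ c hWS₁ hf heS hW' hWS'
        (fun h => heL (h ▸ (hW₁ f hf).2.1)) (ι₁ x)).trans (congrArg R (T.w_raise f hf x))
    · exact (T.w_lower f hf (R' y)).trans (congrArg ι₁' (alOneLoc_sqLowerLoc _ hW₁ c hWS₁ hf heS
        hW' hWS' heL (fun h => heL (h ▸ (hW₁ f hf).2.1)) y))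

end Fermat.Agent.HeckeModule
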