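import Fermat.Agent.TwoAdic.Scalar.LocRaiseFree
import Fermat.Agent.TwoAdic.Scalar.LocRoot
import Fermat.Agent.TwoAdic.Scalar.LocSign
import Fermat.Agent.HeckeModule.Elliptic

/-!
Small facts used to iterate the steps at squares and at a root: levels, the endomorphisms
commuting with a root, and the composite multiplier.
-/

set_option autoImplicit false

open IsLocalRing

namespace Fermat.Agent.HeckeModule

open HeckeJ0 LevelRaising TwoAdic

section Level

/-- The absence of elliptic points passes to multiples of the level. -/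
theorem liftable_of_dvd {R : Type} [CommRing R] {N L : ℕ} (hNL : N ∣ L)
    (h₄ : ∀ t : ZMod N, t ^ 2 + 1 ≠ 0) (h₃ : ∀ t : ZMod N, t ^ 2 + t + 1 ≠ 0) : Liftable R L := by
  refine ⟨Or.inr (S_smul_ne_self fun t ht => ?_), Or.inr (elV_smul_ne_self fun t ht => ?_)⟩
  · have h := congrArg (ZMod.castHom hNL (ZMod N)) ht
    simp only [map_add, map_pow, map_one, map_zero] at h
    exact h₄ _ h
  · have h := congrArg (ZMod.castHom hNL (ZMod N)) ht
    simp only [map_add, map_pow, map_one, map_zero] at h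
    exact h₃ _ h

/-- Atkin–Lehner primes stay so when the level is multiplied by a number prime to them. -/
theorem isALPrimes_mul_of_coprime {N d : ℕ} {W : Finset ℕ} (hW : IsALPrimes N W)
    (hd : ∀ e ∈ W, ¬ e ∣ d) : IsALPrimes (d * N) W := fun e he => by
  obtain ⟨hp, hdvd, hnd⟩ := hW e he
  refine ⟨hp, hdvd.mul_left d, fun h => hnd ?_⟩
  have hc : e.Coprime d := (Nat.Prime.coprime_iff_not_dvd hp).mpr (hd e he)
  exact (hc.mul_left hc).dvd_of_dvd_mul_left h

/-- `∏ e²`. -/
def sqPow (F : Finset ℕ) : ℕ := ∏ e ∈ F, e * e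

lemma sqPow_empty : sqPow ∅ = 1 := Finset.prod_empty

lemma sqPow_insert {F : Finset ℕ} {e : ℕ} (h : e ∉ F) : sqPow (insert e F) = e * e * sqPow F :=
  Finset.prod_insert h

lemma dvd_sqPow_mono {F E : Finset ℕ} (h : F ⊆ E) : sqPow F ∣ sqPow E :=
  Finset.prod_dvd_prod_of_subset F E _ h

lemma mem_of_dvd_sqPow {F : Finset ℕ} (hF : ∀ e ∈ F, e.Prime) {r : ℕ} (hr : r.Prime)
    (h : r ∣ sqPow F) : r ∈ F := by
  obtain ⟨e, he, hd⟩ := ((Nat.prime_iff.mp hr).dvd_finsetProd_iff _).mp h
  have := (hr.dvd_mul.mp hd).elim id id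
  exact (Nat.prime_dvd_prime_iff_eq hr (hF e he)).mp this ▸ he

lemma sqPow_ne_zero {F : Finset ℕ} (hF : ∀ e ∈ F, e.Prime) : sqPow F ≠ 0 :=
  Finset.prod_ne_zero_iff.mpr fun e he => mul_ne_zero (hF e he).ne_zero (hF e he).ne_zero

end Level

section Relax

variable {O : Type} [CommRing O]

/-- Two relaxations compose. -/
lemma relaxHom_trans {S S₁ : Set ℕ} (h : S₁ ⊆ S) (t : ℕ → O) {S₂ : Set ℕ}
    (a : AwayPoly O S₂) :
    relaxHom O S S₁ t (relaxHom O S₁ S₂ t a) = relaxHom O S S₂ t a := by
  induction a using MvPolynomial.induction_on with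
  | C r => rw [← MvPolynomial.algebraMap_eq, AlgHom.commutes, AlgHom.commutes, AlgHom.commutes]
  | add p p' hp hp' => rw [map_add, map_add, map_add, hp, hp']
  | mul_X p l hp =>
    rw [map_mul, map_mul, map_mul, hp]
    congr 1
    simp only [relaxHom, MvPolynomial.aeval_X]
    by_cases h1 : ((l : Nat.Primes) : ℕ) ∈ S₁
    · rw [dif_pos h1, dif_pos (h h1), MvPolynomial.aeval_C, MvPolynomial.algebraMap_eq]
    · rw [dif_neg h1, MvPolynomial.aeval_X]

end Relax

section Root

variable {O : Type} [CommRing O] [IsLocalRing O] {E : Type} [AddCommGroup E] [Module O E]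
  [Module (HeckePoly O) E] [IsScalarTower O (HeckePoly O) E]

omit [IsScalarTower O (HeckePoly O) E] in
/-- A unit root of `X² - T X + q` is congruent to `T` modulo the maximal ideal. -/
theorem root_sub_X_mem {l : Nat.Primes} {q : O} (hq : q ∈ maximalIdeal O)
    (α : Module.End (HeckePoly O) E) (hαb : Function.Bijective α)
    (hα : ∀ x, α (α x) = (MvPolynomial.X l : HeckePoly O) • α x - q • x) (x : E) :
    α x - (MvPolynomial.X l : HeckePoly O) • x ∈ maximalIdeal O • (⊤ : Submodule O E) := by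
  obtain ⟨z, rfl⟩ := hαb.2 x
  rw [hα, sub_right_comm, sub_self, zero_sub]
  exact neg_mem (Submodule.smul_mem_smul hq Submodule.mem_top)

end Root

section Mult

variable {O : Type} [CommRing O]

open Classical in
/-- `∏ (e - 1) ((e + 1)² - X_e²)`. -/
noncomputable def sqProd (O : Type) [CommRing O] (F : Finset ℕ) : HeckePoly O :=
  ∏ e ∈ F, if h : e.Prime then @sqElt O _ e ⟨h⟩ else 1

lemma sqProd_empty : sqProd O ∅ = 1 := Finset.prod_empty

lemma sqProd_insert {F : Finset ℕ} {e : ℕ} [he : Fact e.Prime] (h : e ∉ F) :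
    sqProd O (insert e F) = sqElt O e * sqProd O F := by
  classical
  rw [sqProd, sqProd, Finset.prod_insert h, dif_pos he.out]

/-- A map commuting with `X_e` commutes with `sqElt`. -/
theorem map_sqElt_smul {e : ℕ} [he : Fact e.Prime] {E E' : Type} [AddCommGroup E] [Module O E]
    [Module (HeckePoly O) E] [IsScalarTower O (HeckePoly O) E] [AddCommGroup E'] [Module O E']
    [Module (HeckePoly O) E'] [IsScalarTower O (HeckePoly O) E'] (f : E →ₗ[O] E')
    (hf : ∀ y, f ((MvPolynomial.X (sqPrime e) : HeckePoly O) • y)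
      = (MvPolynomial.X (sqPrime e) : HeckePoly O) • f y) (y : E) :
    f (sqElt O e • y) = sqElt O e • f y := by
  have hC : ∀ (r : O) (v : E), (MvPolynomial.C r : HeckePoly O) • v = r • v := fun r v =>
    algebraMap_smul (HeckePoly O) r v
  have hC' : ∀ (r : O) (v : E'), (MvPolynomial.C r : HeckePoly O) • v = r • v := fun r v =>
    algebraMap_smul (HeckePoly O) r v
  simp only [sqElt, mul_smul, sub_smul, pow_two (MvPolynomial.X (sqPrime e)), hC, hC', map_smul,
    map_sub, hf]

end Mult

end Fermat.Agent.HeckeModule
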