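import Fermat.Agent.HeckeModule.TraceHecke
import Fermat.Agent.HeckeModule.TraceSurjective

/-!
Transfers from level `qM` to level `M` when `q ∣ M`: representatives `[[1,0],[Mj,1]]` and
`[[1,j],[0,q]]`, their values on intersection classes and commutation with the Hecke operators.
-/

set_option autoImplicit false

open CongruenceSubgroup Matrix.SpecialLinearGroup
open scoped MatrixGroups OnePoint

universe uO uA

namespace Fermat.Agent.HeckeModule

open HeckeJ0 LevelRaising

variable {M q : ℕ} [hq : Fact q.Prime]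

/-- Representatives of `Γ₀(qM) \ Γ₀(M)` for `q ∣ M`. -/
def stepReps (M q : ℕ) (j : Fin q) : Mat := mm 1 0 ((M : ℤ) * (j : ℕ)) 1

/-- Representatives of `Γ₀(qM) \ diag(1,q) Γ₀(M)` for `q ∣ M`. -/
def stepDegReps (q : ℕ) (j : Fin q) : Mat := mm 1 (j : ℕ) 0 q

omit hq in
@[simp] lemma det_stepReps (j : Fin q) : (stepReps M q j).det = 1 := by simp [stepReps]

omit hq in
@[simp] lemma det_stepDegReps (j : Fin q) : (stepDegReps q j).det = q := by simp [stepDegReps]

omit hq in
lemma stepReps_mem (j : Fin q) : stepReps M q j ∈ Lvl M :=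
  mm_mem_detLevel.mpr ⟨by ring, dvd_mul_right _ _⟩

omit hq in
lemma stepReps_apply_zero (j : Fin q) :
    (stepReps M q j 0 0 : ZMod M) = 1 ∧ (stepReps M q j 1 0 : ZMod M) = 0 := by simp [stepReps]

omit hq in
lemma stepDegReps_apply_zero (j : Fin q) :
    (stepDegReps q j 0 0 : ZMod M) = 1 ∧ (stepDegReps q j 1 0 : ZMod M) = 0 := by
  simp [stepDegReps]

omit hq in
/-- The diagonal entries are prime to `q`. -/
lemma not_dvd_diag (hqM : q ∣ M) {r : ℤ} (hr : ¬ (q : ℤ) ∣ r) {z : Mat}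
    (hz : z ∈ DetLevel M r) : ¬ (q : ℤ) ∣ z 0 0 ∧ ¬ (q : ℤ) ∣ z 1 1 := by
  obtain ⟨hd, hc⟩ := hz
  rw [Matrix.det_fin_two] at hd
  have hc' : (q : ℤ) ∣ z 1 0 := (Int.natCast_dvd_natCast.mpr hqM).trans hc
  constructor <;> intro h <;> refine hr (hd ▸ dvd_sub ?_ (hc'.mul_left _))
  · exact h.mul_right _
  · exact h.mul_left _

theorem fact_stepReps [NeZero M] (hqM : q ∣ M) {r : ℤ} (hr : ¬ (q : ℤ) ∣ r) :
    IsFact (DetLevel M r) (DetLevel (q * M) r) (stepReps M q) where
  det_ne_zero j := by rw [det_stepReps]; exact one_ne_zero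
  mem y hy j := by
    have := detLevel_mul (lvl_mono (dvd_mul_left M q) hy) (stepReps_mem (M := M) j)
    rwa [mul_one] at this
  fact := by
    intro x hx
    obtain ⟨hd, C, hC⟩ := hx
    rw [Matrix.det_fin_two, hC] at hd
    obtain ⟨j, u, hu⟩ := exists_fin_dvd hq.out (not_dvd_diag hqM hr
      (show x ∈ DetLevel M r from ⟨by rw [Matrix.det_fin_two, hC]; exact hd, C, hC⟩)).2 C
    refine ⟨j, mm (x 0 0 - x 0 1 * ((M : ℤ) * (j : ℕ))) (x 0 1) ((q : ℤ) * (M : ℤ) * u) (x 1 1),
      mm_mem_detLevel.mpr ⟨?_, by push_cast; exact dvd_mul_right _ _⟩, ?_⟩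
    · linear_combination hd + (M : ℤ) * x 0 1 * hu
    · conv_lhs => rw [mm_eta x, hC]
      simp only [stepReps, mm_mul, mm_inj]
      refine ⟨by ring, by ring, ?_, by ring⟩
      linear_combination (M : ℤ) * hu
  unique := by
    intro i j y y' hy hy' e
    obtain ⟨-, c, hc⟩ := id hy
    obtain ⟨-, c', hc'⟩ := hy'
    have hd := (not_dvd_diag hqM hr (lvl_mono (dvd_mul_left M q) hy)).2
    rw [mm_eta y, mm_eta y', hc, hc'] at e
    simp only [stepReps, mm_mul, mm_inj] at e
    obtain ⟨-, -, e3, e4⟩ := e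
    push_cast at e3
    have hM : (M : ℤ) ≠ 0 := by exact_mod_cast NeZero.ne M
    refine fin_eq_of_dvd ((((Nat.prime_iff_prime_int.mp hq.out).dvd_or_dvd
      (a := y 1 1) ⟨c' - c, mul_left_cancel₀ hM ?_⟩)).resolve_left hd)
    linear_combination e3 - (M : ℤ) * ((j : ℕ) : ℤ) * e4

theorem fact_stepDegReps (hqM : q ∣ M) {r : ℤ} (hr : ¬ (q : ℤ) ∣ r) :
    IsFact ((mm 1 0 0 (q : ℤ) * ·) '' DetLevel M r) (DetLevel (q * M) r) (stepDegReps q) where
  det_ne_zero j := by rw [det_stepDegReps]; exact_mod_cast hq.out.ne_zero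
  mem y hy j := by
    obtain ⟨hd, C, hC⟩ := hy
    push_cast at hC
    rw [Matrix.det_fin_two, hC] at hd
    refine ⟨mm (y 0 0) (y 0 0 * (j : ℕ) + y 0 1 * q) ((M : ℤ) * C)
      ((M : ℤ) * C * (j : ℕ) + y 1 1), mm_mem_detLevel.mpr
        ⟨by linear_combination hd, dvd_mul_right _ _⟩, ?_⟩
    conv_rhs => rw [mm_eta y, hC]
    simp only [stepDegReps, mm_mul, mm_inj]
    refine ⟨?_, ?_, ?_, ?_⟩ <;> ring
  fact := by
    rintro _ ⟨z, hz, rfl⟩
    have hz0 := (not_dvd_diag hqM hr hz).1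
    obtain ⟨hd, C, hC⟩ := hz
    rw [Matrix.det_fin_two, hC] at hd
    obtain ⟨j, u, hu⟩ := exists_fin_dvd hq.out hz0 (z 0 1)
    refine ⟨j, mm (z 0 0) u ((q : ℤ) * M * C) (z 1 1 - (M : ℤ) * C * (j : ℕ)),
      mm_mem_detLevel.mpr ⟨?_, by push_cast; exact dvd_mul_right _ _⟩, ?_⟩
    · linear_combination hd + (M : ℤ) * C * hu
    · conv_lhs => rw [mm_eta z, hC]
      simp only [stepDegReps, mm_mul, mm_inj]
      refine ⟨by ring, ?_, by ring, by ring⟩
      linear_combination hu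
  unique := by
    intro i j y y' hy hy' e
    have hd := (not_dvd_diag hqM hr (lvl_mono (dvd_mul_left M q) hy)).1
    rw [mm_eta y, mm_eta y'] at e
    simp only [stepDegReps, mm_mul, mm_inj] at e
    obtain ⟨e1, e2, -, -⟩ := e
    refine fin_eq_of_dvd ((((Nat.prime_iff_prime_int.mp hq.out).dvd_or_dvd
      (a := y 0 0) ⟨y' 0 1 - y 0 1, ?_⟩)).resolve_left hd)
    linear_combination e2 - ((j : ℕ) : ℤ) * e1

lemma not_dvd_one_int : ¬ (q : ℤ) ∣ 1 := by exact_mod_cast hq.out.not_dvd_one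

variable (hqM : q ∣ M)

lemma fact_stepDegReps_one (hqM : q ∣ M) :
    IsFact (degenSet M q) (Lvl (q * M)) (stepDegReps q) :=
  fact_stepDegReps hqM not_dvd_one_int

lemma fact_stepReps_one [NeZero M] (hqM : q ∣ M) :
    IsFact (Lvl M) (Lvl (q * M)) (stepReps M q) :=
  fact_stepReps hqM not_dvd_one_int

variable {O : Type uO} [CommRing O] {A : Type uA} [AddCommGroup A] [Module O A]
  (ρ : Representation O (ZMod M)ˣ A) [NeZero M]

/-- The data of the trace from level `qM`. -/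
noncomputable def stepData : Data (toGL (q * M)) (toGL M)
    (gammaRep (pullRep ρ (dvd_mul_left M q))) (gammaRep ρ) {negOne (q * M)} {negOne M} (Fin q) :=
  matData (fact_stepReps_one hqM) (fun _ hx _ hγ => lvl_mul hx hγ) _ ρ (fun _ => LinearMap.id)
    fun x y γ g h => by
      rw [LinearMap.id_comp, LinearMap.comp_id, pullRep_apply, dUnit_eq_of_mul_eq
        (dvd_mul_left M q) (stepReps_apply_zero x).1 (stepReps_apply_zero y).1
        (stepReps_apply_zero y).2 h]

/-- The data of the twisted trace from level `qM`. -/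
noncomputable def stepDegData : Data (toGL (q * M)) (toGL M)
    (gammaRep (pullRep ρ (dvd_mul_left M q))) (gammaRep ρ) {negOne (q * M)} {negOne M} (Fin q) :=
  matData (fact_stepDegReps_one hqM) degenSet_mul_mem _ ρ (fun _ => LinearMap.id)
    fun x y γ g h => by
      rw [LinearMap.id_comp, LinearMap.comp_id, pullRep_apply, dUnit_eq_of_mul_eq
        (dvd_mul_left M q) (stepDegReps_apply_zero x).1 (stepDegReps_apply_zero y).1
        (stepDegReps_apply_zero y).2 h]

/-- The trace from level `qM` to level `M`, `q ∣ M`. -/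
noncomputable def stepTrace : Coh1 (pullRep ρ (dvd_mul_left M q)) →ₗ[O] Coh1 ρ :=
  (stepData hqM ρ).onH1 toGL_injective

/-- The trace adjoint to `z ↦ q z`, from level `qM` to level `M`, `q ∣ M`. -/
noncomputable def stepTraceTwist : Coh1 (pullRep ρ (dvd_mul_left M q)) →ₗ[O] Coh1 ρ :=
  (stepDegData hqM ρ).onH1 toGL_injective

section Hecke

variable {ℓ : ℕ} [hℓ : Fact ℓ.Prime] (hℓM : ¬ ℓ ∣ q * M)
include hℓM

omit [NeZero M] in
lemma not_dvd_natCast_prime : ¬ (q : ℤ) ∣ (ℓ : ℤ) := by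
  exact_mod_cast fun h => hℓM (((Nat.prime_dvd_prime_iff_eq hq.out hℓ.out).mp h) ▸
    dvd_mul_right q M)

theorem stepTrace_heckeOp (u : Coh1 (pullRep ρ (dvd_mul_left M q))) :
    stepTrace hqM ρ (heckeOp _ ℓ u) = heckeOp ρ ℓ (stepTrace hqM ρ u) :=
  transfer_heckeOp (X' := DetLevel M ℓ) ρ (fact_stepReps_one hqM) stepReps_apply_zero
    ((fact_heckMat_one hℓ.out fun h => hℓM (h.mul_left q)).comp (fact_stepReps_one hqM))
    ((fact_stepReps hqM (not_dvd_natCast_prime hℓM)).comp (fact_heckMat_one hℓ.out hℓM))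
    hℓM (stepData hqM ρ) (fun _ => rfl) (fun _ => rfl) u

omit [NeZero M] in
theorem stepTraceTwist_heckeOp (u : Coh1 (pullRep ρ (dvd_mul_left M q))) :
    stepTraceTwist hqM ρ (heckeOp _ ℓ u) = heckeOp ρ ℓ (stepTraceTwist hqM ρ u) :=
  transfer_heckeOp ρ (fact_stepDegReps_one hqM) stepDegReps_apply_zero
    ((isFact_mul_left (fact_heckMat_one hℓ.out fun h => hℓM (h.mul_left q)) (mm 1 0 0 q)
      (by simp [hq.out.ne_zero])).comp (fact_stepDegReps_one hqM))
    ((fact_stepDegReps hqM (not_dvd_natCast_prime hℓM)).comp (fact_heckMat_one hℓ.out hℓM))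
    hℓM (stepDegData hqM ρ) (fun _ => rfl) (fun _ => rfl) u

end Hecke

end Fermat.Agent.HeckeModule

namespace Fermat.Agent.HeckeModule

open HeckeJ0 LevelRaising

section Inter

variable {M q : ℕ} [hq : Fact q.Prime] [NeZero M] (O : Type uO) [CommRing O]

omit [NeZero M] in
/-- The crossing sum over `diag(1,q) Γ₀(M)`. -/
theorem finsum_degenSet_sepTerm {γ : Mat} (hγ : γ ∈ Lvl M) (v : Vec) :
    ∑ᶠ x ∈ degenSet M q, sepTerm 1 γ.adjugate vE v x.adjugate = inter M γ (diagVec q v) := by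
  have hinj : Set.InjOn (mm 1 0 0 (q : ℤ) * ·) (Lvl M) := fun a _ b _ e =>
    mat_cancel_left (by simpa using hq.out.ne_zero) e
  rw [degenSet, finsum_mem_image hinj]
  have hD : (mm 1 0 0 (q : ℤ)).adjugate = mm q 0 0 1 := by
    rw [adjugate_mm]; simp
  have hsum : ∑ᶠ z ∈ Lvl M, sepTerm 1 γ.adjugate vE v ((mm 1 0 0 (q : ℤ) * z).adjugate)
      = crossing (Lvl M) 1 γ.adjugate (act (mm q 0 0 1) vE) (act (mm q 0 0 1) v) := by
    rw [crossing, ← finsum_adjugate M 1]
    refine finsum_mem_congr rfl fun z _ => ?_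
    rw [Matrix.adjugate_mul_distrib, Matrix.adjugate_adjugate _ (by simp), hD]
    simp [sepTerm, act_mul]
  rw [hsum]
  have hG := isSym_inter hγ
  by_cases hv : v = 0
  · subst hv
    have h1 : act (mm (q : ℤ) 0 0 1) (0 : Vec) = 0 := by simp [act]
    rw [h1, show diagVec q (0 : Vec) = 0 by simp [diagVec], hG.zero, crossing]
    refine finsum_mem_eq_zero_of_forall_eq_zero fun x _ => ?_
    simp [sepTerm, side_eq_zero, crossDet, act]
  · have hdq : (mm (q : ℤ) 0 0 1).det ≠ 0 := by simpa using hq.out.ne_zero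
    rw [inter_pair hγ (act_ne_zero hdq vE_ne_zero) (act_ne_zero hdq hv),
      show act (mm (q : ℤ) 0 0 1) vE = (q : ℤ) • vE by simp [vE],
      hG.homog _ (by exact_mod_cast hq.out.ne_zero), hG.apply_vE, sub_zero]
    simp [diagVec]

theorem stepTrace_interClass (hqM : q ∣ M) (v : Vec) :
    stepTrace hqM (trivRep M O O) (interClass O v) = interClass O v :=
  congrArg (toCoh _) (factData_interCocycle O (fact_stepReps_one hqM)
    (fun _ hx _ hγ => lvl_mul hx hγ) (fun i => by rw [det_stepReps]; exact one_pos) one_ne_zero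
    (fun x hx => hx.1) v v fun γ _ => finsum_adjugate M 1 fun x => sepTerm 1 γ.adjugate vE v x)

theorem stepTraceTwist_interClass (hqM : q ∣ M) (v : Vec) :
    stepTraceTwist hqM (trivRep M O O) (interClass O v) = interClass O (diagVec q v) :=
  congrArg (toCoh _) (factData_interCocycle O (fact_stepDegReps_one hqM) degenSet_mul_mem
    (fun i => by rw [det_stepDegReps]; exact_mod_cast hq.out.pos)
    (r := (q : ℤ)) (by exact_mod_cast hq.out.ne_zero) (fun x hx => det_of_mem_degenSet hx)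
    v (diagVec q v) fun γ hγ => finsum_degenSet_sepTerm hγ v)

end Inter

end Fermat.Agent.HeckeModule
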