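import Fermat.Agent.TwoAdic.Scalar.ActsBy
import Fermat.Agent.TwoAdic.Scalar.TransferStep
import Fermat.Agent.TwoAdic.Scalar.IharaThree
import Fermat.Agent.HeckeModule.TraceComp

/-!
Operators on `H¹(Γ₀(M), A)`, trivial action, given by integral matrices: the identities between
degeneracy maps, transfers and `U_q` needed for the level raising `N → q²N`.
-/

set_option autoImplicit false

open CongruenceSubgroup Matrix.SpecialLinearGroup
open scoped MatrixGroups OnePoint

universe uO uA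

namespace Fermat.Agent.HeckeModule

open HeckeJ0 LevelRaising

section MatBy

variable {O : Type uO} [CommRing O] {A : Type uA} [AddCommGroup A] [Module O A] {M M' M'' : ℕ}

/-- The only central elements of `Γ₀(M)` in `GL₂(ℝ)` are `±1`. -/
lemma toGL_central {g : Gamma0 M} (h : toGL M g ∈ Subgroup.center (GL (Fin 2) ℝ)) :
    g = 1 ∨ g ∈ ({negOne M} : Set (Gamma0 M)) := by
  have key : ∀ X : Mat, X.det ≠ 0 →
      X * ((g : SL(2, ℤ)) : Mat) = ((g : SL(2, ℤ)) : Mat) * X := fun X hX =>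
    (matGL_mul_toGL_iff hX hX g g).mp (Subgroup.mem_center_iff.mp h (matGL X hX))
  have h1 := key (mm 1 1 0 1) (by simp)
  have h2 := key (mm 1 0 1 1) (by simp)
  rw [mm_eta ((g : SL(2, ℤ)) : Mat)] at h1 h2
  simp only [mm_mul, mm_inj] at h1 h2
  have hd := (g : SL(2, ℤ)).det_coe
  rw [Matrix.det_fin_two] at hd
  set a := (g : SL(2, ℤ)) 0 0 with ha
  have e10 : (g : SL(2, ℤ)) 1 0 = 0 := by linarith [h1.1]
  have e01 : (g : SL(2, ℤ)) 0 1 = 0 := by linarith [h2.1]
  have e11 : (g : SL(2, ℤ)) 1 1 = a := by linarith [h1.2.1]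
  rw [e10, e01, e11, mul_zero, sub_zero] at hd
  rcases Int.eq_one_or_neg_one_of_mul_eq_one hd with e | e
  · left
    refine Subtype.ext (Matrix.SpecialLinearGroup.ext _ _ fun i j => ?_)
    fin_cases i <;> fin_cases j <;> simp [e10, e01, e11, ← ha, e]
  · right
    refine Set.mem_singleton_iff.mpr (Subtype.ext (Matrix.SpecialLinearGroup.ext _ _ fun i j => ?_))
    fin_cases i <;> fin_cases j <;> simp [negOne, e10, e01, e11, ← ha, e]

/-- An operator given by translates by integral matrices. -/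
def MatBy {ρ : Representation O (ZMod M)ˣ A} {σ : Representation O (ZMod M')ˣ A}
    (Φ : Coh1 ρ →ₗ[O] Coh1 σ) {ι : Type*} [Fintype ι] (β : ι → Mat) : Prop :=
  ∃ h : ∀ x, (β x).det ≠ 0, ActsBy (O := O) (A := A) (ρ := gammaRep ρ) (σ := gammaRep σ)
    (K := {negOne M}) (K' := {negOne M'}) (toGL M) (toGL M') Φ fun x => matGL (β x) (h x)

namespace MatBy

variable {ρ : Representation O (ZMod M)ˣ A} {σ : Representation O (ZMod M')ˣ A}
  {τ : Representation O (ZMod M'')ˣ A}

theorem of_data {ι : Type*} [Fintype ι]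
    (D : Data (toGL M) (toGL M') (gammaRep ρ) (gammaRep σ) {negOne M} {negOne M'} ι)
    (hε : ∀ x, D.ε x = LinearMap.id) (β : ι → Mat) (hd : ∀ x, (β x).det ≠ 0)
    (hα : ∀ x, (D.α x : Matrix (Fin 2) (Fin 2) ℝ) = (β x).map (Int.cast : ℤ → ℝ)) :
    MatBy (ρ := ρ) (σ := σ) (D.onH1 toGL_injective) β := by
  refine ⟨hd, ?_⟩
  have e : (fun x => matGL (β x) (hd x)) = D.α := funext fun x => Units.ext (hα x).symm
  rw [e]
  exact ActsBy.of_data toGL_injective D hε

theorem id : MatBy (ρ := ρ) (σ := ρ) LinearMap.id fun _ : Unit => (1 : Mat) := by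
  refine ⟨fun _ => by simp, ?_⟩
  have e : (fun _ : Unit => matGL (1 : Mat) (by simp)) = fun _ => (1 : GL (Fin 2) ℝ) :=
    funext fun _ => Units.ext (by rw [val_matGL]; simp)
  rw [e]
  exact ActsBy.id

theorem comp {ι κ : Type*} [Fintype ι] [Fintype κ] {Φ : Coh1 ρ →ₗ[O] Coh1 σ}
    {Ψ : Coh1 σ →ₗ[O] Coh1 τ} {a : ι → Mat} {b : κ → Mat} (hΦ : MatBy Φ a) (hΨ : MatBy Ψ b) :
    MatBy (Ψ ∘ₗ Φ) fun p : ι × κ => a p.1 * b p.2 := by
  obtain ⟨ha, h1⟩ := hΦ
  obtain ⟨hb, h2⟩ := hΨ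
  have hab : ∀ p : ι × κ, (a p.1 * b p.2).det ≠ 0 := fun p => by
    rw [Matrix.det_mul]; exact mul_ne_zero (ha _) (hb _)
  refine ⟨hab, ?_⟩
  intro c F hF hz
  obtain ⟨d, hd, hd'⟩ := h1 c F hF hz
  obtain ⟨e, he, he'⟩ := h2 d _ hd' (isCentralInv_sum hz _)
  refine ⟨e, he.trans (congrArg Ψ hd), ?_⟩
  have h : (fun X => ∑ y, ∑ x, F (matGL (a x) (ha x) * (matGL (b y) (hb y) * X)))
      = fun X => ∑ p : ι × κ, F (matGL (a p.1 * b p.2) (hab p) * X) := by
    funext X
    rw [Fintype.sum_prod_type, Finset.sum_comm]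
    refine Finset.sum_congr rfl fun x _ => Finset.sum_congr rfl fun y _ => congrArg F ?_
    rw [← mul_assoc]
    refine congrArg (· * X) (Units.ext ?_)
    rw [Units.val_mul, val_matGL, val_matGL, val_matGL, ← Matrix.map_mul_intCast]
  rwa [h] at he'

theorem add {ι κ : Type*} [Fintype ι] [Fintype κ] {Φ Ψ : Coh1 ρ →ₗ[O] Coh1 σ} {a : ι → Mat}
    {b : κ → Mat} (hΦ : MatBy Φ a) (hΨ : MatBy Ψ b) : MatBy (Φ + Ψ) (Sum.elim a b) := by
  obtain ⟨ha, h1⟩ := hΦ
  obtain ⟨hb, h2⟩ := hΨ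
  refine ⟨fun p => by rcases p with x | y; exacts [ha x, hb y], ?_⟩
  have e : (fun p : ι ⊕ κ => matGL (Sum.elim a b p)
      (by rcases p with x | y; exacts [ha x, hb y])) =
      Sum.elim (fun x => matGL (a x) (ha x)) fun y => matGL (b y) (hb y) :=
    funext fun p => by rcases p with x | y <;> rfl
  rw [e]
  exact ActsBy.add h1 h2

theorem natSmul {ι : Type*} [Fintype ι] {Φ : Coh1 ρ →ₗ[O] Coh1 σ} {a : ι → Mat} (hΦ : MatBy Φ a)
    (n : ℕ) : MatBy ((n : O) • Φ) fun p : Fin n × ι => a p.2 := by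
  obtain ⟨ha, h1⟩ := hΦ
  exact ⟨fun p => ha _, ActsBy.natSmul h1 n⟩

/-- Two operators with translates matching up to `Γ₀(M)` and scalars are equal. -/
theorem eq {ι κ : Type*} [Fintype ι] [Fintype κ] {Φ Ψ : Coh1 ρ →ₗ[O] Coh1 σ} {a : ι → Mat}
    {b : κ → Mat} (hρ : ∀ u, ρ u = 1) (hΦ : MatBy Φ a) (hΨ : MatBy Ψ b) (e : ι ≃ κ)
    (h : ∀ x, ∃ γ ∈ Lvl M, ∃ k k' : ℕ, k ≠ 0 ∧ k' ≠ 0 ∧
      (k' : ℤ) • a x = γ * ((k : ℤ) • b (e x))) :
    Φ = Ψ := by
  obtain ⟨ha, h1⟩ := hΦ
  obtain ⟨hb, h2⟩ := hΨ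
  refine ActsBy.eq (fun g => hρ _) (fun g => toGL_central) h1 h2 e fun x => ?_
  obtain ⟨γ, hγ, k, k', hk, hk', he⟩ := h x
  refine ⟨lvlElt hγ, (scalarGL k' hk')⁻¹ * scalarGL k hk, ?_, ?_⟩
  · exact mul_mem (inv_mem (Subgroup.mem_center_iff.mpr fun X => (scalarGL_comm hk' X).symm.eq))
      (Subgroup.mem_center_iff.mpr fun X => (scalarGL_comm hk X).symm.eq)
  · have e1 : scalarGL k' hk' * matGL (a x) (ha x) =
        toGL M (lvlElt hγ) * (scalarGL k hk * matGL (b (e x)) (hb _)) := by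
      refine Units.ext ?_
      rw [Units.val_mul, Units.val_mul, Units.val_mul, val_toGL, scalarGL, scalarGL, val_matGL,
        val_matGL, val_matGL, val_matGL, ← Matrix.map_mul_intCast, ← Matrix.map_mul_intCast,
        ← Matrix.map_mul_intCast]
      have hs : ∀ n : ℤ, ∀ Y : Mat, mm n 0 0 n * Y = n • Y := fun n Y => by
        rw [mm_eta Y, mm_mul, smul_mm]; simp
      rw [hs, hs]
      exact congrArg (fun X : Mat => X.map (Int.cast : ℤ → ℝ)) he
    show matGL (a x) (ha x) = toGL M (lvlElt hγ) * _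
    rw [← inv_mul_cancel_left (scalarGL k' hk') (matGL (a x) (ha x)), e1,
      ← mul_assoc, (scalarGL_comm hk' _).inv_left.eq]
    group

end MatBy

end MatBy

section Basic

variable {O : Type uO} [CommRing O] {A : Type uA} [AddCommGroup A] [Module O A]
  {M q : ℕ} [hq : Fact q.Prime] (ρ : Representation O (ZMod M)ˣ A)

omit hq in
theorem matBy_degenOne : MatBy (degenOne ρ q) fun _ : Unit => mm 1 0 0 1 :=
  MatBy.of_data (degenData ρ (N' := q * M) one_ne_zero (by rw [one_mul]; exact dvd_mul_left M q))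
    (fun _ => rfl) _ (fun _ => by simp) fun _ => by
      rw [show (1 : ℤ) = ((1 : ℕ) : ℤ) from rfl]; exact val_degenMat_mm one_ne_zero

theorem matBy_degenUp : MatBy (degenUp ρ q) fun _ : Unit => mm q 0 0 1 :=
  MatBy.of_data (degenData ρ (N' := q * M) hq.out.ne_zero dvd_rfl)
    (fun _ => rfl) _ (fun _ => by simp [hq.out.ne_zero]) fun _ => val_degenMat_mm hq.out.ne_zero

variable [NeZero M]

theorem matBy_stepTrace (hqM : q ∣ M) : MatBy (stepTrace hqM ρ) (stepReps M q) :=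
  MatBy.of_data (stepData hqM ρ) (fun _ => rfl) _ (fun j => by simp) fun _ => rfl

omit [NeZero M] in
theorem matBy_stepTraceTwist (hqM : q ∣ M) : MatBy (stepTraceTwist hqM ρ) (stepDegReps q) :=
  MatBy.of_data (stepDegData hqM ρ) (fun _ => rfl) _
    (fun j => by simp [hq.out.ne_zero]) fun _ => rfl

/-- `U_q` at a level divisible by `q`. -/
noncomputable def uOp (hqM : q ∣ M) : Module.End O (Coh1 ρ) :=
  stepTraceTwist hqM ρ ∘ₗ degenOne ρ q

omit [NeZero M] in
theorem matBy_uOp (hqM : q ∣ M) :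
    MatBy (uOp ρ hqM) fun p : Unit × Fin q => mm 1 0 0 1 * stepDegReps q p.2 :=
  (matBy_degenOne ρ).comp (matBy_stepTraceTwist ρ hqM)

variable {ρ} (hρ : ∀ u, ρ u = 1)
include hρ

/-- `U_q` at level `qM` of the classes from `z ↦ q z`. -/
theorem uOp_degenUp (u : Coh1 ρ) :
    uOp (pullRep ρ (dvd_mul_left M q)) (dvd_mul_right q M) (degenUp ρ q u) =
      (q : O) • degenOne ρ q u := by
  have h := MatBy.eq hρ ((matBy_degenUp ρ).comp (matBy_uOp (pullRep ρ (dvd_mul_left M q))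
    (dvd_mul_right q M))) ((matBy_degenOne ρ).natSmul q)
    ⟨fun p => (p.2.2, ()), fun p => ((), (), p.1), fun _ => rfl, fun _ => rfl⟩ fun p => ?_
  · exact LinearMap.congr_fun h u
  · refine ⟨mm 1 (p.2.2 : ℕ) 0 1, mm_mem_detLevel.mpr ⟨by ring, dvd_zero _⟩, q, 1,
      hq.out.ne_zero, one_ne_zero, ?_⟩
    simp only [Nat.cast_one, one_smul, smul_mm, stepDegReps]
    simp [mm_mul, mul_comm]

/-- `U_q` commutes with the degeneracy map of `z ↦ z`. -/
theorem uOp_degenOne (hqM : q ∣ M) (u : Coh1 ρ) :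
    uOp (pullRep ρ (dvd_mul_left M q)) (dvd_mul_right q M) (degenOne ρ q u) =
      degenOne ρ q (uOp ρ hqM u) := by
  have h := MatBy.eq hρ ((matBy_degenOne ρ).comp (matBy_uOp (pullRep ρ (dvd_mul_left M q))
    (dvd_mul_right q M))) ((matBy_uOp ρ hqM).comp (matBy_degenOne ρ))
    ⟨fun p => (((), p.2.2), ()), fun p => ((), (), p.1.2), fun _ => rfl, fun _ => rfl⟩ fun p => ?_
  · exact LinearMap.congr_fun h u
  · refine ⟨1, one_mem_lvl M, 1, 1, one_ne_zero, one_ne_zero, ?_⟩
    simp only [Nat.cast_one, one_smul, mm_one, stepDegReps]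
    simp [mm_mul, mul_comm]

/-- `trace ∘ res = q` when `q ∣ M`. -/
theorem stepTrace_degenOne (hqM : q ∣ M) (u : Coh1 ρ) :
    stepTrace hqM ρ (degenOne ρ q u) = (q : O) • u := by
  have h := MatBy.eq hρ ((matBy_degenOne ρ).comp (matBy_stepTrace ρ hqM))
    ((MatBy.id (ρ := ρ)).natSmul q)
    ⟨fun p => (p.2, ()), fun p => ((), p.1), fun _ => rfl, fun _ => rfl⟩ fun p => ?_
  · exact LinearMap.congr_fun h u
  · refine ⟨stepReps M q p.2, stepReps_mem p.2, 1, 1, one_ne_zero, one_ne_zero, ?_⟩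
    simp only [Nat.cast_one, one_smul, mm_one, stepReps]
    simp [mm_mul, mul_comm]

omit [NeZero M] in
/-- `twisted trace ∘ (z ↦ q z) = q` when `q ∣ M`. -/
theorem stepTraceTwist_degenUp (hqM : q ∣ M) (u : Coh1 ρ) :
    stepTraceTwist hqM ρ (degenUp ρ q u) = (q : O) • u := by
  have h := MatBy.eq hρ ((matBy_degenUp ρ).comp (matBy_stepTraceTwist ρ hqM))
    ((MatBy.id (ρ := ρ)).natSmul q)
    ⟨fun p => (p.2, ()), fun p => ((), p.1), fun _ => rfl, fun _ => rfl⟩ fun p => ?_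
  · exact LinearMap.congr_fun h u
  · refine ⟨mm 1 (p.2 : ℕ) 0 1, mm_mem_detLevel.mpr ⟨by ring, dvd_zero _⟩, q, 1,
      hq.out.ne_zero, one_ne_zero, ?_⟩
    simp only [Nat.cast_one, one_smul, mm_one, smul_mm, stepDegReps]
    simp [mm_mul, mul_comm]

/-- The trace after `U_q` is the twisted trace, `q` times. -/
theorem stepTrace_uOp (hqM : q ∣ M) (u : Coh1 (pullRep ρ (dvd_mul_left M q))) :
    stepTrace hqM ρ (uOp (pullRep ρ (dvd_mul_left M q)) (dvd_mul_right q M) u) =
      (q : O) • stepTraceTwist hqM ρ u := by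
  have h := MatBy.eq (ρ := pullRep ρ (dvd_mul_left M q)) (fun u => hρ _) ((matBy_uOp (pullRep ρ (dvd_mul_left M q))
    (dvd_mul_right q M)).comp (matBy_stepTrace ρ hqM)) ((matBy_stepTraceTwist ρ hqM).natSmul q)
    ({ toFun := fun p => (p.2, p.1.2), invFun := fun p => (((), p.2), p.1)
       left_inv := fun _ => rfl, right_inv := fun _ => rfl } :
      (Unit × Fin q) × Fin q ≃ Fin q × Fin q) fun p => ?_
  · exact LinearMap.congr_fun h u
  · obtain ⟨c, hc⟩ := hqM
    refine ⟨mm (1 + (p.1.2 : ℕ) * ((M : ℤ) * (p.2 : ℕ)))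
      (-((p.1.2 : ℕ) * ((c : ℤ) * (p.2 : ℕ)) * (p.1.2 : ℕ))) ((q : ℤ) * M * (p.2 : ℕ))
      (1 - (M : ℤ) * (p.2 : ℕ) * (p.1.2 : ℕ)), mm_mem_detLevel.mpr ⟨?_, ?_⟩, 1, 1, one_ne_zero,
      one_ne_zero, ?_⟩
    · rw [hc]; push_cast; ring
    · push_cast; exact dvd_mul_right _ _
    · simp only [Nat.cast_one, one_smul, Equiv.coe_fn_mk, stepReps, stepDegReps, mm_mul, mm_inj]
      rw [hc]; push_cast
      refine ⟨?_, ?_, ?_, ?_⟩ <;> ring

/-- The twisted trace commutes with `U_q`. -/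
theorem stepTraceTwist_uOp (hqM : q ∣ M) (u : Coh1 (pullRep ρ (dvd_mul_left M q))) :
    stepTraceTwist hqM ρ (uOp (pullRep ρ (dvd_mul_left M q)) (dvd_mul_right q M) u) =
      uOp ρ hqM (stepTraceTwist hqM ρ u) := by
  have h := MatBy.eq (ρ := pullRep ρ (dvd_mul_left M q)) (fun u => hρ _) ((matBy_uOp (pullRep ρ (dvd_mul_left M q))
    (dvd_mul_right q M)).comp (matBy_stepTraceTwist ρ hqM))
    ((matBy_stepTraceTwist ρ hqM).comp (matBy_uOp ρ hqM))
    ({ toFun := fun p => (p.1.2, (), p.2), invFun := fun p => (((), p.1), p.2.2)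
       left_inv := fun _ => rfl, right_inv := fun _ => rfl } :
      (Unit × Fin q) × Fin q ≃ Fin q × (Unit × Fin q)) fun p => ?_
  · exact LinearMap.congr_fun h u
  · refine ⟨1, one_mem_lvl _, 1, 1, one_ne_zero, one_ne_zero, ?_⟩
    simp only [Nat.cast_one, one_smul, mm_one, stepDegReps]
    simp [mm_mul, mul_comm]

end Basic

lemma natCast_one_smul_mat {x y : Mat} (h : x = y) :
    ((1 : ℕ) : ℤ) • x = ((1 : ℕ) : ℤ) • y := by rw [h]

section Cotame

variable {O : Type uO} [CommRing O] {A : Type uA} [AddCommGroup A] [Module O A]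
  {N q : ℕ} [hq : Fact q.Prime] [NeZero N] (ρ : Representation O (ZMod N)ˣ A) (hqN : ¬ q ∣ N)

omit [NeZero N] in
theorem matBy_trace : MatBy (trace ρ hqN) (traceMat N q) :=
  MatBy.of_data (traceData ρ hqN) (fun _ => rfl) _ (fact_traceMat' hqN).det_ne_zero fun _ => rfl

omit [NeZero N] in
theorem matBy_traceTwist : MatBy (traceTwist ρ hqN) (degenReps N q) :=
  MatBy.of_data (traceTwistData ρ hqN) (fun _ => rfl) _ (fact_degenReps hqN).det_ne_zero
    fun _ => rfl

variable {ρ} (hρ : ∀ u, ρ u = 1)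
include hρ

omit [NeZero N] in
include hqN in
theorem matBy_heckeOp : MatBy (heckeOp ρ q)
    (fun x : Idx N q => heckMat q ((idxEquiv hqN).symm x)) := by
  have : NeZero q := ⟨hq.out.ne_zero⟩
  refine MatBy.of_data (heckeData ρ q) (fun _ => hρ _) _
    (fun x => by rw [det_heckMat]; exact_mod_cast hq.out.ne_zero) fun x => ?_
  have h := rep_idxEquiv hqN ((idxEquiv hqN).symm x)
  rw [Equiv.apply_symm_apply] at h
  exact h

include hqN in
/-- `U_q ∘ res + (z ↦ q z) = res ∘ T_q`. -/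
theorem uOp_degenOne_add (u : Coh1 ρ) :
    uOp (pullRep ρ (dvd_mul_left N q)) (dvd_mul_right q N) (degenOne ρ q u) + degenUp ρ q u =
      degenOne ρ q (heckeOp ρ q u) := by
  have hΦ := ((matBy_degenOne (q := q) ρ).comp (matBy_uOp (pullRep ρ (dvd_mul_left N q))
    (dvd_mul_right q N))).add (matBy_degenUp ρ)
  have hΨ := (matBy_heckeOp hqN hρ).comp (matBy_degenOne (q := q) ρ)
  let f : (Unit × Unit × Fin q) ⊕ Unit ≃ Idx N q × Unit :=
    { toFun := fun p => (idxEquiv hqN (p.elim (fun a => some a.2.2) fun _ => none), ())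
      invFun := fun p => ((idxEquiv hqN).symm p.1).elim (.inr ()) fun i => .inl ((), (), i)
      left_inv := by rintro (⟨⟨⟩, ⟨⟩, i⟩ | ⟨⟩) <;> simp
      right_inv := by
        rintro ⟨x, ⟨⟩⟩
        obtain ⟨o, rfl⟩ := (idxEquiv hqN).surjective x
        cases o <;> simp }
  refine LinearMap.congr_fun (MatBy.eq hρ hΦ hΨ f fun p => ?_) u
  refine ⟨1, one_mem_lvl N, 1, 1, one_ne_zero, one_ne_zero, ?_⟩
  rw [one_mul]
  refine natCast_one_smul_mat ?_
  rcases p with ⟨⟨⟩, ⟨⟩, i⟩ | ⟨⟩ <;>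
    simp [f, heckMat, stepDegReps, mm_mul]

include hqN in
/-- `U_q^* ∘ (z ↦ q² z) + res = (z ↦ q z) ∘ T_q`. -/
theorem stepTrace_degenUp_degenUp (u : Coh1 ρ) :
    stepTrace (dvd_mul_right q N) (pullRep ρ (dvd_mul_left N q))
        (degenUp (pullRep ρ (dvd_mul_left N q)) q (degenUp ρ q u)) + degenOne ρ q u =
      degenUp ρ q (heckeOp ρ q u) := by
  have hq0 := hq.out.ne_zero
  have hps := Nat.prime_iff_prime_int.mp hq.out
  have hN : ¬ (q : ℤ) ∣ (N : ℤ) := by exact_mod_cast hqN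
  have hΦ := (matBy_heckeOp hqN hρ).comp (matBy_degenUp (q := q) ρ)
  have hΨ := (((matBy_degenUp ρ).comp (matBy_degenUp (pullRep ρ (dvd_mul_left N q)))).comp
    (matBy_stepTrace (pullRep ρ (dvd_mul_left N q)) (dvd_mul_right q N))).add (matBy_degenOne (q := q) ρ)
  have hex : ∀ l : Fin q, (l : ℕ) ≠ 0 →
      ∃ j : Fin q, (q : ℤ) ∣ 1 - (N : ℤ) * (l : ℕ) * (j : ℕ) := fun l hl => by
    refine exists_fin_dvd hq.out (fun h => ?_) 1
    rcases hps.dvd_or_dvd h with h | h
    · exact hN h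
    · exact hl (Nat.eq_zero_of_dvd_of_lt (by exact_mod_cast h) l.2)
  choose j hj using hex
  have hj0 : ∀ l hl, (j l hl : ℕ) ≠ 0 := fun l hl h => by
    have := hj l hl
    rw [h, Nat.cast_zero, mul_zero, sub_zero] at this
    exact not_dvd_one_int this
  let f : Idx N q × Unit → ((Unit × Unit) × Fin q) ⊕ Unit := fun p =>
    match (idxEquiv hqN).symm p.1 with
    | none => .inl (((), ()), ⟨0, hq.out.pos⟩)
    | some l => if h : (l : ℕ) = 0 then .inr () else .inl (((), ()), j l h)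
  have hf : Function.Bijective f := by
    rw [Fintype.bijective_iff_injective_and_card]
    refine ⟨?_, ?_⟩
    · rintro ⟨x, ⟨⟩⟩ ⟨x', ⟨⟩⟩ h
      obtain ⟨o, rfl⟩ := (idxEquiv hqN).surjective x
      obtain ⟨o', rfl⟩ := (idxEquiv hqN).surjective x'
      simp only [f, Equiv.symm_apply_apply] at h
      rcases o with _ | l <;> rcases o' with _ | l'
      · rfl
      · by_cases hl : (l' : ℕ) = 0
        · simp [hl] at h
        · simp [hl] at h
          exact absurd (congrArg Fin.val h).symm (hj0 l' hl)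
      · by_cases hl : (l : ℕ) = 0
        · simp [hl] at h
        · simp [hl] at h
          exact absurd (congrArg Fin.val h) (hj0 l hl)
      · by_cases hl : (l : ℕ) = 0 <;> by_cases hl' : (l' : ℕ) = 0 <;> simp [hl, hl'] at h
        · rw [show l = l' from Fin.ext (hl.trans hl'.symm)]
        · have e1 := hj l hl
          have e2 := hj l' hl'
          rw [h] at e1
          have e : (q : ℤ) ∣ ((N : ℤ) * (j l' hl' : ℕ)) * (((l' : ℕ) : ℤ) - ((l : ℕ) : ℤ)) := by
            rw [show ((N : ℤ) * (j l' hl' : ℕ)) * (((l' : ℕ) : ℤ) - ((l : ℕ) : ℤ)) =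
              (1 - (N : ℤ) * (l : ℕ) * (j l' hl' : ℕ)) - (1 - (N : ℤ) * (l' : ℕ) * (j l' hl' : ℕ))
              by ring]
            exact dvd_sub e1 e2
          rw [← fin_eq_of_dvd ((hps.dvd_or_dvd e).resolve_left fun h' => (hps.dvd_or_dvd h').elim hN
            fun h'' => hj0 l' hl' (Nat.eq_zero_of_dvd_of_lt (by exact_mod_cast h'') (Fin.is_lt _)))]
    · rw [Fintype.card_prod, ← Fintype.card_congr (idxEquiv hqN)]
      simp
  refine (LinearMap.congr_fun (MatBy.eq hρ hΦ hΨ (Equiv.ofBijective f hf) fun p => ?_) u).symm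
  obtain ⟨x, ⟨⟩⟩ := p
  obtain ⟨o, rfl⟩ := (idxEquiv hqN).surjective x
  rw [Equiv.ofBijective_apply]
  rcases o with _ | l
  · refine ⟨1, one_mem_lvl N, 1, 1, one_ne_zero, one_ne_zero, ?_⟩
    rw [show f (idxEquiv hqN none, ()) = .inl (((), ()), ⟨0, hq.out.pos⟩) by simp [f]]
    simp [heckMat, stepReps, mm_mul]
  · by_cases hl : (l : ℕ) = 0
    · refine ⟨1, one_mem_lvl N, q, 1, hq0, one_ne_zero, ?_⟩
      rw [show f (idxEquiv hqN (some l), ()) = .inr () by
        simp only [f, Equiv.symm_apply_apply, dif_pos hl]]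
      simp only [Sum.elim_inr, Equiv.symm_apply_apply, heckMat, smul_mm, mm_mul, one_mul,
        mm_inj, hl]
      simp
    · obtain ⟨v, hv⟩ := hj l hl
      refine ⟨mm v (l : ℕ) (-((N : ℤ) * (j l hl : ℕ))) q, mm_mem_detLevel.mpr
        ⟨by linear_combination (-1 : ℤ) * hv, ⟨-((j l hl : ℕ) : ℤ), by ring⟩⟩, 1, 1,
        one_ne_zero, one_ne_zero, ?_⟩
      rw [show f (idxEquiv hqN (some l), ()) = .inl (((), ()), j l hl) by
        simp only [f, Equiv.symm_apply_apply, dif_neg hl]]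
      simp only [Nat.cast_one, one_smul, Sum.elim_inl, Equiv.symm_apply_apply, heckMat, stepReps,
        mm_mul, mm_inj]
      push_cast
      refine ⟨?_, ?_, ?_, ?_⟩
      · linear_combination (q : ℤ) * hv
      · ring
      · ring
      · ring

include hqN in
/-- `twisted trace ∘ U_q + trace = T_q ∘ twisted trace`. -/
theorem traceTwist_uOp (x : Coh1 (pullRep ρ (dvd_mul_left N q))) :
    traceTwist ρ hqN (uOp (pullRep ρ (dvd_mul_left N q)) (dvd_mul_right q N) x) +
        trace ρ hqN x = heckeOp ρ q (traceTwist ρ hqN x) := by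
  have hq0 := hq.out.ne_zero
  have hps := Nat.prime_iff_prime_int.mp hq.out
  have hN : ¬ (q : ℤ) ∣ (N : ℤ) := by exact_mod_cast hqN
  set D := alD N q with hD
  set B := alB N q with hB
  have hal : (q : ℤ) * D - N * B = 1 := al_spec hq.out hqN
  have hBq : ¬ (q : ℤ) ∣ B := fun h => not_dvd_one_int (q := q)
    (hal ▸ dvd_sub (dvd_mul_right _ _) (h.mul_left _))
  have hNi : ∀ a : ℤ, ∃ i : Fin q, (q : ℤ) ∣ a - (N : ℤ) * (i : ℕ) := exists_fin_dvd hq.out hN
  obtain ⟨i₀, hi₀⟩ := hNi (-D)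
  have hi : ∀ j : Fin q, (j : ℕ) ≠ 0 →
      ∃ i : Fin q, (q : ℤ) ∣ B - ((j : ℕ) : ℤ) * (D + N * (i : ℕ)) := fun j hj => by
    have hjq : ¬ (q : ℤ) ∣ ((j : ℕ) : ℤ) * N := fun h => (hps.dvd_or_dvd h).elim
      (fun h' => hj (Nat.eq_zero_of_dvd_of_lt (by exact_mod_cast h') j.2)) hN
    obtain ⟨i, hi⟩ := exists_fin_dvd hq.out hjq (B - ((j : ℕ) : ℤ) * D)
    exact ⟨i, by rw [show B - ((j : ℕ) : ℤ) * (D + N * (i : ℕ)) =
      B - ((j : ℕ) : ℤ) * D - ((j : ℕ) : ℤ) * N * (i : ℕ) by ring]; exact hi⟩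
  choose i hi using hi
  have hne : ∀ j hj, i j hj ≠ i₀ := fun j hj h => by
    refine hBq ?_
    have h1 := hi j hj
    rw [h] at h1
    have h2 := (hi₀.mul_left ((j : ℕ) : ℤ))
    have := dvd_sub h1 h2
    rw [show B = (B - ((j : ℕ) : ℤ) * (D + N * (i₀ : ℕ))) -
      ((j : ℕ) : ℤ) * (-D - N * (i₀ : ℕ)) by ring]
    exact this
  have hΦ := (matBy_traceTwist ρ hqN).comp (matBy_heckeOp hqN hρ)
  have hΨ := ((matBy_uOp (pullRep ρ (dvd_mul_left N q)) (dvd_mul_right q N)).comp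
    (matBy_traceTwist ρ hqN)).add (matBy_trace ρ hqN)
  let f : Option (Fin q) × Idx N q → ((Unit × Fin q) × Option (Fin q)) ⊕ Option (Fin q) := fun p =>
    match p.1, (idxEquiv hqN).symm p.2 with
    | some j, some l => .inl (((), j), some l)
    | some j, none => if h : (j : ℕ) = 0 then .inr none else .inl (((), i j h), none)
    | none, none => .inl (((), i₀), none)
    | none, some l => .inr (some l)
  have hf : Function.Bijective f := by
    rw [Fintype.bijective_iff_injective_and_card]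
    refine ⟨?_, ?_⟩
    · rintro ⟨a, x⟩ ⟨a', x'⟩ h
      obtain ⟨o, rfl⟩ := (idxEquiv hqN).surjective x
      obtain ⟨o', rfl⟩ := (idxEquiv hqN).surjective x'
      simp only [f, Equiv.symm_apply_apply] at h
      have h3 : ∀ j hj j' hj', i j hj = i j' hj' → j = j' := fun j hj j' hj' he => by
        have e1 := hi j hj
        have e2 := hi j' hj'
        rw [he] at e1
        have e : (q : ℤ) ∣ (D + N * (i j' hj' : ℕ)) * (((j' : ℕ) : ℤ) - ((j : ℕ) : ℤ)) := by
          rw [show (D + N * (i j' hj' : ℕ)) * (((j' : ℕ) : ℤ) - ((j : ℕ) : ℤ)) =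
            (B - ((j : ℕ) : ℤ) * (D + N * (i j' hj' : ℕ))) -
              (B - ((j' : ℕ) : ℤ) * (D + N * (i j' hj' : ℕ))) by ring]
          exact dvd_sub e1 e2
        refine (fin_eq_of_dvd ((hps.dvd_or_dvd e).resolve_left fun h' => hBq ?_)).symm
        have := dvd_add e2 (h'.mul_left ((j' : ℕ) : ℤ))
        rwa [sub_add_cancel] at this
      rcases a with _ | j <;> rcases a' with _ | j' <;> rcases o with _ | l <;>
        rcases o' with _ | l' <;>
        simp only [Sum.inl.injEq, Sum.inr.injEq, Prod.mk.injEq, Option.some.injEq, reduceCtorEq,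
          and_false, true_and] at h
      all_goals first
        | rfl
        | (subst h; rfl)
        | (obtain ⟨rfl, rfl⟩ := h; rfl)
        | (split at h <;> (try split at h) <;>
            simp only [Sum.inl.injEq, Sum.inr.injEq, Prod.mk.injEq,
              reduceCtorEq, and_false, true_and, and_true] at h <;>
            first
              | exact absurd h (hne _ _)
              | exact absurd h.symm (hne _ _)
              | rw [h3 _ _ _ _ h]
              | rw [show j = j' from Fin.ext (by omega)])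
    · rw [Fintype.card_prod, ← Fintype.card_congr (idxEquiv hqN)]
      simp
      ring
  refine (LinearMap.congr_fun (MatBy.eq (ρ := pullRep ρ (dvd_mul_left N q)) (fun u => hρ _)
    hΦ hΨ (Equiv.ofBijective f hf) fun p => ?_) x).symm
  obtain ⟨a, y⟩ := p
  obtain ⟨o, rfl⟩ := (idxEquiv hqN).surjective y
  rw [Equiv.ofBijective_apply]
  rcases a with _ | j <;> rcases o with _ | l
  · obtain ⟨u, hu⟩ := hi₀
    refine ⟨mm ((q : ℤ) ^ 2 * D - N * B) (B * (-u) - D * B - q * D * (i₀ : ℕ))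
      ((q : ℤ) * N * (q - 1)) (q * (-u) - N * B - (i₀ : ℕ) * q * N),
      mm_mem_detLevel.mpr ⟨?_, by push_cast; exact dvd_mul_right _ _⟩, 1, 1, one_ne_zero,
      one_ne_zero, ?_⟩
    · linear_combination ((q : ℤ) * D * (q - 1) + 2 + q * (-u - D - (i₀ : ℕ) * N) +
        (q * D - N * B - 1) + q * (q - 1) * (-u - D)) * hal + (q : ℤ) * hu
    · rw [show f (none, idxEquiv hqN none) = .inl (((), i₀), none) by simp [f]]
      simp only [Nat.cast_one, one_smul, Equiv.symm_apply_apply, Sum.elim_inl, heckMat, degenReps,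
        stepDegReps, mm_mul, mm_inj, ← hD, ← hB]
      refine ⟨?_, ?_, ?_, ?_⟩
      · linear_combination (-((q : ℤ) ^ 2 * D)) * hal - (q : ℤ) * N * B * hu
      · linear_combination (-B) * hal - (q : ℤ) * B * hu
      · linear_combination (-((q : ℤ) ^ 2 * N)) * hal - (q : ℤ) ^ 2 * N * hu
      · linear_combination (-(q : ℤ)) * hal - (q : ℤ) ^ 2 * hu
  · refine ⟨mm ((q : ℤ) * D ^ 2 - N * B) (B * (1 - D)) ((q : ℤ) * N * (D - 1)) (q - N * B),
      mm_mem_detLevel.mpr ⟨?_, by push_cast; exact dvd_mul_right _ _⟩, q, 1, hq0, one_ne_zero, ?_⟩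
    · linear_combination (2 + ((q : ℤ) * D - N * B - 1)) * hal
    · rw [show f (none, idxEquiv hqN (some l)) = .inr (some l) by simp [f]]
      simp only [Nat.cast_one, one_smul, Equiv.symm_apply_apply, Sum.elim_inr, heckMat, degenReps,
        traceMat, smul_mm, mm_mul, mm_inj, ← hD, ← hB]
      refine ⟨?_, ?_, ?_, ?_⟩
      · linear_combination (-((q : ℤ) * D)) * hal
      · linear_combination (-((q : ℤ) * (D * (l : ℕ) + B))) * hal
      · linear_combination (-((q : ℤ) * N)) * hal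
      · linear_combination (-((q : ℤ) * (N * (l : ℕ) + q))) * hal
  · by_cases hj : (j : ℕ) = 0
    · refine ⟨1, one_mem_lvl _, q, 1, hq0, one_ne_zero, ?_⟩
      rw [show f (some j, idxEquiv hqN none) = .inr none by
        simp only [f, Equiv.symm_apply_apply, dif_pos hj]]
      simp only [Nat.cast_one, one_smul, Equiv.symm_apply_apply, Sum.elim_inr, heckMat, degenReps,
        traceMat, mm_one, smul_mm, mm_mul, mm_inj, hj]
      simp
    · obtain ⟨v, hv⟩ := hi j hj
      refine ⟨mm ((q : ℤ) - (j : ℕ) * N) (-(v + (i j hj : ℕ))) (-((q : ℤ) * N))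
        (D + (i j hj : ℕ) * N), mm_mem_detLevel.mpr ⟨?_, by push_cast; exact ⟨-1, by ring⟩⟩, 1, 1,
        one_ne_zero, one_ne_zero, ?_⟩
      · linear_combination hal + (N : ℤ) * hv
      · rw [show f (some j, idxEquiv hqN none) = .inl (((), i j hj), none) by
          simp only [f, Equiv.symm_apply_apply, dif_neg hj]]
        simp only [Nat.cast_one, one_smul, Equiv.symm_apply_apply, Sum.elim_inl, heckMat, degenReps,
          stepDegReps, mm_mul, mm_inj, ← hD, ← hB]
        refine ⟨?_, ?_, ?_, ?_⟩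
        · linear_combination (-(q : ℤ)) * hal - (q : ℤ) * N * hv
        · linear_combination (-((j : ℕ) : ℤ)) * hal - (q : ℤ) * hv
        · ring
        · linear_combination (-(q : ℤ)) * hal
  · refine ⟨1, one_mem_lvl _, 1, 1, one_ne_zero, one_ne_zero, ?_⟩
    rw [show f (some j, idxEquiv hqN (some l)) = .inl (((), j), some l) by simp [f]]
    simp only [Nat.cast_one, one_smul, one_mul, Equiv.symm_apply_apply, Sum.elim_inl, heckMat,
      degenReps, stepDegReps, mm_mul, mm_inj]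
    refine ⟨?_, ?_, ?_, ?_⟩ <;> ring

include hqN in
/-- `trace ∘ U_q = q · twisted trace`. -/
theorem trace_uOp (x : Coh1 (pullRep ρ (dvd_mul_left N q))) :
    trace ρ hqN (uOp (pullRep ρ (dvd_mul_left N q)) (dvd_mul_right q N) x) =
      (q : O) • traceTwist ρ hqN x := by
  have hps := Nat.prime_iff_prime_int.mp hq.out
  have hN : ¬ (q : ℤ) ∣ (N : ℤ) := by exact_mod_cast hqN
  set D := alD N q with hD
  set B := alB N q with hB
  have hal : (q : ℤ) * D - N * B = 1 := al_spec hq.out hqN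
  obtain ⟨i₀, hi₀⟩ := exists_fin_dvd hq.out hN (-1)
  have hun : ∀ i : Fin q, i ≠ i₀ → ¬ (q : ℤ) ∣ 1 + ((i : ℕ) : ℤ) * N := fun i hne h => by
    refine hne (fin_eq_of_dvd ?_)
    refine (hps.dvd_or_dvd (a := (N : ℤ)) ?_).resolve_left hN
    rw [show (N : ℤ) * (((i : ℕ) : ℤ) - (i₀ : ℕ)) =
      (-1 - (N : ℤ) * (i₀ : ℕ)) + (1 + ((i : ℕ) : ℤ) * N) by ring]
    exact dvd_add hi₀ h
  have hI : ∀ i : Fin q, i ≠ i₀ → ∀ j : Fin q, ∃ I : Fin q, (q : ℤ) ∣
      B + (j : ℕ) + (i : ℕ) * (q * D + N * (j : ℕ)) - (1 + ((i : ℕ) : ℤ) * N) * (I : ℕ) :=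
    fun i hne j => exists_fin_dvd hq.out (hun i hne) _
  choose I hI using hI
  have hΦ := (matBy_uOp (pullRep ρ (dvd_mul_left N q)) (dvd_mul_right q N)).comp
    (matBy_trace ρ hqN)
  have hΨ := (matBy_traceTwist ρ hqN).natSmul q
  let f : (Unit × Fin q) × Option (Fin q) → Fin q × Option (Fin q) := fun p =>
    match p.2 with
    | none => (i₀, some p.1.2)
    | some j => if h : p.1.2 = i₀ then (j, none) else (p.1.2, some (I p.1.2 h j))
  have hf : Function.Bijective f := by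
    rw [Fintype.bijective_iff_injective_and_card]
    refine ⟨?_, by simp⟩
    rintro ⟨⟨⟨⟩, i⟩, o⟩ ⟨⟨⟨⟩, i'⟩, o'⟩ h
    rcases o with _ | j <;> rcases o' with _ | j'
    · simp only [f, Prod.mk.injEq, Option.some.injEq, true_and] at h
      rw [h]
    · by_cases hi : i' = i₀
      · simp [f, hi] at h
      · simp only [f, dif_neg hi, Prod.mk.injEq] at h
        exact absurd h.1.symm hi
    · by_cases hi : i = i₀
      · simp [f, hi] at h
      · simp only [f, dif_neg hi, Prod.mk.injEq] at h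
        exact absurd h.1 hi
    · by_cases hi : i = i₀ <;> by_cases hi' : i' = i₀
      · simp only [f, dif_pos hi, dif_pos hi', Prod.mk.injEq, and_true] at h
        rw [hi, hi', h]
      · simp [f, hi, hi'] at h
      · simp [f, hi, hi'] at h
      · simp only [f, dif_neg hi, dif_neg hi', Prod.mk.injEq, Option.some.injEq] at h
        obtain ⟨rfl, h⟩ := h
        have e1 := hI i hi j
        have e2 := hI i hi j'
        rw [h] at e1
        have e : (q : ℤ) ∣ (1 + ((i : ℕ) : ℤ) * N) * (((j' : ℕ) : ℤ) - (j : ℕ)) := by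
          rw [show (1 + ((i : ℕ) : ℤ) * N) * (((j' : ℕ) : ℤ) - (j : ℕ)) =
            (B + (j' : ℕ) + (i : ℕ) * (q * D + N * (j' : ℕ)) -
              (1 + ((i : ℕ) : ℤ) * N) * (I i hi j' : ℕ)) -
            (B + (j : ℕ) + (i : ℕ) * (q * D + N * (j : ℕ)) -
              (1 + ((i : ℕ) : ℤ) * N) * (I i hi j' : ℕ)) by ring]
          exact dvd_sub e2 e1
        rw [fin_eq_of_dvd ((hps.dvd_or_dvd e).resolve_left (hun i hi))]
  refine LinearMap.congr_fun (MatBy.eq (ρ := pullRep ρ (dvd_mul_left N q)) (fun u => hρ _)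
    hΦ hΨ (Equiv.ofBijective f hf) fun p => ?_) x
  obtain ⟨⟨⟨⟩, i⟩, o⟩ := p
  rw [Equiv.ofBijective_apply]
  rcases o with _ | j
  · refine ⟨1, one_mem_lvl _, 1, 1, one_ne_zero, one_ne_zero, ?_⟩
    rw [show f (((), i), none) = (i₀, some i) from rfl]
    simp only [Nat.cast_one, one_smul, one_mul, traceMat, degenReps, stepDegReps, mul_one, mm_mul,
      mm_inj]
    refine ⟨?_, ?_, ?_, ?_⟩ <;> ring
  · by_cases hi : i = i₀
    · obtain ⟨t, ht⟩ := hi₀
      rw [show f (((), i), some j) = (j, none) by simp only [f, dif_pos hi]]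
      set m : ℤ := q * D + N * (j : ℕ) with hm
      set R : ℤ := B + (j : ℕ) + (i : ℕ) * m with hR
      have hs : 1 + ((i : ℕ) : ℤ) * N = q * (-t) := by
        rw [hi]; linear_combination (-1 : ℤ) * ht
      refine ⟨mm (q * (-t) - R * N) (R * D - (-t) * B) (q * N * (1 - m)) (q * m * D - N * B),
        mm_mem_detLevel.mpr ⟨?_, by push_cast; exact dvd_mul_right _ _⟩, 1, 1, one_ne_zero,
        one_ne_zero, ?_⟩
      · rw [hR]
        linear_combination ((q : ℤ) * (-t) * m - (B + (j : ℕ) + (i : ℕ) * m) * N + 1) * hal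
          - m * hs + hm
      · simp only [Nat.cast_one, one_smul, traceMat, degenReps, stepDegReps, mm_mul, mm_inj,
          ← hD, ← hB, ← hm]
        refine ⟨?_, ?_, ?_, ?_⟩
        · linear_combination (-((q : ℤ) * (-t))) * hal + hs
        · linear_combination (-R) * hal - hR
        · linear_combination (-((q : ℤ) * N)) * hal
        · linear_combination (-((q : ℤ) * m)) * hal
    · obtain ⟨v, hv⟩ := hI i hi j
      rw [show f (((), i), some j) = (i, some (I i hi j)) by simp only [f, dif_neg hi]]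
      refine ⟨mm (1 + ((i : ℕ) : ℤ) * N) v ((q : ℤ) * N)
        (q * D + N * (j : ℕ) - N * (I i hi j : ℕ)),
        mm_mem_detLevel.mpr ⟨?_, by push_cast; exact dvd_rfl⟩, 1, 1, one_ne_zero, one_ne_zero, ?_⟩
      · linear_combination hal + (N : ℤ) * hv
      · simp only [Nat.cast_one, one_smul, traceMat, degenReps, stepDegReps, mm_mul, mm_inj,
          ← hD, ← hB]
        refine ⟨?_, ?_, ?_, ?_⟩
        · ring
        · linear_combination hv
        · ring
        · ring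

end Cotame

end Fermat.Agent.HeckeModule
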